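/-
Programme M1 (S44), chapter FIB (helper98), file 1: BRANCH IDEALS AND THE OVERLAP RING.

Abstract setting of `ES/N34/NodalCore13.NodalTwoChartModel`: `R → F` a field, charts
`B0 ∋ t`, `B1 ∋ t⁻¹` (subalgebras of `F`), two "Gauss" valuation subrings `O1`, `O2` of `F` with
uniformiser `π`, the charts being `π`-saturated in `O1 ⊓ O2`.

* `PiMem π O x` : `x ∈ π O` (N34's literal pattern `∃ c ∈ O, x = algebraMap R F π * c`).
* `IsGauss π O` : the four facts about one Gauss ring (`pi_ne`, `pi_nonunit`, `unif`, `arch`).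
* `branchIdeal π B O hle : Ideal B` : the prime ideal `B ∩ π O` of the component cut out by `O`;
  `branchIdeal_isPrime`, `inf_branchIdeal` (`𝔭₁ ⊓ 𝔭₂ = (π)` by saturation),
  `not_offBranch_iff` (`¬ OffBranch π B O 𝔪 ↔ 𝔭 ≤ 𝔪`), `branch_le_or` (a prime `∋ π` contains `𝔭₁`
  or `𝔭₂`).
* `overlap t B : Subalgebra R F` : `B[1/t]`; `le_overlap`, `overlap_eq` (`B0[1/t] = B1[t]`),
  `overlap_le`, `sat_overlap`.
-/
import Mathlib
import Fermat.Agent.ES.N34.NumData13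

set_option autoImplicit false

namespace Fermat.Agent.M1.Fib.Branch98

open Fermat.Agent.ES.N34.NodalCore13 Fermat.Agent.ES.N34.NodalCL13
  Fermat.Agent.ES.N34.NumData13

section PiMem

variable {R F : Type*} [CommRing R] [Field F] [Algebra R F]

/-- `x ∈ π O`. -/
def PiMem (π : R) (O : ValuationSubring F) (x : F) : Prop :=
  ∃ c ∈ O, x = algebraMap R F π * c

theorem piMem_iff {π : R} {O : ValuationSubring F} {x : F} :
    PiMem π O x ↔ ∃ c ∈ O, x = algebraMap R F π * c := Iff.rfl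

variable {π : R} {O : ValuationSubring F}

theorem PiMem.zero : PiMem π O 0 := ⟨0, O.zero_mem, by simp⟩

theorem PiMem.add {x y : F} (hx : PiMem π O x) (hy : PiMem π O y) : PiMem π O (x + y) := by
  obtain ⟨c, hc, rfl⟩ := hx
  obtain ⟨d, hd, rfl⟩ := hy
  exact ⟨c + d, O.add_mem _ _ hc hd, by ring⟩

theorem PiMem.neg {x : F} (hx : PiMem π O x) : PiMem π O (-x) := by
  obtain ⟨c, hc, rfl⟩ := hx
  exact ⟨-c, O.neg_mem _ hc, by ring⟩

theorem PiMem.sub {x y : F} (hx : PiMem π O x) (hy : PiMem π O y) : PiMem π O (x - y) := by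
  rw [sub_eq_add_neg]
  exact hx.add hy.neg

theorem PiMem.mul_left {x : F} (hx : PiMem π O x) {c : F} (hc : c ∈ O) : PiMem π O (c * x) := by
  obtain ⟨d, hd, rfl⟩ := hx
  exact ⟨c * d, O.mul_mem _ _ hc hd, by ring⟩

theorem PiMem.mul_right {x : F} (hx : PiMem π O x) {c : F} (hc : c ∈ O) : PiMem π O (x * c) := by
  rw [mul_comm]
  exact hx.mul_left hc

theorem PiMem.mem {x : F} (hπ : algebraMap R F π ∈ O) (hx : PiMem π O x) : x ∈ O := by
  obtain ⟨c, hc, rfl⟩ := hx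
  exact O.mul_mem _ _ hπ hc

theorem piMem_pi_mul {c : F} (hc : c ∈ O) : PiMem π O (algebraMap R F π * c) := ⟨c, hc, rfl⟩

theorem piMem_pi : PiMem π O (algebraMap R F π) := ⟨1, O.one_mem, by simp⟩

/-- `x ∈ π (O1 ⊓ O2)` is `x ∈ π O1` and `x ∈ π O2`. -/
theorem piO_iff {π : R} {O1 O2 : ValuationSubring F} (hπ : algebraMap R F π ≠ 0) {x : F} :
    PiO π O1 O2 x ↔ PiMem π O1 x ∧ PiMem π O2 x := by
  constructor
  · rintro ⟨c, h1, h2, rfl⟩
    exact ⟨⟨c, h1, rfl⟩, ⟨c, h2, rfl⟩⟩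
  · rintro ⟨⟨c, h1, hc⟩, ⟨d, h2, hd⟩⟩
    have : c = d := mul_left_cancel₀ hπ (hc.symm.trans hd)
    subst this
    exact ⟨c, h1, h2, hc⟩

end PiMem

section Gauss

variable {R F : Type*} [CommRing R] [Field F] [Algebra R F]

/-- The facts about one Gauss valuation ring `O` with uniformiser `π`. -/
structure IsGauss (π : R) (O : ValuationSubring F) : Prop where
  pi_ne : algebraMap R F π ≠ 0
  pi_mem : algebraMap R F π ∈ O
  pi_nonunit : (algebraMap R F π)⁻¹ ∉ O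
  unif : ∀ x ∈ O, x⁻¹ ∉ O → ∃ c ∈ O, x = algebraMap R F π * c
  arch : ∀ x : F, ∃ k : ℕ, algebraMap R F π ^ k * x ∈ O

variable {π : R} {O : ValuationSubring F}

/-- `1 ∉ π O`. -/
theorem IsGauss.not_piMem_one (h : IsGauss π O) : ¬ PiMem π O (1 : F) := by
  rintro ⟨c, hc, h1⟩
  apply h.pi_nonunit
  have : (algebraMap R F π)⁻¹ = c := inv_eq_of_mul_eq_one_right h1.symm
  rw [this]
  exact hc

/-- An element of `O` outside `π O` is a unit of `O`. -/
theorem IsGauss.inv_mem_of_not_piMem (h : IsGauss π O) {x : F} (hx : x ∈ O)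
    (hx' : ¬ PiMem π O x) : x⁻¹ ∈ O := by
  by_contra hinv
  exact hx' (h.unif x hx hinv)

/-- An element of `π O` is not a unit of `O`. -/
theorem IsGauss.inv_notMem_of_piMem (h : IsGauss π O) {x : F} (hx : PiMem π O x) (hx0 : x ≠ 0) :
    x⁻¹ ∉ O := by
  intro hinv
  apply h.not_piMem_one
  have := hx.mul_left hinv
  rwa [inv_mul_cancel₀ hx0] at this

/-- `π O` is a prime ideal of `O`. -/
theorem IsGauss.piMem_or_of_mul (h : IsGauss π O) {x y : F} (hx : x ∈ O)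
    (hxy : PiMem π O (x * y)) : PiMem π O x ∨ PiMem π O y := by
  by_cases hx' : PiMem π O x
  · exact Or.inl hx'
  · right
    have hinv := h.inv_mem_of_not_piMem hx hx'
    have hx0 : x ≠ 0 := by
      rintro rfl
      exact hx' PiMem.zero
    have := hxy.mul_left hinv
    rwa [← mul_assoc, inv_mul_cancel₀ hx0, one_mul] at this

/-- Elements of `F` are in `O` or have inverse in `π O`. -/
theorem IsGauss.mem_or_piMem_inv (h : IsGauss π O) (x : F) : x ∈ O ∨ PiMem π O x⁻¹ := by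
  by_cases hx : x ∈ O
  · exact Or.inl hx
  · right
    have hinv : x⁻¹ ∈ O := (O.mem_or_inv_mem x).resolve_left hx
    exact h.unif _ hinv (by rwa [inv_inv])

end Gauss

section BranchIdeal

variable {R F : Type*} [CommRing R] [Field F] [Algebra R F]
variable (π : R) (B : Subalgebra R F) (O : ValuationSubring F)

/-- The ideal `𝔭 = B ∩ π O` of the chart `B`: the component of the special fibre cut out by the
Gauss ring `O`. -/
def branchIdeal (hle : ∀ x ∈ B, x ∈ O) : Ideal B where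
  carrier := {b | PiMem π O (b : F)}
  add_mem' := by
    intro a b ha hb
    show PiMem π O ((a + b : B) : F)
    rw [Subalgebra.coe_add]
    exact ha.add hb
  zero_mem' := by
    show PiMem π O ((0 : B) : F)
    rw [Subalgebra.coe_zero]
    exact PiMem.zero
  smul_mem' := by
    intro c x hx
    show PiMem π O ((c * x : B) : F)
    rw [Subalgebra.coe_mul]
    exact PiMem.mul_left hx (hle _ c.2)

variable {π B O}

theorem mem_branchIdeal {hle : ∀ x ∈ B, x ∈ O} {b : B} :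
    b ∈ branchIdeal π B O hle ↔ PiMem π O (b : F) := Iff.rfl

theorem pi_mem_branchIdeal (hle : ∀ x ∈ B, x ∈ O) : algebraMap R B π ∈ branchIdeal π B O hle := by
  rw [mem_branchIdeal]
  exact piMem_pi

theorem span_pi_le_branchIdeal (hle : ∀ x ∈ B, x ∈ O) :
    Ideal.span {algebraMap R B π} ≤ branchIdeal π B O hle := by
  rw [Ideal.span_le, Set.singleton_subset_iff]
  exact pi_mem_branchIdeal hle

/-- The branch ideal is prime. -/
theorem branchIdeal_isPrime (h : IsGauss π O) (hle : ∀ x ∈ B, x ∈ O) :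
    (branchIdeal π B O hle).IsPrime := by
  refine ⟨?_, ?_⟩
  · intro htop
    have h1 : (1 : B) ∈ branchIdeal π B O hle := by rw [htop]; trivial
    rw [mem_branchIdeal, Subalgebra.coe_one] at h1
    exact h.not_piMem_one h1
  · intro a b hab
    rw [mem_branchIdeal, Subalgebra.coe_mul] at hab
    exact h.piMem_or_of_mul (hle _ a.2) hab

/-- "The component `O` passes through `𝔪`" iff `𝔭 ≤ 𝔪`. -/
theorem not_offBranch_iff (hle : ∀ x ∈ B, x ∈ O) (𝔪 : Ideal B) :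
    ¬ OffBranch π B O 𝔪 ↔ branchIdeal π B O hle ≤ 𝔪 := by
  constructor
  · intro h b hb
    by_contra hb𝔪
    exact h ⟨b, hb𝔪, hb⟩
  · rintro h ⟨e, he, hec⟩
    exact he (h hec)

theorem offBranch_iff (hle : ∀ x ∈ B, x ∈ O) (𝔪 : Ideal B) :
    OffBranch π B O 𝔪 ↔ ¬ branchIdeal π B O hle ≤ 𝔪 := by
  rw [← not_offBranch_iff hle, not_not]

end BranchIdeal

section TwoBranches

variable {R F : Type*} [CommRing R] [Field F] [Algebra R F]
variable {π : R} {B : Subalgebra R F} {O1 O2 : ValuationSubring F}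

/-- **Saturation**: `𝔭₁ ⊓ 𝔭₂ = (π)` (the special fibre of the chart is reduced and has no other
component). -/
theorem inf_branchIdeal (hle1 : ∀ x ∈ B, x ∈ O1) (hle2 : ∀ x ∈ B, x ∈ O2)
    (hπ : algebraMap R F π ≠ 0)
    (sat : ∀ b ∈ B, ∀ c : F, c ∈ O1 → c ∈ O2 → b = algebraMap R F π * c → c ∈ B) :
    branchIdeal π B O1 hle1 ⊓ branchIdeal π B O2 hle2 = Ideal.span {algebraMap R B π} := by
  apply le_antisymm
  · rintro b ⟨h1, h2⟩
    obtain ⟨c, hc1, hc2, hbc⟩ := (piO_iff hπ).2 ⟨h1, h2⟩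
    have hcB : c ∈ B := sat _ b.2 c hc1 hc2 hbc
    rw [Ideal.mem_span_singleton']
    refine ⟨⟨c, hcB⟩, ?_⟩
    apply Subtype.ext
    show c * algebraMap R F π = (b : F)
    rw [hbc, mul_comm]
  · exact le_inf (span_pi_le_branchIdeal hle1) (span_pi_le_branchIdeal hle2)

/-- A prime ideal containing `π` contains one of the two branch ideals. -/
theorem branch_le_or (hle1 : ∀ x ∈ B, x ∈ O1) (hle2 : ∀ x ∈ B, x ∈ O2)
    (hπ : algebraMap R F π ≠ 0)
    (sat : ∀ b ∈ B, ∀ c : F, c ∈ O1 → c ∈ O2 → b = algebraMap R F π * c → c ∈ B)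
    (𝔪 : Ideal B) [h𝔪 : 𝔪.IsPrime] (hπ𝔪 : algebraMap R B π ∈ 𝔪) :
    branchIdeal π B O1 hle1 ≤ 𝔪 ∨ branchIdeal π B O2 hle2 ≤ 𝔪 := by
  have hinf : branchIdeal π B O1 hle1 ⊓ branchIdeal π B O2 hle2 ≤ 𝔪 := by
    rw [inf_branchIdeal hle1 hle2 hπ sat, Ideal.span_le, Set.singleton_subset_iff]
    exact hπ𝔪
  exact (Ideal.IsPrime.inf_le h𝔪).1 hinf

end TwoBranches

section Overlap

variable {R F : Type*} [CommRing R] [Field F] [Algebra R F]

/-- The overlap ring `B[1/t] = {x | ∃ k, t ^ k * x ∈ B}` of a chart `B ∋ t`. -/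
def overlap (t : F) (B : Subalgebra R F) (ht : t ∈ B) : Subalgebra R F where
  carrier := {x | ∃ k : ℕ, t ^ k * x ∈ B}
  mul_mem' := by
    rintro x y ⟨k, hk⟩ ⟨l, hl⟩
    refine ⟨k + l, ?_⟩
    have : t ^ (k + l) * (x * y) = (t ^ k * x) * (t ^ l * y) := by ring
    rw [this]
    exact B.mul_mem hk hl
  add_mem' := by
    rintro x y ⟨k, hk⟩ ⟨l, hl⟩
    refine ⟨k + l, ?_⟩
    have : t ^ (k + l) * (x + y) = t ^ l * (t ^ k * x) + t ^ k * (t ^ l * y) := by ring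
    rw [this]
    exact B.add_mem (B.mul_mem (B.pow_mem ht l) hk) (B.mul_mem (B.pow_mem ht k) hl)
  algebraMap_mem' := fun r => ⟨0, by simp⟩

variable {t : F} {B : Subalgebra R F} {ht : t ∈ B}

theorem mem_overlap {x : F} : x ∈ overlap t B ht ↔ ∃ k : ℕ, t ^ k * x ∈ B := Iff.rfl

theorem le_overlap : B ≤ overlap t B ht := fun x hx => ⟨0, by simpa using hx⟩

theorem inv_mem_overlap (ht0 : t ≠ 0) : t⁻¹ ∈ overlap t B ht :=
  ⟨1, by rw [pow_one, mul_inv_cancel₀ ht0]; exact B.one_mem⟩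

theorem self_mem_overlap : t ∈ overlap t B ht := le_overlap ht

/-- The overlap ring is contained in every valuation ring containing `B` and `t⁻¹`. -/
theorem overlap_le {O : ValuationSubring F} (hle : ∀ x ∈ B, x ∈ O) (htinv : t⁻¹ ∈ O)
    (ht0 : t ≠ 0) {x : F} (hx : x ∈ overlap t B ht) : x ∈ O := by
  obtain ⟨k, hk⟩ := hx
  have : x = t⁻¹ ^ k * (t ^ k * x) := by
    rw [← mul_assoc, ← mul_pow, inv_mul_cancel₀ ht0, one_pow, one_mul]
  rw [this]
  exact O.mul_mem _ _ (pow_mem htinv k) (hle _ hk)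

/-- The overlap ring is `π`-saturated in `O1 ⊓ O2` if the chart is. -/
theorem sat_overlap {π : R} {O1 O2 : ValuationSubring F}
    (hle1 : ∀ x ∈ B, x ∈ O1) (hle2 : ∀ x ∈ B, x ∈ O2)
    (sat : ∀ b ∈ B, ∀ c : F, c ∈ O1 → c ∈ O2 → b = algebraMap R F π * c → c ∈ B)
    {x : F} (hx : x ∈ overlap t B ht) {c : F} (hc1 : c ∈ O1) (hc2 : c ∈ O2)
    (hxc : x = algebraMap R F π * c) : c ∈ overlap t B ht := by
  obtain ⟨k, hk⟩ := hx
  refine ⟨k, sat _ hk _ (O1.mul_mem _ _ (pow_mem (hle1 _ ht) k) hc1)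
    (O2.mul_mem _ _ (pow_mem (hle2 _ ht) k) hc2) ?_⟩
  rw [hxc]
  ring

end Overlap

section Model

variable {R F : Type*} [CommRing R] [Field F] [Algebra R F]
variable {π : R} {t : F} {B0 B1 : Subalgebra R F} {O1 O2 : ValuationSubring F}

/-- The two Gauss rings of a nodal two-chart model. -/
theorem isGauss1 (M : NodalTwoChartModel R F π t B0 B1 O1 O2) : IsGauss π O1 :=
  ⟨M.pi_ne, M.le_O1_0 _ (B0.algebraMap_mem π), M.pi_nonunit1, M.unif1, M.arch1⟩

theorem isGauss2 (M : NodalTwoChartModel R F π t B0 B1 O1 O2) : IsGauss π O2 :=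
  ⟨M.pi_ne, M.le_O2_0 _ (B0.algebraMap_mem π), M.pi_nonunit2, M.unif2, M.arch2⟩

theorem tinv_ne (M : NodalTwoChartModel R F π t B0 B1 O1 O2) : t⁻¹ ≠ 0 := inv_ne_zero M.t_ne

/-- `t ∈ O1` and `t ∈ O2`. -/
theorem t_mem_O1 (M : NodalTwoChartModel R F π t B0 B1 O1 O2) : t ∈ O1 := M.le_O1_0 _ M.t_mem

theorem t_mem_O2 (M : NodalTwoChartModel R F π t B0 B1 O1 O2) : t ∈ O2 := M.le_O2_0 _ M.t_mem

/-- **`B0[1/t] = B1[t]`.** -/
theorem overlap_eq (M : NodalTwoChartModel R F π t B0 B1 O1 O2) :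
    overlap t B0 M.t_mem = overlap t⁻¹ B1 M.tinv_mem := by
  apply le_antisymm
  · rintro x ⟨k, hk⟩
    obtain ⟨l, hl⟩ := M.ov1 _ hk
    refine ⟨l + k, ?_⟩
    have : t⁻¹ ^ (l + k) * x = t⁻¹ ^ k * t⁻¹ ^ k * (t⁻¹ ^ l * (t ^ k * x)) := by
      have h1 : t⁻¹ ^ k * t ^ k = 1 := by rw [← mul_pow, inv_mul_cancel₀ M.t_ne, one_pow]
      calc t⁻¹ ^ (l + k) * x = t⁻¹ ^ l * t⁻¹ ^ k * x := by rw [pow_add]
        _ = t⁻¹ ^ l * t⁻¹ ^ k * x * 1 := by rw [mul_one]
        _ = t⁻¹ ^ l * t⁻¹ ^ k * x * (t⁻¹ ^ k * t ^ k) := by rw [h1]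
        _ = t⁻¹ ^ k * t⁻¹ ^ k * (t⁻¹ ^ l * (t ^ k * x)) := by ring
    rw [this]
    exact B1.mul_mem (B1.mul_mem (B1.pow_mem M.tinv_mem k) (B1.pow_mem M.tinv_mem k)) hl
  · rintro x ⟨k, hk⟩
    obtain ⟨l, hl⟩ := M.ov0 _ hk
    refine ⟨l + k, ?_⟩
    have : t ^ (l + k) * x = t ^ k * t ^ k * (t ^ l * (t⁻¹ ^ k * x)) := by
      have h1 : t ^ k * t⁻¹ ^ k = 1 := by rw [← mul_pow, mul_inv_cancel₀ M.t_ne, one_pow]
      calc t ^ (l + k) * x = t ^ l * t ^ k * x := by rw [pow_add]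
        _ = t ^ l * t ^ k * x * 1 := by rw [mul_one]
        _ = t ^ l * t ^ k * x * (t ^ k * t⁻¹ ^ k) := by rw [h1]
        _ = t ^ k * t ^ k * (t ^ l * (t⁻¹ ^ k * x)) := by ring
    rw [this]
    exact B0.mul_mem (B0.mul_mem (B0.pow_mem M.t_mem k) (B0.pow_mem M.t_mem k)) hl

theorem le_overlap1 (M : NodalTwoChartModel R F π t B0 B1 O1 O2) :
    B1 ≤ overlap t B0 M.t_mem := by
  rw [overlap_eq M]
  exact le_overlap

theorem overlap_le_O1 (M : NodalTwoChartModel R F π t B0 B1 O1 O2) {x : F}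
    (hx : x ∈ overlap t B0 M.t_mem) : x ∈ O1 :=
  overlap_le M.le_O1_0 M.tinv_mem_O1 M.t_ne hx

theorem overlap_le_O2 (M : NodalTwoChartModel R F π t B0 B1 O1 O2) {x : F}
    (hx : x ∈ overlap t B0 M.t_mem) : x ∈ O2 :=
  overlap_le M.le_O2_0 M.tinv_mem_O2 M.t_ne hx

/-- The overlap ring of a nodal two-chart model is `π`-saturated in `O1 ⊓ O2`. -/
theorem sat01 (M : NodalTwoChartModel R F π t B0 B1 O1 O2) {x : F}
    (hx : x ∈ overlap t B0 M.t_mem) {c : F} (hc1 : c ∈ O1) (hc2 : c ∈ O2)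
    (hxc : x = algebraMap R F π * c) : c ∈ overlap t B0 M.t_mem :=
  sat_overlap M.le_O1_0 M.le_O2_0 M.sat0 hx hc1 hc2 hxc

end Model

end Fermat.Agent.M1.Fib.Branch98
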