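/-
Programme M1 (S44), chapter FIB (helper98), file 2: CONSTANTS ON A COMPONENT.

Setting: one Gauss valuation ring `O` (uniformiser `π`) of the field `F`, containing two charts
`B0 ∋ t`, `B1 ∋ t⁻¹` which are integral over `R[t]`, `R[t⁻¹]`.

* `isIntegralElem_of_forall_valuationSubring` : valuative criterion for integrality over a ring.
* `red O`, `red_eq_zero_iff`, `red_eq_iff` : the reduction map `O → κ = O/𝔪_O`, kernel `π O`.
* `isIntegralElem_of_isIntegral` : reduction of an integral equation.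
* `exists_monic_piMem` : a "regular function on the component" (`f ∈ O` congruent mod `π O` to an
  element of `B0` and to an element of `B1`) satisfies a MONIC equation over `R` modulo `π O`
  (its reduction is integral over `k = R/π`: the component is proper over `k`).
* `ResidueAlgClosed π O` : "`k` is algebraically closed in `κ`", elementwise; then
  `exists_const_of_mem_both` : regular functions on the component are constants.
-/
import Mathlib
import Fermat.Agent.RED.CORE.Constants18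
import Fermat.Agent.M1.Fib.Branch98

set_option autoImplicit false
set_option linter.style.haveILetI false

namespace Fermat.Agent.M1.Fib.Constants98

open Fermat.Agent.RED.CORE.Constants18 Fermat.Agent.M1.Fib.Branch98 Polynomial

section Valuative

variable {A κ : Type*} [CommRing A] [Field κ]

/-- **Valuative criterion for integrality over a ring**: an element of a field `κ` lying in every
valuation subring containing the image of `g : A →+* κ` is integral over `A`. -/
theorem isIntegralElem_of_forall_valuationSubring (g : A →+* κ) (x : κ)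
    (h : ∀ V : ValuationSubring κ, (∀ a : A, g a ∈ V) → x ∈ V) : g.IsIntegralElem x := by
  letI : Algebra A κ := g.toAlgebra
  show IsIntegral A x
  by_contra hx
  have hxR : x ∉ (integralClosure A κ).toSubring := fun hmem => hx hmem
  obtain ⟨V, hV, hxV⟩ := Subring.exists_le_valuationSubring_of_isIntegrallyClosedIn hxR
  exact hxV (h V fun a => hV ((integralClosure A κ).algebraMap_mem a))

/-- An element integral over a ring mapping into a valuation subring `V` lies in `V`. -/
theorem mem_of_isIntegralElem {S : Type*} [CommRing S] (V : ValuationSubring κ) (f : S →+* κ)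
    (hf : ∀ s, f s ∈ V) {x : κ} (hx : f.IsIntegralElem x) : x ∈ V := by
  obtain ⟨p, hp, hpx⟩ := hx
  refine mem_valuationSubring_of_isIntegral V f.range ?_ ?_
  · rintro _ ⟨s, rfl⟩
    exact hf s
  · refine ⟨p.map f.rangeRestrict, hp.map _, ?_⟩
    rw [eval₂_map]
    exact hpx

end Valuative

section Residue

variable {R F : Type*} [CommRing R] [Field F] [Algebra R F]
variable {π : R} {O : ValuationSubring F}

/-- The reduction map of a valuation subring. -/
noncomputable def red (O : ValuationSubring F) : ↥O →+* IsLocalRing.ResidueField ↥O :=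
  IsLocalRing.residue ↥O

/-- The kernel of the reduction map of a Gauss ring is `π O`. -/
theorem red_eq_zero_iff (h : IsGauss π O) (x : ↥O) : red O x = 0 ↔ PiMem π O (x : F) := by
  unfold red
  rw [IsLocalRing.residue_eq_zero_iff, IsLocalRing.mem_maximalIdeal, mem_nonunits_iff]
  constructor
  · intro hx
    by_contra hpi
    apply hx
    have hinv := h.inv_mem_of_not_piMem x.2 hpi
    have hx0 : (x : F) ≠ 0 := by
      intro h0
      apply hpi
      rw [h0]
      exact PiMem.zero
    refine ⟨⟨x, ⟨_, hinv⟩, ?_, ?_⟩, rfl⟩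
    · apply Subtype.ext
      show (x : F) * (x : F)⁻¹ = 1
      exact mul_inv_cancel₀ hx0
    · apply Subtype.ext
      show (x : F)⁻¹ * (x : F) = 1
      exact inv_mul_cancel₀ hx0
  · rintro hpi ⟨u, rfl⟩
    apply h.not_piMem_one
    have h1 : ((u : ↥O) : F) * (((u⁻¹ : (↥O)ˣ) : ↥O) : F) = 1 := by
      have h2 : (u : ↥O) * ((u⁻¹ : (↥O)ˣ) : ↥O) = 1 := Units.mul_inv u
      exact congrArg (fun z : ↥O => (z : F)) h2
    have := hpi.mul_right ((u⁻¹ : (↥O)ˣ) : ↥O).2
    rwa [h1] at this

theorem red_eq_iff (h : IsGauss π O) (x y : ↥O) :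
    red O x = red O y ↔ PiMem π O ((x : F) - (y : F)) := by
  rw [← sub_eq_zero, ← map_sub, red_eq_zero_iff h]
  rfl

end Residue

section Reduce

variable {R F : Type*} [CommRing R] [Field F] [Algebra R F]
variable {O : ValuationSubring F}

/-- The inclusion of a subalgebra contained in `O`. -/
def inclO (S : Subalgebra R F) (hS : ∀ x ∈ S, x ∈ O) : ↥S →+* ↥O where
  toFun s := ⟨(s : F), hS _ s.2⟩
  map_one' := rfl
  map_mul' _ _ := rfl
  map_zero' := rfl
  map_add' _ _ := rfl

@[simp] theorem coe_inclO (S : Subalgebra R F) (hS : ∀ x ∈ S, x ∈ O) (s : ↥S) :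
    ((inclO S hS s : ↥O) : F) = (s : F) := rfl

/-- **Reduction of an integral equation**: if `a ∈ O` is integral over a subalgebra `S ⊆ O`, then
for every ring homomorphism `ρ` out of `O`, `ρ a` is integral over `S` (through `ρ`). -/
theorem isIntegralElem_of_isIntegral {κ : Type*} [CommRing κ] (ρ : ↥O →+* κ)
    (S : Subalgebra R F) (hS : ∀ x ∈ S, x ∈ O) {a : F} (ha : a ∈ O) (hint : IsIntegral ↥S a) :
    (ρ.comp (inclO S hS)).IsIntegralElem (ρ ⟨a, ha⟩) := by
  obtain ⟨p, hp, hpa⟩ := hint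
  refine ⟨p, hp, ?_⟩
  have h1 : (algebraMap ↥S F) = (O.subtype).comp (inclO S hS) := by
    ext s
    rfl
  have h2 : O.subtype (eval₂ (inclO S hS) ⟨a, ha⟩ p) = 0 := by
    rw [hom_eval₂]
    rw [h1] at hpa
    exact hpa
  have h3 : eval₂ (inclO S hS) ⟨a, ha⟩ p = 0 := by
    apply Subtype.ext
    exact h2
  show eval₂ (ρ.comp (inclO S hS)) (ρ ⟨a, ha⟩) p = 0
  rw [← hom_eval₂, h3, map_zero]

/-- The subalgebra of elements of `O` whose image under `ρ` lies in `V`. -/
def preimageSubalgebra {κ : Type*} [Field κ] (hR : ∀ r : R, algebraMap R F r ∈ O)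
    (ρ : ↥O →+* κ) (V : ValuationSubring κ)
    (hV : ∀ r : R, ρ ⟨algebraMap R F r, hR r⟩ ∈ V) : Subalgebra R F where
  carrier := {x | ∃ hx : x ∈ O, ρ ⟨x, hx⟩ ∈ V}
  mul_mem' := by
    rintro x y ⟨hx, hxV⟩ ⟨hy, hyV⟩
    refine ⟨O.mul_mem _ _ hx hy, ?_⟩
    have : (⟨x * y, O.mul_mem _ _ hx hy⟩ : ↥O) = ⟨x, hx⟩ * ⟨y, hy⟩ := rfl
    rw [this, map_mul]
    exact V.mul_mem _ _ hxV hyV
  add_mem' := by
    rintro x y ⟨hx, hxV⟩ ⟨hy, hyV⟩
    refine ⟨O.add_mem _ _ hx hy, ?_⟩
    have : (⟨x + y, O.add_mem _ _ hx hy⟩ : ↥O) = ⟨x, hx⟩ + ⟨y, hy⟩ := rfl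
    rw [this, map_add]
    exact V.add_mem _ _ hxV hyV
  algebraMap_mem' := fun r => ⟨hR r, hV r⟩

/-- If `ρ(R) ⊆ V` and `ρ τ ∈ V` then `ρ (R[τ]) ⊆ V`. -/
theorem map_adjoin_mem {κ : Type*} [Field κ] (hR : ∀ r : R, algebraMap R F r ∈ O)
    (ρ : ↥O →+* κ) (V : ValuationSubring κ)
    (hV : ∀ r : R, ρ ⟨algebraMap R F r, hR r⟩ ∈ V) {τ : F} (hτ : τ ∈ O) (hτV : ρ ⟨τ, hτ⟩ ∈ V)
    (hS : ∀ x ∈ Algebra.adjoin R {τ}, x ∈ O) (s : ↥(Algebra.adjoin R {τ})) :
    ρ (inclO (Algebra.adjoin R {τ}) hS s) ∈ V := by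
  have hle : Algebra.adjoin R {τ} ≤ preimageSubalgebra hR ρ V hV := Algebra.adjoin_le (by
    rintro y rfl
    exact ⟨hτ, hτV⟩)
  obtain ⟨hx, hxV⟩ := hle s.2
  exact hxV

end Reduce

section Constants

variable {R F : Type*} [CommRing R] [Field F] [Algebra R F]
variable {π : R} {O : ValuationSubring F}

/-- **Properness of a component, elementwise.**  Let `O` be a Gauss ring containing the charts
`B0 ∋ t` and `B1 ∋ t⁻¹`, integral over `R[t]` resp. `R[t⁻¹]`.  If `f` is congruent modulo `π O` to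
an element of `B0` and to an element of `B1`, then `f` satisfies a monic equation over `R`
modulo `π O`. -/
theorem exists_monic_piMem (h : IsGauss π O) {t : F} (ht0 : t ≠ 0) {B0 B1 : Subalgebra R F}
    (hle0 : ∀ x ∈ B0, x ∈ O) (hle1 : ∀ x ∈ B1, x ∈ O) (ht : t ∈ B0) (htinv : t⁻¹ ∈ B1)
    (int0 : ∀ x ∈ B0, IsIntegral ↥(Algebra.adjoin R {t}) x)
    (int1 : ∀ x ∈ B1, IsIntegral ↥(Algebra.adjoin R {t⁻¹}) x)
    {f a b : F} (ha : a ∈ B0) (hb : b ∈ B1)
    (hfa : PiMem π O (f - a)) (hfb : PiMem π O (f - b)) :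
    ∃ P : R[X], P.Monic ∧ PiMem π O (aeval f P) := by
  have hR : ∀ r : R, algebraMap R F r ∈ O := fun r => hle0 _ (B0.algebraMap_mem r)
  have haO : a ∈ O := hle0 _ ha
  have hbO : b ∈ O := hle1 _ hb
  have hfO : f ∈ O := by
    have : f = (f - a) + a := by ring
    rw [this]
    exact O.add_mem _ _ (hfa.mem h.pi_mem) haO
  have htO : t ∈ O := hle0 _ ht
  have htiO : t⁻¹ ∈ O := hle1 _ htinv
  -- the ring homomorphism `R → κ`
  let toO : R →+* ↥O :=
    { toFun := fun r => ⟨algebraMap R F r, hR r⟩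
      map_one' := by apply Subtype.ext; exact map_one _
      map_mul' := fun x y => by apply Subtype.ext; exact map_mul _ x y
      map_zero' := by apply Subtype.ext; exact map_zero _
      map_add' := fun x y => by apply Subtype.ext; exact map_add _ x y }
  let g : R →+* IsLocalRing.ResidueField ↥O := (red O).comp toO
  have hxa : red O ⟨f, hfO⟩ = red O ⟨a, haO⟩ := (red_eq_iff h _ _).2 hfa
  have hxb : red O ⟨f, hfO⟩ = red O ⟨b, hbO⟩ := (red_eq_iff h _ _).2 hfb
  have hS0 : ∀ x ∈ Algebra.adjoin R {t}, x ∈ O := fun x hx =>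
    hle0 _ ((Algebra.adjoin_le (by rintro y rfl; exact ht) : Algebra.adjoin R {t} ≤ B0) hx)
  have hS1 : ∀ x ∈ Algebra.adjoin R {t⁻¹}, x ∈ O := fun x hx =>
    hle1 _ ((Algebra.adjoin_le (by rintro y rfl; exact htinv) : Algebra.adjoin R {t⁻¹} ≤ B1) hx)
  -- the valuative criterion
  have hint : g.IsIntegralElem (red O ⟨f, hfO⟩) := by
    apply isIntegralElem_of_forall_valuationSubring
    intro V hV
    have hV' : ∀ r : R, red O ⟨algebraMap R F r, hR r⟩ ∈ V := hV
    have hmul : red O ⟨t, htO⟩ * red O ⟨t⁻¹, htiO⟩ = 1 := by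
      rw [← map_mul]
      have : (⟨t, htO⟩ : ↥O) * ⟨t⁻¹, htiO⟩ = 1 := by
        apply Subtype.ext
        show t * t⁻¹ = 1
        exact mul_inv_cancel₀ ht0
      rw [this, map_one]
    rcases V.mem_or_inv_mem (red O ⟨t, htO⟩) with htV | htV
    · rw [hxa]
      exact mem_of_isIntegralElem V _ (map_adjoin_mem hR (red O) V hV' htO htV hS0)
        (isIntegralElem_of_isIntegral (red O) _ hS0 haO (int0 a ha))
    · have htV' : red O ⟨t⁻¹, htiO⟩ ∈ V := by
        have : red O ⟨t⁻¹, htiO⟩ = (red O ⟨t, htO⟩)⁻¹ := eq_inv_of_mul_eq_one_right hmul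
        rw [this]
        exact htV
      rw [hxb]
      exact mem_of_isIntegralElem V _ (map_adjoin_mem hR (red O) V hV' htiO htV' hS1)
        (isIntegralElem_of_isIntegral (red O) _ hS1 hbO (int1 b hb))
  obtain ⟨P, hP, hPx⟩ := hint
  refine ⟨P, hP, ?_⟩
  -- `aeval f P` is the image of `eval₂ toO ⟨f, _⟩ P`
  have h1 : ((eval₂ toO ⟨f, hfO⟩ P : ↥O) : F) = aeval f P := by
    have := hom_eval₂ P toO O.subtype ⟨f, hfO⟩
    rw [aeval_def]
    exact this
  rw [← h1, ← red_eq_zero_iff h, ← hPx]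
  exact hom_eval₂ P toO (red O) ⟨f, hfO⟩

/-- **(AC)** "the residue field `k` of `R` is algebraically closed in the residue field of `O`",
elementwise: an element of `O` satisfying a monic equation over `R` modulo `π O` is congruent to
an element of `R` modulo `π O`. -/
def ResidueAlgClosed (π : R) (O : ValuationSubring F) : Prop :=
  ∀ f ∈ O, (∃ P : R[X], P.Monic ∧ PiMem π O (aeval f P)) →
    ∃ r : R, PiMem π O (f - algebraMap R F r)

/-- **Constants on a component**: a regular function on the (proper) component is a constant. -/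
theorem exists_const_of_mem_both (h : IsGauss π O) (hac : ResidueAlgClosed π O)
    {t : F} (ht0 : t ≠ 0) {B0 B1 : Subalgebra R F}
    (hle0 : ∀ x ∈ B0, x ∈ O) (hle1 : ∀ x ∈ B1, x ∈ O) (ht : t ∈ B0) (htinv : t⁻¹ ∈ B1)
    (int0 : ∀ x ∈ B0, IsIntegral ↥(Algebra.adjoin R {t}) x)
    (int1 : ∀ x ∈ B1, IsIntegral ↥(Algebra.adjoin R {t⁻¹}) x)
    {f a b : F} (ha : a ∈ B0) (hb : b ∈ B1)
    (hfa : PiMem π O (f - a)) (hfb : PiMem π O (f - b)) :
    ∃ r : R, PiMem π O (f - algebraMap R F r) := by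
  have hfO : f ∈ O := by
    have : f = (f - a) + a := by ring
    rw [this]
    exact O.add_mem _ _ (hfa.mem h.pi_mem) (hle0 _ ha)
  exact hac f hfO (exists_monic_piMem h ht0 hle0 hle1 ht htinv int0 int1 ha hb hfa hfb)

end Constants

end Fermat.Agent.M1.Fib.Constants98
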