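/-
Programme M1 (S44), chapter FIB (helper98), file 3: `H⁰(X_k, O) = k`.

For a nodal two-chart model (`NumData13.NodalNumData`) whose two components have `k = R/π`
algebraically closed in their function fields (`Constants98.ResidueAlgClosed`, j = 1, 2) and which
has at least one two-branch point (`HasNode`), the global sections of the structure sheaf of the
special fibre are the constants.  This is the literal hypothesis (R1) of chapter PIC and (H0k) of
the separatedness brick (R4):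

  `∀ a ∈ B0, ∀ b ∈ B1, (∃ c ∈ B01, a - b = π c) → ∃ r : R, a - r ∈ π B0 ∧ b - r ∈ π B1`.
-/
import Mathlib
import Fermat.Agent.M1.Fib.Constants98

set_option autoImplicit false
set_option linter.unusedSectionVars false

namespace Fermat.Agent.M1.Fib.H0k98

open Fermat.Agent.ES.N34.NodalCore13 Fermat.Agent.ES.N34.NodalCL13
  Fermat.Agent.ES.N34.NumData13 Fermat.Agent.M1.Fib.Branch98 Fermat.Agent.M1.Fib.Constants98

section

variable {R F : Type*} [CommRing R] [Field F] [Algebra R F]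

/-- A two-branch closed point of the chart `B`: a maximal ideal containing `π` through which both
components pass. -/
def IsNode (π : R) (B : Subalgebra R F) (O1 O2 : ValuationSubring F) (𝔪 : Ideal B) : Prop :=
  𝔪.IsMaximal ∧ algebraMap R B π ∈ 𝔪 ∧ ¬ OffBranch π B O1 𝔪 ∧ ¬ OffBranch π B O2 𝔪

/-- The special fibre has a two-branch point in one of the two charts. -/
def HasNode (π : R) (B0 B1 : Subalgebra R F) (O1 O2 : ValuationSubring F) : Prop :=
  (∃ 𝔪 : Ideal B0, IsNode π B0 O1 O2 𝔪) ∨ (∃ 𝔪 : Ideal B1, IsNode π B1 O1 O2 𝔪)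

/-- An element of `R` lying in a proper ideal of a chart is divisible by `π`. -/
theorem dvd_of_mem_of_dvr {π : R} {B : Subalgebra R F}
    (dvrR : ∀ r : R, r ≠ 0 → ∃ (k : ℕ) (v : Rˣ), r = π ^ k * v)
    (𝔪 : Ideal B) (h𝔪 : 𝔪 ≠ ⊤) {r : R} (hr : algebraMap R B r ∈ 𝔪) : π ∣ r := by
  by_cases hr0 : r = 0
  · rw [hr0]; exact dvd_zero π
  obtain ⟨k, v, hkv⟩ := dvrR r hr0
  rcases Nat.eq_zero_or_pos k with hk | hk
  · exfalso
    apply h𝔪
    rw [Ideal.eq_top_iff_one]
    have hunit : IsUnit (algebraMap R B r) := by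
      rw [hkv, hk, pow_zero, one_mul]
      exact v.isUnit.map _
    exact (Ideal.eq_top_of_isUnit_mem 𝔪 hr hunit) ▸ Submodule.mem_top
  · rw [hkv]
    exact Dvd.dvd.mul_right (dvd_pow_self π (Nat.pos_iff_ne_zero.mp hk)) _

end

section H0

variable {R K F : Type*} [CommRing R] [Field K] [Field F] [Algebra R K] [Algebra K F]
  [Algebra R F] [IsScalarTower R K F]
variable {π : R} {t : F} {B0 B1 : Subalgebra R F} {O1 O2 : ValuationSubring F}

/-- In a chart `B ⊆ O1 ⊓ O2`, at a two-branch point, two constants which agree with the same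
element of `B` modulo `π O1` resp. `π O2` are congruent modulo `π`. -/
theorem dvd_sub_of_node {B : Subalgebra R F} (hle1 : ∀ x ∈ B, x ∈ O1) (hle2 : ∀ x ∈ B, x ∈ O2)
    (dvrR : ∀ r : R, r ≠ 0 → ∃ (k : ℕ) (v : Rˣ), r = π ^ k * v)
    {𝔪 : Ideal B} (hnode : IsNode π B O1 O2 𝔪) {a : F} (ha : a ∈ B) {r1 r2 : R}
    (h1 : PiMem π O1 (a - algebraMap R F r1)) (h2 : PiMem π O2 (a - algebraMap R F r2)) :
    π ∣ r1 - r2 := by
  obtain ⟨hmax, -, hb1, hb2⟩ := hnode
  have hp1 := (not_offBranch_iff hle1 𝔪).1 hb1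
  have hp2 := (not_offBranch_iff hle2 𝔪).1 hb2
  have m1 : (⟨a, ha⟩ - algebraMap R B r1 : B) ∈ 𝔪 := hp1 h1
  have m2 : (⟨a, ha⟩ - algebraMap R B r2 : B) ∈ 𝔪 := hp2 h2
  have m3 : algebraMap R B (r1 - r2) ∈ 𝔪 := by
    have : algebraMap R B (r1 - r2) =
        (⟨a, ha⟩ - algebraMap R B r2 : B) - (⟨a, ha⟩ - algebraMap R B r1 : B) := by
      rw [map_sub]; ring
    rw [this]
    exact 𝔪.sub_mem m2 m1
  exact dvd_of_mem_of_dvr dvrR 𝔪 hmax.ne_top m3

/-- **`H⁰(X_k, O) = k`**, literal form (R1)/(H0k). -/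
theorem h0k (D : NodalNumData R K F π t B0 B1 O1 O2)
    (hac1 : ResidueAlgClosed π O1) (hac2 : ResidueAlgClosed π O2)
    (hnode : HasNode π B0 B1 O1 O2)
    {a b : F} (ha : a ∈ B0) (hb : b ∈ B1)
    (hab : ∃ c ∈ overlap t B0 D.model.t_mem, a - b = algebraMap R F π * c) :
    ∃ r : R, (∃ c ∈ B0, a - algebraMap R F r = algebraMap R F π * c) ∧
      (∃ c ∈ B1, b - algebraMap R F r = algebraMap R F π * c) := by
  have M := D.model
  have hG1 := isGauss1 M
  have hG2 := isGauss2 M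
  obtain ⟨c, hc, habc⟩ := hab
  have hab1 : PiMem π O1 (a - b) := ⟨c, overlap_le_O1 M hc, habc⟩
  have hab2 : PiMem π O2 (a - b) := ⟨c, overlap_le_O2 M hc, habc⟩
  have haa1 : PiMem π O1 (a - a) := by rw [sub_self]; exact PiMem.zero
  have haa2 : PiMem π O2 (a - a) := by rw [sub_self]; exact PiMem.zero
  obtain ⟨r1, hr1⟩ := exists_const_of_mem_both hG1 hac1 M.t_ne M.le_O1_0 M.le_O1_1 M.t_mem
    M.tinv_mem M.int0 M.int1 ha hb haa1 hab1
  obtain ⟨r2, hr2⟩ := exists_const_of_mem_both hG2 hac2 M.t_ne M.le_O2_0 M.le_O2_1 M.t_mem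
    M.tinv_mem M.int0 M.int1 ha hb haa2 hab2
  -- the same constants work for `b`
  have hbr1 : PiMem π O1 (b - algebraMap R F r1) := by
    have : b - algebraMap R F r1 = (a - algebraMap R F r1) - (a - b) := by ring
    rw [this]; exact hr1.sub hab1
  have hbr2 : PiMem π O2 (b - algebraMap R F r2) := by
    have : b - algebraMap R F r2 = (a - algebraMap R F r2) - (a - b) := by ring
    rw [this]; exact hr2.sub hab2
  -- the two constants agree modulo `π`
  have hdvd : π ∣ r1 - r2 := by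
    rcases hnode with ⟨𝔪, h𝔪⟩ | ⟨𝔪, h𝔪⟩
    · exact dvd_sub_of_node M.le_O1_0 M.le_O2_0 D.dvrR h𝔪 ha hr1 hr2
    · exact dvd_sub_of_node M.le_O1_1 M.le_O2_1 D.dvrR h𝔪 hb hbr1 hbr2
  obtain ⟨s, hs⟩ := hdvd
  have hsO2 : algebraMap R F s ∈ O2 := M.le_O2_0 _ (B0.algebraMap_mem s)
  have hr12 : PiMem π O2 (algebraMap R F r1 - algebraMap R F r2) := by
    refine ⟨algebraMap R F s, hsO2, ?_⟩
    rw [← map_sub, hs, map_mul]
  have har1 : PiMem π O2 (a - algebraMap R F r1) := by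
    have : a - algebraMap R F r1 =
        (a - algebraMap R F r2) - (algebraMap R F r1 - algebraMap R F r2) := by ring
    rw [this]; exact hr2.sub hr12
  have hbr1' : PiMem π O2 (b - algebraMap R F r1) := by
    have : b - algebraMap R F r1 =
        (b - algebraMap R F r2) - (algebraMap R F r1 - algebraMap R F r2) := by ring
    rw [this]; exact hbr2.sub hr12
  refine ⟨r1, ?_, ?_⟩
  · obtain ⟨c', h1, h2, hc'⟩ := (piO_iff M.pi_ne).2 ⟨hr1, har1⟩
    exact ⟨c', M.sat0 _ (B0.sub_mem ha (B0.algebraMap_mem r1)) c' h1 h2 hc', hc'⟩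
  · obtain ⟨c', h1, h2, hc'⟩ := (piO_iff M.pi_ne).2 ⟨hbr1, hbr1'⟩
    exact ⟨c', M.sat1 _ (B1.sub_mem hb (B1.algebraMap_mem r1)) c' h1 h2 hc', hc'⟩

end H0

end Fermat.Agent.M1.Fib.H0k98
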