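/-
Programme M1 (S44), chapter FIB (helper98), file 4: the POINTWISE form of
"a regular function on a proper component of the special fibre is constant" (F6), and of
`H⁰(X_k, O) = k`.

Vocabulary (as in `ES/N34` and `M1/Car/Defs43`): a chart is `B : Subalgebra R F`, a closed point
is a maximal ideal `𝔪 ∋ π` of `B`, the component `j` is the Gauss ring `O_j`, it passes through
`𝔪` iff `¬ OffBranch π B O_j 𝔪` iff `branchIdeal π B O_j ≤ 𝔪`.

* `RegAt π B O 𝔪 f`      : `f ∈ B_𝔪 + π O`, in the denominator-free form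
                           `∃ a d : B, d ∉ 𝔪 ∧ f * d - a ∈ π O`.
* `exists_mem_of_regAt`  : local-to-global on one chart: regular at all closed points of the
                           component ⇒ `f ∈ B + π O`.
* `exists_const_of_regAt`, `exists_const_of_offBranch_or_regAt` : F6, pointwise form.
* `RegAt2`, `dvd_sub_of_regAt2` : the two constants agree at a node.
* `exists_const_of_regular` : `H⁰(X_k, O) = k` in pointwise form: `f ∈ O1 ⊓ O2` regular at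
                           every closed point of both charts ⇒ `f ≡ r mod π (O1 ⊓ O2)`, `r : R`.
-/
import Mathlib
import Fermat.Agent.M1.Fib.H0k98

set_option autoImplicit false
set_option linter.unusedSectionVars false

namespace Fermat.Agent.M1.Fib.Pointwise98

open Fermat.Agent.ES.N34.NodalCore13 Fermat.Agent.ES.N34.NodalCL13
  Fermat.Agent.ES.N34.NumData13 Fermat.Agent.M1.Fib.Branch98 Fermat.Agent.M1.Fib.Constants98
  Fermat.Agent.M1.Fib.H0k98

section RegAt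

variable {R F : Type*} [CommRing R] [Field F] [Algebra R F]

/-- `f` is regular at the closed point `𝔪` of the chart `B`, as a function on the component cut
out by the Gauss ring `O`: `f ∈ B_𝔪 + π O`, written without denominators. -/
def RegAt (π : R) (B : Subalgebra R F) (O : ValuationSubring F) (𝔪 : Ideal B) (f : F) : Prop :=
  ∃ a d : B, d ∉ 𝔪 ∧ PiMem π O (f * (d : F) - (a : F))

variable {π : R} {B : Subalgebra R F} {O : ValuationSubring F}

/-- An element of the chart is regular everywhere. -/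
theorem RegAt.of_mem {𝔪 : Ideal B} (h𝔪 : 𝔪 ≠ ⊤) {f : F} (hf : f ∈ B) : RegAt π B O 𝔪 f := by
  refine ⟨⟨f, hf⟩, 1, fun h1 => h𝔪 ((Ideal.eq_top_iff_one 𝔪).2 h1), ?_⟩
  have : f * ((1 : B) : F) - ((⟨f, hf⟩ : B) : F) = 0 := by
    rw [Subalgebra.coe_one, mul_one]; exact sub_self f
  rw [this]
  exact PiMem.zero

/-- `f ≡ g mod π O` with `g ∈ B_𝔪` (field form of `locSub` / `InLoc`) gives `RegAt`. -/
theorem RegAt.of_inLoc (hle : ∀ x ∈ B, x ∈ O) {𝔪 : Ideal B} {f g : F}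
    (hg : ∃ a d : B, d ∉ 𝔪 ∧ g * (d : F) = (a : F)) (hfg : PiMem π O (f - g)) :
    RegAt π B O 𝔪 f := by
  obtain ⟨a, d, hd, hgd⟩ := hg
  refine ⟨a, d, hd, ?_⟩
  have : f * (d : F) - (a : F) = (f - g) * (d : F) := by rw [← hgd]; ring
  rw [this]
  exact hfg.mul_right (hle _ d.2)

/-- Changing `f` by an element of `π O` does not change regularity. -/
theorem RegAt.congr (hle : ∀ x ∈ B, x ∈ O) {𝔪 : Ideal B} {f g : F} (hf : RegAt π B O 𝔪 f)
    (hfg : PiMem π O (g - f)) : RegAt π B O 𝔪 g := by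
  obtain ⟨a, d, hd, h⟩ := hf
  refine ⟨a, d, hd, ?_⟩
  have : g * (d : F) - (a : F) = (g - f) * (d : F) + (f * (d : F) - (a : F)) := by ring
  rw [this]
  exact (hfg.mul_right (hle _ d.2)).add h

/-- Regularity is stable under addition. -/
theorem RegAt.add (hle : ∀ x ∈ B, x ∈ O) {𝔪 : Ideal B} [h𝔪 : 𝔪.IsPrime] {f g : F}
    (hf : RegAt π B O 𝔪 f) (hg : RegAt π B O 𝔪 g) : RegAt π B O 𝔪 (f + g) := by
  obtain ⟨a, d, hd, h⟩ := hf
  obtain ⟨a', d', hd', h'⟩ := hg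
  refine ⟨a * d' + a' * d, d * d', fun hh => (h𝔪.mem_or_mem hh).elim hd hd', ?_⟩
  have : (f + g) * ((d * d' : B) : F) - ((a * d' + a' * d : B) : F) =
      (f * (d : F) - (a : F)) * (d' : F) + (g * (d' : F) - (a' : F)) * (d : F) := by
    push_cast; ring
  rw [this]
  exact (h.mul_right (hle _ d'.2)).add (h'.mul_right (hle _ d.2))

/-- Regularity is stable under negation. -/
theorem RegAt.neg {𝔪 : Ideal B} {f : F} (hf : RegAt π B O 𝔪 f) : RegAt π B O 𝔪 (-f) := by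
  obtain ⟨a, d, hd, h⟩ := hf
  refine ⟨-a, d, hd, ?_⟩
  have : -f * (d : F) - ((-a : B) : F) = -(f * (d : F) - (a : F)) := by push_cast; ring
  rw [this]
  exact h.neg

/-- Regularity is stable under subtraction. -/
theorem RegAt.sub (hle : ∀ x ∈ B, x ∈ O) {𝔪 : Ideal B} [𝔪.IsPrime] {f g : F}
    (hf : RegAt π B O 𝔪 f) (hg : RegAt π B O 𝔪 g) : RegAt π B O 𝔪 (f - g) := by
  rw [sub_eq_add_neg]
  exact hf.add hle hg.neg

/-- A function regular at a point of the component lies in `O`. -/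
theorem RegAt.mem (h : IsGauss π O) (hle : ∀ x ∈ B, x ∈ O) {𝔪 : Ideal B}
    (hon : ¬ OffBranch π B O 𝔪) {f : F} (hf : RegAt π B O 𝔪 f) : f ∈ O := by
  obtain ⟨a, d, hd, hfd⟩ := hf
  have hdO : (d : F) ∈ O := hle _ d.2
  have hdn : ¬ PiMem π O (d : F) := fun hdp => hon ⟨d, hd, hdp⟩
  have hdinv : ((d : F))⁻¹ ∈ O := h.inv_mem_of_not_piMem hdO hdn
  have hd0 : (d : F) ≠ 0 := by
    intro h0
    apply hdn
    rw [h0]
    exact PiMem.zero
  have hfdO : f * (d : F) ∈ O := by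
    have : f * (d : F) = (f * (d : F) - (a : F)) + (a : F) := by ring
    rw [this]
    exact O.add_mem _ _ (hfd.mem h.pi_mem) (hle _ a.2)
  have : f = f * (d : F) * ((d : F))⁻¹ := by
    rw [mul_assoc, mul_inv_cancel₀ hd0, mul_one]
  rw [this]
  exact O.mul_mem _ _ hfdO hdinv

/-- Multiplicativity (needs `f, g ∈ O`, automatic on the component by `RegAt.mem`). -/
theorem RegAt.mul (hle : ∀ x ∈ B, x ∈ O) {𝔪 : Ideal B} [h𝔪 : 𝔪.IsPrime] {f g : F}
    (hgO : g ∈ O) (hf : RegAt π B O 𝔪 f) (hg : RegAt π B O 𝔪 g) : RegAt π B O 𝔪 (f * g) := by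
  obtain ⟨a, d, hd, h⟩ := hf
  obtain ⟨a', d', hd', h'⟩ := hg
  refine ⟨a * a', d * d', fun hh => (h𝔪.mem_or_mem hh).elim hd hd', ?_⟩
  have : (f * g) * ((d * d' : B) : F) - ((a * a' : B) : F) =
      (f * (d : F) - (a : F)) * (g * (d' : F)) + (g * (d' : F) - (a' : F)) * (a : F) := by
    push_cast; ring
  rw [this]
  exact (h.mul_right (O.mul_mem _ _ hgO (hle _ d'.2))).add (h'.mul_right (hle _ a.2))

end RegAt

section LocalGlobal

variable {R F : Type*} [CommRing R] [Field F] [Algebra R F]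
variable {π : R} {B : Subalgebra R F} {O : ValuationSubring F}

/-- The "conductor" of `f` into `B + π O`: the ideal of `d ∈ B` with `f d ∈ B + π O`. -/
def regIdeal (π : R) (B : Subalgebra R F) (O : ValuationSubring F) (hle : ∀ x ∈ B, x ∈ O)
    (f : F) : Ideal B where
  carrier := {d | ∃ a : B, PiMem π O (f * (d : F) - (a : F))}
  add_mem' := by
    rintro d d' ⟨a, h⟩ ⟨a', h'⟩
    refine ⟨a + a', ?_⟩
    have : f * ((d + d' : B) : F) - ((a + a' : B) : F) =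
        (f * (d : F) - (a : F)) + (f * (d' : F) - (a' : F)) := by push_cast; ring
    rw [this]
    exact h.add h'
  zero_mem' := by
    refine ⟨0, ?_⟩
    have : f * ((0 : B) : F) - ((0 : B) : F) = 0 := by push_cast; ring
    rw [this]
    exact PiMem.zero
  smul_mem' := by
    rintro c d ⟨a, h⟩
    refine ⟨c * a, ?_⟩
    have : f * ((c • d : B) : F) - ((c * a : B) : F) = (c : F) * (f * (d : F) - (a : F)) := by
      rw [smul_eq_mul]; push_cast; ring
    rw [this]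
    exact h.mul_left (hle _ c.2)

theorem mem_regIdeal {hle : ∀ x ∈ B, x ∈ O} {f : F} {d : B} :
    d ∈ regIdeal π B O hle f ↔ ∃ a : B, PiMem π O (f * (d : F) - (a : F)) := Iff.rfl

/-- For `f ∈ O` the conductor contains the branch ideal. -/
theorem branchIdeal_le_regIdeal (hle : ∀ x ∈ B, x ∈ O) {f : F} (hf : f ∈ O) :
    branchIdeal π B O hle ≤ regIdeal π B O hle f := by
  intro d hd
  refine ⟨0, ?_⟩
  have : f * (d : F) - ((0 : B) : F) = f * (d : F) := by push_cast; ring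
  rw [this]
  exact (mem_branchIdeal.1 hd).mul_left hf

/-- **Local-to-global on one chart.**  If `f` is regular at every closed point of the chart `B`
through which the component `O` passes, then `f ∈ B + π O`. -/
theorem exists_mem_of_regAt (h : IsGauss π O) (hle : ∀ x ∈ B, x ∈ O) {f : F}
    (hreg : ∀ 𝔪 : Ideal B, 𝔪.IsMaximal → ¬ OffBranch π B O 𝔪 → RegAt π B O 𝔪 f) :
    ∃ a ∈ B, PiMem π O (f - a) := by
  -- the component has a closed point, so `f ∈ O`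
  have hprime := branchIdeal_isPrime h hle
  obtain ⟨𝔪₀, h𝔪₀, hle₀⟩ := Ideal.exists_le_maximal _ hprime.ne_top
  have hfO : f ∈ O :=
    (hreg 𝔪₀ h𝔪₀ ((not_offBranch_iff hle 𝔪₀).2 hle₀)).mem h hle ((not_offBranch_iff hle 𝔪₀).2 hle₀)
  -- the conductor is the unit ideal
  have htop : regIdeal π B O hle f = ⊤ := by
    by_contra hne
    obtain ⟨𝔪, h𝔪, hJ⟩ := Ideal.exists_le_maximal _ hne
    have hon : ¬ OffBranch π B O 𝔪 :=
      (not_offBranch_iff hle 𝔪).2 ((branchIdeal_le_regIdeal hle hfO).trans hJ)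
    obtain ⟨a, d, hd, hfd⟩ := hreg 𝔪 h𝔪 hon
    exact hd (hJ ⟨a, hfd⟩)
  have h1 : (1 : B) ∈ regIdeal π B O hle f := by rw [htop]; trivial
  obtain ⟨a, ha⟩ := h1
  refine ⟨a, a.2, ?_⟩
  have : f - (a : F) = f * ((1 : B) : F) - (a : F) := by push_cast; ring
  rw [this]
  exact ha

/-- Converse: an element of `B + π O` is regular at every closed point. -/
theorem regAt_of_exists_mem (hle : ∀ x ∈ B, x ∈ O) {f : F} (hf : ∃ a ∈ B, PiMem π O (f - a))
    {𝔪 : Ideal B} (h𝔪 : 𝔪 ≠ ⊤) : RegAt π B O 𝔪 f := by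
  obtain ⟨a, ha, hfa⟩ := hf
  exact (RegAt.of_mem h𝔪 ha).congr hle hfa

end LocalGlobal

section Constants

variable {R F : Type*} [CommRing R] [Field F] [Algebra R F]
variable {π : R} {O : ValuationSubring F}

/-- **F6, pointwise form.**  A function which is regular at every closed point of the (proper)
component `O`, on both charts, is congruent to a constant modulo `π O`. -/
theorem exists_const_of_regAt (h : IsGauss π O) (hac : ResidueAlgClosed π O)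
    {t : F} (ht0 : t ≠ 0) {B0 B1 : Subalgebra R F}
    (hle0 : ∀ x ∈ B0, x ∈ O) (hle1 : ∀ x ∈ B1, x ∈ O) (ht : t ∈ B0) (htinv : t⁻¹ ∈ B1)
    (int0 : ∀ x ∈ B0, IsIntegral ↥(Algebra.adjoin R {t}) x)
    (int1 : ∀ x ∈ B1, IsIntegral ↥(Algebra.adjoin R {t⁻¹}) x)
    {f : F}
    (hreg0 : ∀ 𝔪 : Ideal B0, 𝔪.IsMaximal → ¬ OffBranch π B0 O 𝔪 → RegAt π B0 O 𝔪 f)
    (hreg1 : ∀ 𝔪 : Ideal B1, 𝔪.IsMaximal → ¬ OffBranch π B1 O 𝔪 → RegAt π B1 O 𝔪 f) :
    ∃ r : R, PiMem π O (f - algebraMap R F r) := by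
  obtain ⟨a, ha, hfa⟩ := exists_mem_of_regAt h hle0 hreg0
  obtain ⟨b, hb, hfb⟩ := exists_mem_of_regAt h hle1 hreg1
  exact exists_const_of_mem_both h hac ht0 hle0 hle1 ht htinv int0 int1 ha hb hfa hfb

/-- **F6, pointwise form, in the shape of `Car/Defs43.StrictOn`**: at every closed point `𝔪 ∋ π`
of either chart, either the component does not pass through `𝔪` or `f` is regular there. -/
theorem exists_const_of_offBranch_or_regAt (h : IsGauss π O) (hac : ResidueAlgClosed π O)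
    {t : F} (ht0 : t ≠ 0) {B0 B1 : Subalgebra R F}
    (hle0 : ∀ x ∈ B0, x ∈ O) (hle1 : ∀ x ∈ B1, x ∈ O) (ht : t ∈ B0) (htinv : t⁻¹ ∈ B1)
    (int0 : ∀ x ∈ B0, IsIntegral ↥(Algebra.adjoin R {t}) x)
    (int1 : ∀ x ∈ B1, IsIntegral ↥(Algebra.adjoin R {t⁻¹}) x)
    {f : F}
    (hreg0 : ∀ 𝔪 : Ideal B0, 𝔪.IsMaximal → algebraMap R B0 π ∈ 𝔪 →
      OffBranch π B0 O 𝔪 ∨ RegAt π B0 O 𝔪 f)
    (hreg1 : ∀ 𝔪 : Ideal B1, 𝔪.IsMaximal → algebraMap R B1 π ∈ 𝔪 →
      OffBranch π B1 O 𝔪 ∨ RegAt π B1 O 𝔪 f) :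
    ∃ r : R, PiMem π O (f - algebraMap R F r) := by
  refine exists_const_of_regAt h hac ht0 hle0 hle1 ht htinv int0 int1 ?_ ?_
  · intro 𝔪 h𝔪 hon
    have hπ : algebraMap R B0 π ∈ 𝔪 :=
      (not_offBranch_iff hle0 𝔪).1 hon (pi_mem_branchIdeal hle0)
    exact (hreg0 𝔪 h𝔪 hπ).resolve_left hon
  · intro 𝔪 h𝔪 hon
    have hπ : algebraMap R B1 π ∈ 𝔪 :=
      (not_offBranch_iff hle1 𝔪).1 hon (pi_mem_branchIdeal hle1)
    exact (hreg1 𝔪 h𝔪 hπ).resolve_left hon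

end Constants

section TwoBranch

variable {R F : Type*} [CommRing R] [Field F] [Algebra R F]

/-- `f` is regular at the closed point `𝔪` of the chart `B` as a function on the whole special
fibre: ONE fraction `a / d` of `B_𝔪` approximates `f` on every component through `𝔪`
(`f ∈ B_𝔪 + π (O1 ⊓ O2)` when both pass). -/
def RegAt2 (π : R) (B : Subalgebra R F) (O1 O2 : ValuationSubring F) (𝔪 : Ideal B) (f : F) :
    Prop :=
  ∃ a d : B, d ∉ 𝔪 ∧ (OffBranch π B O1 𝔪 ∨ PiMem π O1 (f * (d : F) - (a : F))) ∧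
    (OffBranch π B O2 𝔪 ∨ PiMem π O2 (f * (d : F) - (a : F)))

variable {π : R} {B : Subalgebra R F} {O1 O2 : ValuationSubring F}

theorem RegAt2.regAt1 {𝔪 : Ideal B} {f : F} (hf : RegAt2 π B O1 O2 𝔪 f) :
    OffBranch π B O1 𝔪 ∨ RegAt π B O1 𝔪 f := by
  obtain ⟨a, d, hd, h1, -⟩ := hf
  exact h1.imp id fun h => ⟨a, d, hd, h⟩

theorem RegAt2.regAt2 {𝔪 : Ideal B} {f : F} (hf : RegAt2 π B O1 O2 𝔪 f) :
    OffBranch π B O2 𝔪 ∨ RegAt π B O2 𝔪 f := by
  obtain ⟨a, d, hd, -, h2⟩ := hf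
  exact h2.imp id fun h => ⟨a, d, hd, h⟩

/-- `f ≡ g mod π (O1 ⊓ O2)` with `g ∈ B_𝔪` gives `RegAt2`. -/
theorem RegAt2.of_inLoc (hle1 : ∀ x ∈ B, x ∈ O1) (hle2 : ∀ x ∈ B, x ∈ O2) {𝔪 : Ideal B}
    {f g : F} (hg : ∃ a d : B, d ∉ 𝔪 ∧ g * (d : F) = (a : F))
    (h1 : PiMem π O1 (f - g)) (h2 : PiMem π O2 (f - g)) : RegAt2 π B O1 O2 𝔪 f := by
  obtain ⟨a, d, hd, hgd⟩ := hg
  have : f * (d : F) - (a : F) = (f - g) * (d : F) := by rw [← hgd]; ring
  refine ⟨a, d, hd, Or.inr ?_, Or.inr ?_⟩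
  · rw [this]; exact h1.mul_right (hle1 _ d.2)
  · rw [this]; exact h2.mul_right (hle2 _ d.2)

/-- At a one-branch point, regularity on the branch through the point suffices (for `f ∈ O`
nothing is asked on the absent branch). -/
theorem RegAt2.of_regAt_left {𝔪 : Ideal B} {f : F} (hf : RegAt π B O1 𝔪 f)
    (hoff : OffBranch π B O2 𝔪) : RegAt2 π B O1 O2 𝔪 f := by
  obtain ⟨a, d, hd, h⟩ := hf
  exact ⟨a, d, hd, Or.inr h, Or.inl hoff⟩

theorem RegAt2.of_regAt_right {𝔪 : Ideal B} {f : F} (hf : RegAt π B O2 𝔪 f)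
    (hoff : OffBranch π B O1 𝔪) : RegAt2 π B O1 O2 𝔪 f := by
  obtain ⟨a, d, hd, h⟩ := hf
  exact ⟨a, d, hd, Or.inl hoff, Or.inr h⟩

/-- **The two constants agree at a node.**  If `f` is regular at a two-branch point `𝔪` (one
fraction for both branches), `f ≡ r1` on the first component and `f ≡ r2` on the second, then
`π ∣ r1 - r2`. -/
theorem dvd_sub_of_regAt2 (hle1 : ∀ x ∈ B, x ∈ O1) (hle2 : ∀ x ∈ B, x ∈ O2)
    (dvrR : ∀ r : R, r ≠ 0 → ∃ (k : ℕ) (v : Rˣ), r = π ^ k * v)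
    {𝔪 : Ideal B} (hnode : IsNode π B O1 O2 𝔪) {f : F} (hf : RegAt2 π B O1 O2 𝔪 f) {r1 r2 : R}
    (h1 : PiMem π O1 (f - algebraMap R F r1)) (h2 : PiMem π O2 (f - algebraMap R F r2)) :
    π ∣ r1 - r2 := by
  obtain ⟨hmax, hπ𝔪, hb1, hb2⟩ := hnode
  obtain ⟨a, d, hd, hf1, hf2⟩ := hf
  have hf1' := hf1.resolve_left hb1
  have hf2' := hf2.resolve_left hb2
  have hp1 := (not_offBranch_iff hle1 𝔪).1 hb1
  have hp2 := (not_offBranch_iff hle2 𝔪).1 hb2
  -- `a - r_j d ∈ 𝔭_j ⊆ 𝔪`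
  have m1 : (a - algebraMap R B r1 * d : B) ∈ 𝔪 := by
    apply hp1
    rw [mem_branchIdeal]
    have : ((a - algebraMap R B r1 * d : B) : F) =
        (f - algebraMap R F r1) * (d : F) - (f * (d : F) - (a : F)) := by
      push_cast; ring
    rw [this]
    exact (h1.mul_right (hle1 _ d.2)).sub hf1'
  have m2 : (a - algebraMap R B r2 * d : B) ∈ 𝔪 := by
    apply hp2
    rw [mem_branchIdeal]
    have : ((a - algebraMap R B r2 * d : B) : F) =
        (f - algebraMap R F r2) * (d : F) - (f * (d : F) - (a : F)) := by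
      push_cast; ring
    rw [this]
    exact (h2.mul_right (hle2 _ d.2)).sub hf2'
  have m3 : algebraMap R B (r1 - r2) * d ∈ 𝔪 := by
    have : algebraMap R B (r1 - r2) * d =
        (a - algebraMap R B r2 * d : B) - (a - algebraMap R B r1 * d : B) := by
      rw [map_sub]; ring
    rw [this]
    exact 𝔪.sub_mem m2 m1
  have m4 : algebraMap R B (r1 - r2) ∈ 𝔪 :=
    (hmax.isPrime.mem_or_mem m3).resolve_right hd
  exact dvd_of_mem_of_dvr dvrR 𝔪 hmax.ne_top m4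

end TwoBranch

section H0

variable {R K F : Type*} [CommRing R] [Field K] [Field F] [Algebra R K] [Algebra K F]
  [Algebra R F] [IsScalarTower R K F]
variable {π : R} {t : F} {B0 B1 : Subalgebra R F} {O1 O2 : ValuationSubring F}

/-- F6 for the first component of a nodal two-chart model. -/
theorem exists_const1 (M : NodalTwoChartModel R F π t B0 B1 O1 O2)
    (hac1 : ResidueAlgClosed π O1) {f : F}
    (hreg0 : ∀ 𝔪 : Ideal B0, 𝔪.IsMaximal → algebraMap R B0 π ∈ 𝔪 →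
      OffBranch π B0 O1 𝔪 ∨ RegAt π B0 O1 𝔪 f)
    (hreg1 : ∀ 𝔪 : Ideal B1, 𝔪.IsMaximal → algebraMap R B1 π ∈ 𝔪 →
      OffBranch π B1 O1 𝔪 ∨ RegAt π B1 O1 𝔪 f) :
    ∃ r : R, PiMem π O1 (f - algebraMap R F r) :=
  exists_const_of_offBranch_or_regAt (isGauss1 M) hac1 M.t_ne M.le_O1_0 M.le_O1_1 M.t_mem
    M.tinv_mem M.int0 M.int1 hreg0 hreg1

/-- F6 for the second component of a nodal two-chart model. -/
theorem exists_const2 (M : NodalTwoChartModel R F π t B0 B1 O1 O2)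
    (hac2 : ResidueAlgClosed π O2) {f : F}
    (hreg0 : ∀ 𝔪 : Ideal B0, 𝔪.IsMaximal → algebraMap R B0 π ∈ 𝔪 →
      OffBranch π B0 O2 𝔪 ∨ RegAt π B0 O2 𝔪 f)
    (hreg1 : ∀ 𝔪 : Ideal B1, 𝔪.IsMaximal → algebraMap R B1 π ∈ 𝔪 →
      OffBranch π B1 O2 𝔪 ∨ RegAt π B1 O2 𝔪 f) :
    ∃ r : R, PiMem π O2 (f - algebraMap R F r) :=
  exists_const_of_offBranch_or_regAt (isGauss2 M) hac2 M.t_ne M.le_O2_0 M.le_O2_1 M.t_mem
    M.tinv_mem M.int0 M.int1 hreg0 hreg1

/-- **`H⁰(X_k, O) = k`, pointwise form.**  A function regular at every closed point of the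
special fibre (on both charts; at a two-branch point ONE fraction of `B_𝔪` approximates `f` on
both branches) is congruent to a constant of `R` modulo `π (O1 ⊓ O2)`. -/
theorem exists_const_of_regular (D : NodalNumData R K F π t B0 B1 O1 O2)
    (hac1 : ResidueAlgClosed π O1) (hac2 : ResidueAlgClosed π O2)
    (hnode : HasNode π B0 B1 O1 O2) {f : F}
    (hreg0 : ∀ 𝔪 : Ideal B0, 𝔪.IsMaximal → algebraMap R B0 π ∈ 𝔪 → RegAt2 π B0 O1 O2 𝔪 f)
    (hreg1 : ∀ 𝔪 : Ideal B1, 𝔪.IsMaximal → algebraMap R B1 π ∈ 𝔪 → RegAt2 π B1 O1 O2 𝔪 f) :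
    ∃ r : R, PiO π O1 O2 (f - algebraMap R F r) := by
  have M := D.model
  obtain ⟨r1, hr1⟩ := exists_const1 M hac1 (fun 𝔪 h𝔪 hπ => (hreg0 𝔪 h𝔪 hπ).regAt1)
    (fun 𝔪 h𝔪 hπ => (hreg1 𝔪 h𝔪 hπ).regAt1)
  obtain ⟨r2, hr2⟩ := exists_const2 M hac2 (fun 𝔪 h𝔪 hπ => (hreg0 𝔪 h𝔪 hπ).regAt2)
    (fun 𝔪 h𝔪 hπ => (hreg1 𝔪 h𝔪 hπ).regAt2)
  have hdvd : π ∣ r1 - r2 := by
    rcases hnode with ⟨𝔪, h𝔪⟩ | ⟨𝔪, h𝔪⟩
    · exact dvd_sub_of_regAt2 M.le_O1_0 M.le_O2_0 D.dvrR h𝔪 (hreg0 𝔪 h𝔪.1 h𝔪.2.1) hr1 hr2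
    · exact dvd_sub_of_regAt2 M.le_O1_1 M.le_O2_1 D.dvrR h𝔪 (hreg1 𝔪 h𝔪.1 h𝔪.2.1) hr1 hr2
  obtain ⟨s, hs⟩ := hdvd
  have hsO2 : algebraMap R F s ∈ O2 := M.le_O2_0 _ (B0.algebraMap_mem s)
  have hr12 : PiMem π O2 (algebraMap R F r1 - algebraMap R F r2) := by
    refine ⟨algebraMap R F s, hsO2, ?_⟩
    rw [← map_sub, hs, map_mul]
  have hr1' : PiMem π O2 (f - algebraMap R F r1) := by
    have : f - algebraMap R F r1 =
        (f - algebraMap R F r2) - (algebraMap R F r1 - algebraMap R F r2) := by ring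
    rw [this]; exact hr2.sub hr12
  exact ⟨r1, (piO_iff M.pi_ne).2 ⟨hr1, hr1'⟩⟩

/-- The two constants of a function regular on the whole special fibre: it is enough to know the
congruence on each component separately (pointwise form of `dvd_sub_of_node`). -/
theorem piO_of_piMem_of_regular (D : NodalNumData R K F π t B0 B1 O1 O2)
    (hnode : HasNode π B0 B1 O1 O2) {f : F}
    (hreg0 : ∀ 𝔪 : Ideal B0, IsNode π B0 O1 O2 𝔪 → RegAt2 π B0 O1 O2 𝔪 f)
    (hreg1 : ∀ 𝔪 : Ideal B1, IsNode π B1 O1 O2 𝔪 → RegAt2 π B1 O1 O2 𝔪 f)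
    {r1 r2 : R} (hr1 : PiMem π O1 (f - algebraMap R F r1))
    (hr2 : PiMem π O2 (f - algebraMap R F r2)) :
    π ∣ r1 - r2 ∧ PiO π O1 O2 (f - algebraMap R F r1) := by
  have M := D.model
  have hdvd : π ∣ r1 - r2 := by
    rcases hnode with ⟨𝔪, h𝔪⟩ | ⟨𝔪, h𝔪⟩
    · exact dvd_sub_of_regAt2 M.le_O1_0 M.le_O2_0 D.dvrR h𝔪 (hreg0 𝔪 h𝔪) hr1 hr2
    · exact dvd_sub_of_regAt2 M.le_O1_1 M.le_O2_1 D.dvrR h𝔪 (hreg1 𝔪 h𝔪) hr1 hr2
  refine ⟨hdvd, ?_⟩
  obtain ⟨s, hs⟩ := hdvd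
  have hsO2 : algebraMap R F s ∈ O2 := M.le_O2_0 _ (B0.algebraMap_mem s)
  have hr12 : PiMem π O2 (algebraMap R F r1 - algebraMap R F r2) := by
    refine ⟨algebraMap R F s, hsO2, ?_⟩
    rw [← map_sub, hs, map_mul]
  have hr1' : PiMem π O2 (f - algebraMap R F r1) := by
    have : f - algebraMap R F r1 =
        (f - algebraMap R F r2) - (algebraMap R F r1 - algebraMap R F r2) := by ring
    rw [this]; exact hr2.sub hr12
  exact (piO_iff M.pi_ne).2 ⟨hr1, hr1'⟩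

end H0

end Fermat.Agent.M1.Fib.Pointwise98
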