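/-
Programme M1 (S44), chapter FIB (helper98), file 7: the INSTANCE of helper43's `WildPL43.Frame`
(the model-side input of T3 GLOBAL = wild Picard–Lefschetz, `slopes_const_of_mem_cart`) for a nodal
two-chart model.

* `frame_const` : the `const1` / `const2` fields, literally, from `Pointwise98`
  ("a function regular at every closed point of a component is constant");
* `chart_sat`, `chart_hart` : the `sat` / `hart` fields for one chart, from helper25's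
  `SlopeAdapter25.mem_pow_mul_locSub` / `mem_loc_of_places`;
* `exists_vals_unit` : the `vals1` / `vals2` fields;
* `frame_of_numData` : the assembled `Frame` for `D : NodalNumData` with `(AC_1)`, `(AC_2)`.
-/
import Mathlib
import Fermat.Agent.M1.Fib.Pointwise98
import Fermat.Agent.M1.Mon.WildPL43
import Fermat.Agent.M1.Node.SlopeAdapter25

set_option autoImplicit false
set_option linter.unusedSectionVars false

namespace Fermat.Agent.M1.Fib.FrameInst98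

open AlgebraicCurve Fermat.Agent.ES.N34.NodalCore13 Fermat.Agent.ES.N34.NodalCL13
  Fermat.Agent.ES.N34.NumData13 Fermat.Agent.ES.N34.NodalSmooth13
  Fermat.Agent.M1.Fib.Branch98 Fermat.Agent.M1.Fib.Constants98
  Fermat.Agent.M1.Fib.H0k98 Fermat.Agent.M1.Fib.Pointwise98
  Fermat.Agent.M1.Car.Defs43 Fermat.Agent.M1.Node.Thick25 Fermat.Agent.M1.Node.SlopeAdapter25
  Fermat.Agent.M1.Mon.WildPL43

section Const

variable {R F : Type*} [CommRing R] [Field F] [Algebra R F]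
variable {π : R} {O : ValuationSubring F}

/-- The `const1` / `const2` fields of `WildPL43.Frame`, literally. -/
theorem frame_const (h : IsGauss π O) (hac : ResidueAlgClosed π O)
    {t : F} (ht0 : t ≠ 0) {B0 B1 : Subalgebra R F}
    (hle0 : ∀ x ∈ B0, x ∈ O) (hle1 : ∀ x ∈ B1, x ∈ O) (ht : t ∈ B0) (htinv : t⁻¹ ∈ B1)
    (int0 : ∀ x ∈ B0, IsIntegral ↥(Algebra.adjoin R {t}) x)
    (int1 : ∀ x ∈ B1, IsIntegral ↥(Algebra.adjoin R {t⁻¹}) x) :
    ∀ g ∈ O, (∀ B : Subalgebra R F, B = B0 ∨ B = B1 → ∀ 𝔪 : Ideal B, 𝔪.IsMaximal →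
      algebraMap R B π ∈ 𝔪 → ¬ OffBranch π B O 𝔪 →
      ∃ w, InLocal B 𝔪 w ∧ ∃ c ∈ O, g - w = algebraMap R F π * c) →
    ∃ r : R, ∃ c ∈ O, g - algebraMap R F r = algebraMap R F π * c := by
  intro g _ H
  refine exists_const_of_regAt h hac ht0 hle0 hle1 ht htinv int0 int1 ?_ ?_
  · intro 𝔪 h𝔪 hon
    have hπ : algebraMap R B0 π ∈ 𝔪 :=
      (not_offBranch_iff hle0 𝔪).1 hon (pi_mem_branchIdeal hle0)
    obtain ⟨w, hw, c, hc, hgw⟩ := H B0 (Or.inl rfl) 𝔪 h𝔪 hπ hon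
    exact RegAt.of_inLoc hle0 hw ⟨c, hc, hgw⟩
  · intro 𝔪 h𝔪 hon
    have hπ : algebraMap R B1 π ∈ 𝔪 :=
      (not_offBranch_iff hle1 𝔪).1 hon (pi_mem_branchIdeal hle1)
    obtain ⟨w, hw, c, hc, hgw⟩ := H B1 (Or.inr rfl) 𝔪 h𝔪 hπ hon
    exact RegAt.of_inLoc hle1 hw ⟨c, hc, hgw⟩

/-- `IsGauss` gives `Thick25.IsUnifOf`. -/
theorem IsGauss.isUnifOf (h : IsGauss π O) : IsUnifOf O (algebraMap R F π) :=
  ⟨h.pi_nonunit, h.unif⟩

/-- The `vals1` / `vals2` fields of `WildPL43.Frame`. -/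
theorem exists_vals_unit (h : IsGauss π O) (z : F) (hz : z ≠ 0) :
    ∃ (a : ℤ) (u : F), u ∈ O ∧ u⁻¹ ∈ O ∧ z = algebraMap R F π ^ a * u := by
  obtain ⟨n, hn⟩ := h.arch z
  obtain ⟨n', hn'⟩ := h.arch z⁻¹
  obtain ⟨a, ha⟩ := (IsGauss.isUnifOf h).exists_zpow hz hn hn'
  obtain ⟨u, hu, hu', -, hzu⟩ := exists_unit_of_val h.pi_ne hz ha
  exact ⟨a, u, hu, hu', hzu⟩

end Const

section Chart

variable {R K F : Type*} [CommRing R] [Field K] [Field F] [Algebra R K] [Algebra K F]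
  [Algebra R F] [IsScalarTower R K F]

/-- `0 ≤ ord_P f` means `f ∈ O_P`. -/
theorem mem_place_of_ord_nonneg (v : Place K F) {f : F} (hf : f ≠ 0) (h : 0 ≤ v.ord f) :
    f ∈ v.toValuationSubring := by
  obtain ⟨ϖ, hϖ⟩ := IsDiscreteValuationRing.exists_irreducible v.toValuationSubring
  obtain ⟨u, hu⟩ := v.exists_unit_mul_zpow hf hϖ
  rw [hu, show v.ord f = (((v.ord f).toNat : ℕ) : ℤ) from (Int.toNat_of_nonneg h).symm,
    zpow_natCast]
  exact mul_mem (u : v.toValuationSubring).2 (pow_mem (ϖ : v.toValuationSubring).2 _)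

variable (π : R) (t : F) (B : Subalgebra R F) (O1 O2 : ValuationSubring F)

/-- The `sat` field of `WildPL43.Frame` for one chart. -/
theorem chart_sat
    (pi_ne : algebraMap R F π ≠ 0)
    (leO1 : ∀ x ∈ B, x ∈ O1) (leO2 : ∀ x ∈ B, x ∈ O2)
    (arch1 : ∀ x : F, ∃ k : ℕ, algebraMap R F π ^ k * x ∈ O1)
    (arch2 : ∀ x : F, ∃ k : ℕ, algebraMap R F π ^ k * x ∈ O2)
    (sat : ∀ b ∈ B, ∀ c : F, c ∈ O1 → c ∈ O2 → b = algebraMap R F π * c → c ∈ B)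
    (𝔪 : Ideal B) (h𝔪 : 𝔪.IsMaximal) (w : F) (hw : InLocal B 𝔪 w)
    (h1 : OffBranch π B O1 𝔪 ∨ ∃ c ∈ O1, w = algebraMap R F π * c)
    (h2 : OffBranch π B O2 𝔪 ∨ ∃ c ∈ O2, w = algebraMap R F π * c) :
    ∃ w', InLocal B 𝔪 w' ∧ w = algebraMap R F π * w' := by
  have : 𝔪.IsPrime := h𝔪.isPrime
  have hw' : w ∈ locSub B 𝔪 := hw
  have h1' : (∃ o ∈ O1, w = algebraMap R F π ^ 1 * o) ∨ OffBranch π B O1 𝔪 := by
    rcases h1 with h | ⟨c, hc, hwc⟩
    · exact Or.inr h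
    · exact Or.inl ⟨c, hc, by rw [pow_one]; exact hwc⟩
  have h2' : (∃ o ∈ O2, w = algebraMap R F π ^ 1 * o) ∨ OffBranch π B O2 𝔪 := by
    rcases h2 with h | ⟨c, hc, hwc⟩
    · exact Or.inr h
    · exact Or.inl ⟨c, hc, by rw [pow_one]; exact hwc⟩
  obtain ⟨c, hc, hwc⟩ := mem_pow_mul_locSub π B O1 O2 leO1 leO2 arch1 arch2 sat 𝔪 hw' 1 h1' h2'
    pi_ne
  refine ⟨c, hc, ?_⟩
  rw [hwc, pow_one]

/-- The `hart` field of `WildPL43.Frame` for one chart (algebraic Hartogs at a closed point). -/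
theorem chart_hart
    (ht : t ∈ B) (noethB : IsNoetherianRing B) (fracR : IsFractionRing R K)
    (dvrR : ∀ r : R, r ≠ 0 → ∃ (k : ℕ) (v : Rˣ), r = π ^ k * v)
    (pi_ne : algebraMap R F π ≠ 0)
    (intcl : ∀ x : F, IsIntegral B x → x ∈ B)
    (int0 : ∀ x ∈ B, IsIntegral (Algebra.adjoin R {t}) x)
    (frac : ∀ x : F, ∃ a ∈ B, ∃ b ∈ B, b ≠ 0 ∧ x * b = a)
    (leO1 : ∀ x ∈ B, x ∈ O1) (leO2 : ∀ x ∈ B, x ∈ O2)
    (arch1 : ∀ x : F, ∃ k : ℕ, algebraMap R F π ^ k * x ∈ O1)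
    (arch2 : ∀ x : F, ∃ k : ℕ, algebraMap R F π ^ k * x ∈ O2)
    (sat : ∀ b ∈ B, ∀ c : F, c ∈ O1 → c ∈ O2 → b = algebraMap R F π * c → c ∈ B)
    (𝔪 : Ideal B) (h𝔪 : 𝔪.IsMaximal) (w : F) (hw0 : w ≠ 0)
    (hw : ∀ P : Place K F, Through B 𝔪 P → 0 ≤ P.ord w)
    (h1 : OffBranch π B O1 𝔪 ∨ w ∈ O1) (h2 : OffBranch π B O2 𝔪 ∨ w ∈ O2) :
    InLocal B 𝔪 w := by
  have : 𝔪.IsPrime := h𝔪.isPrime
  obtain ⟨n, hn⟩ := mem_loc_of_places (K := K) π t B O1 O2 ht noethB fracR dvrR pi_ne intcl int0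
    frac leO1 leO2 arch1 arch2 sat 𝔪 (w := w)
    (fun P hP => mem_place_of_ord_nonneg P hw0 (hw P hP))
  have h1' : (∃ o ∈ O1, algebraMap R F π ^ n * w = algebraMap R F π ^ n * o) ∨
      OffBranch π B O1 𝔪 := by
    rcases h1 with h | h
    · exact Or.inr h
    · exact Or.inl ⟨w, h, rfl⟩
  have h2' : (∃ o ∈ O2, algebraMap R F π ^ n * w = algebraMap R F π ^ n * o) ∨
      OffBranch π B O2 𝔪 := by
    rcases h2 with h | h
    · exact Or.inr h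
    · exact Or.inl ⟨w, h, rfl⟩
  obtain ⟨c, hc, hwc⟩ := mem_pow_mul_locSub π B O1 O2 leO1 leO2 arch1 arch2 sat 𝔪 hn n h1' h2'
    pi_ne
  have : w = c := mul_left_cancel₀ (pow_ne_zero n pi_ne) hwc
  rw [this]
  exact hc

end Chart

section Frame

variable {R K F : Type*} [CommRing R] [Field K] [Field F] [Algebra R K] [Algebra K F]
  [Algebra R F] [IsScalarTower R K F]
variable {π : R} {t : F} {B0 B1 : Subalgebra R F} {O1 O2 : ValuationSubring F}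

/-- **The frame of a nodal two-chart model**: everything `WildPL43.slopes_const_of_mem_cart`
(T3 GLOBAL) needs from the model. -/
theorem frame_of_numData (D : NodalNumData R K F π t B0 B1 O1 O2)
    (hac1 : ResidueAlgClosed π O1) (hac2 : ResidueAlgClosed π O2) :
    Frame (K := K) π B0 B1 O1 O2 := by
  have M := D.model
  have hG1 := isGauss1 M
  have hG2 := isGauss2 M
  refine
    { unif1 := IsGauss.isUnifOf hG1
      unif2 := IsGauss.isUnifOf hG2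
      le1 := ?_
      le2 := ?_
      vals1 := exists_vals_unit hG1
      vals2 := exists_vals_unit hG2
      dvrR := D.dvrR
      sat := ?_
      hart := ?_
      const1 := frame_const hG1 hac1 M.t_ne M.le_O1_0 M.le_O1_1 M.t_mem M.tinv_mem M.int0 M.int1
      const2 := frame_const hG2 hac2 M.t_ne M.le_O2_0 M.le_O2_1 M.t_mem M.tinv_mem M.int0 M.int1 }
  · rintro B (rfl | rfl)
    · exact M.le_O1_0
    · exact M.le_O1_1
  · rintro B (rfl | rfl)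
    · exact M.le_O2_0
    · exact M.le_O2_1
  · rintro B (rfl | rfl) 𝔪 h𝔪 - w hw h1 h2
    · exact chart_sat π B O1 O2 M.pi_ne M.le_O1_0 M.le_O2_0 M.arch1 M.arch2 M.sat0 𝔪 h𝔪 w hw h1 h2
    · exact chart_sat π B O1 O2 M.pi_ne M.le_O1_1 M.le_O2_1 M.arch1 M.arch2 M.sat1 𝔪 h𝔪 w hw h1 h2
  · rintro B (rfl | rfl) 𝔪 h𝔪 - w hw0 hw h1 h2
    · exact chart_hart (K := K) π t B O1 O2 M.t_mem D.noeth0 D.fracR D.dvrR M.pi_ne M.intcl0
        M.int0 D.frac0 M.le_O1_0 M.le_O2_0 M.arch1 M.arch2 M.sat0 𝔪 h𝔪 w hw0 hw h1 h2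
    · exact chart_hart (K := K) π t⁻¹ B O1 O2 M.tinv_mem D.noeth1 D.fracR D.dvrR M.pi_ne M.intcl1
        M.int1 D.frac1 M.le_O1_1 M.le_O2_1 M.arch1 M.arch2 M.sat1 𝔪 h𝔪 w hw0 hw h1 h2

end Frame

end Fermat.Agent.M1.Fib.FrameInst98
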