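/-
Programme M1 (S44), chapter FIB (helper98), file 5: SEMINORMALITY of the special fibre at the
two-branch points (F4).

For a chart `B ⊆ O1 ⊓ O2` with branch ideals `𝔭_j = B ∩ π O_j`:

* `NodeSumAt π B O1 O2 𝔪` : locally at `𝔪`, the maximal ideal is `𝔭₁ + 𝔭₂` ("the two branches
  meet transversally at `𝔪`").  It follows from the strong node coordinates
  `ES/N35/NodeStrong4.StrongCoords` (`nodeSumAt_of_coords`; the hypothesis there is the literal body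
  of `StrongCoords`, so `nodeSumAt_of_coords hle1 hle2 (h : StrongCoords π B O1 O2 𝔪)` typechecks
  without importing the heavy N35 chapter here).
* `mem_sup_branchIdeal_iff` : `d ∈ 𝔭₁ + 𝔭₂ ↔ d` vanishes at every two-branch point.
* `pow_mem_sup_branchIdeal` : `𝔭₁ + 𝔭₂` is a radical ideal.
* `exists_glue_iff` : **pairs agreeing at the nodes glue**: for `b1 b2 ∈ B`,
  `(∀ nodes 𝔪, b1 - b2 ∈ 𝔪) ↔ ∃ b ∈ B, b ≡ b1 mod π O1 ∧ b ≡ b2 mod π O2`.
-/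
import Mathlib
import Fermat.Agent.M1.Fib.H0k98

set_option autoImplicit false
set_option linter.unusedSectionVars false

namespace Fermat.Agent.M1.Fib.Seminormal98

open Fermat.Agent.ES.N34.NodalCore13 Fermat.Agent.ES.N34.NodalCL13
  Fermat.Agent.ES.N34.NumData13 Fermat.Agent.M1.Fib.Branch98 Fermat.Agent.M1.Fib.Constants98
  Fermat.Agent.M1.Fib.H0k98

section NodeSum

variable {R F : Type*} [CommRing R] [Field F] [Algebra R F]

/-- Locally at `𝔪`, every element of `𝔪` is a sum of an element of `𝔭₁` and an element of `𝔭₂`: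
`𝔪 B_𝔪 = (𝔭₁ + 𝔭₂) B_𝔪`. -/
def NodeSumAt (π : R) (B : Subalgebra R F) (O1 O2 : ValuationSubring F) (𝔪 : Ideal B) : Prop :=
  ∀ f ∈ 𝔪, ∃ d : B, d ∉ 𝔪 ∧ ∃ v1 v2 : B, PiMem π O1 (v1 : F) ∧ PiMem π O2 (v2 : F) ∧
    d * f = v1 + v2

variable {π : R} {B : Subalgebra R F} {O1 O2 : ValuationSubring F}

/-- Strong node coordinates (the literal body of `NodeStrong4.StrongCoords`) give `NodeSumAt`. -/
theorem nodeSumAt_of_coords (hle1 : ∀ x ∈ B, x ∈ O1) (hle2 : ∀ x ∈ B, x ∈ O2) {𝔪 : Ideal B}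
    (h : ∃ x y : B, (∃ o ∈ O2, (x : F) = algebraMap R F π * o) ∧
      (∃ o ∈ O1, (y : F) = algebraMap R F π * o) ∧
      (∃ e : B, x * y = algebraMap R B π * e) ∧
      ∀ f ∈ 𝔪, ∃ d : B, d ∉ 𝔪 ∧ ∃ a b e : B, d * f = a * x + b * y + algebraMap R B π * e) :
    NodeSumAt π B O1 O2 𝔪 := by
  obtain ⟨x, y, hx, hy, -, hgen⟩ := h
  intro f hf
  obtain ⟨d, hd, a, b, e, hdf⟩ := hgen f hf
  refine ⟨d, hd, b * y + algebraMap R B π * e, a * x, ?_, ?_, ?_⟩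
  · have h1 : PiMem π O1 ((b * y : B) : F) := by
      rw [Subalgebra.coe_mul]
      exact PiMem.mul_left hy (hle1 _ b.2)
    have h2 : PiMem π O1 ((algebraMap R B π * e : B) : F) := by
      rw [Subalgebra.coe_mul]
      exact PiMem.mul_right piMem_pi (hle1 _ e.2)
    rw [Subalgebra.coe_add]
    exact h1.add h2
  · rw [Subalgebra.coe_mul]
    exact PiMem.mul_left hx (hle2 _ a.2)
  · rw [hdf]; ring

/-- Strong node coordinates at all two-branch points of a chart (literal shape of one half of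
`NodeStrong4.StrongNodes`) give `NodeSumAt` at all of them. -/
theorem nodeSumAt_of_strong (hle1 : ∀ x ∈ B, x ∈ O1) (hle2 : ∀ x ∈ B, x ∈ O2)
    (hS : ∀ 𝔪 : Ideal B, 𝔪.IsMaximal → algebraMap R B π ∈ 𝔪 →
      ¬ OffBranch π B O1 𝔪 → ¬ OffBranch π B O2 𝔪 →
      ∃ x y : B, (∃ o ∈ O2, (x : F) = algebraMap R F π * o) ∧
        (∃ o ∈ O1, (y : F) = algebraMap R F π * o) ∧
        (∃ e : B, x * y = algebraMap R B π * e) ∧
        ∀ f ∈ 𝔪, ∃ d : B, d ∉ 𝔪 ∧ ∃ a b e : B, d * f = a * x + b * y + algebraMap R B π * e) :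
    ∀ 𝔪 : Ideal B, IsNode π B O1 O2 𝔪 → NodeSumAt π B O1 O2 𝔪 :=
  fun 𝔪 h => nodeSumAt_of_coords hle1 hle2 (hS 𝔪 h.1 h.2.1 h.2.2.1 h.2.2.2)

/-- Elements of `𝔭₁ ⊔ 𝔭₂`, elementwise. -/
theorem mem_sup_branchIdeal {hle1 : ∀ x ∈ B, x ∈ O1} {hle2 : ∀ x ∈ B, x ∈ O2} {d : B} :
    d ∈ branchIdeal π B O1 hle1 ⊔ branchIdeal π B O2 hle2 ↔
      ∃ v1 v2 : B, PiMem π O1 (v1 : F) ∧ PiMem π O2 (v2 : F) ∧ d = v1 + v2 := by
  rw [Submodule.mem_sup]
  constructor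
  · rintro ⟨v1, h1, v2, h2, rfl⟩
    exact ⟨v1, v2, h1, h2, rfl⟩
  · rintro ⟨v1, v2, h1, h2, rfl⟩
    exact ⟨v1, h1, v2, h2, rfl⟩

/-- `𝔭₁ + 𝔭₂` is contained in every two-branch point. -/
theorem sup_branchIdeal_le_of_isNode (hle1 : ∀ x ∈ B, x ∈ O1) (hle2 : ∀ x ∈ B, x ∈ O2)
    {𝔪 : Ideal B} (h : IsNode π B O1 O2 𝔪) :
    branchIdeal π B O1 hle1 ⊔ branchIdeal π B O2 hle2 ≤ 𝔪 :=
  sup_le ((not_offBranch_iff hle1 𝔪).1 h.2.2.1) ((not_offBranch_iff hle2 𝔪).1 h.2.2.2)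

/-- **The node ideal.**  `d ∈ 𝔭₁ + 𝔭₂` iff `d` vanishes at every two-branch point of the chart
(given that the branches meet transversally there). -/
theorem mem_sup_branchIdeal_iff (hle1 : ∀ x ∈ B, x ∈ O1) (hle2 : ∀ x ∈ B, x ∈ O2)
    (hnodes : ∀ 𝔪 : Ideal B, IsNode π B O1 O2 𝔪 → NodeSumAt π B O1 O2 𝔪) (d : B) :
    d ∈ branchIdeal π B O1 hle1 ⊔ branchIdeal π B O2 hle2 ↔
      ∀ 𝔪 : Ideal B, IsNode π B O1 O2 𝔪 → d ∈ 𝔪 := by
  constructor
  · intro hd 𝔪 h𝔪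
    exact sup_branchIdeal_le_of_isNode hle1 hle2 h𝔪 hd
  · intro hd
    set I := branchIdeal π B O1 hle1 ⊔ branchIdeal π B O2 hle2 with hI
    -- the colon ideal `(I : d)` is not contained in any maximal ideal
    by_contra hdI
    have hcol : I.colon {d} ≠ ⊤ := by
      intro htop
      apply hdI
      have h1 : (1 : B) ∈ I.colon {d} := by rw [htop]; trivial
      rw [Submodule.mem_colon_singleton] at h1
      simpa using h1
    obtain ⟨𝔪, h𝔪, hle⟩ := Ideal.exists_le_maximal _ hcol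
    -- every element `s` with `s • d ∈ I` lies in `𝔪`
    have key : ∀ s : B, s * d ∈ I → s ∈ 𝔪 := by
      intro s hs
      apply hle
      rw [Submodule.mem_colon_singleton]
      exact hs
    have hp1 : branchIdeal π B O1 hle1 ≤ I := le_sup_left
    have hp2 : branchIdeal π B O2 hle2 ≤ I := le_sup_right
    -- `𝔪` contains `𝔭₁` and `𝔭₂`
    have h1 : branchIdeal π B O1 hle1 ≤ 𝔪 := fun e he => key e (I.mul_mem_right _ (hp1 he))
    have h2 : branchIdeal π B O2 hle2 ≤ 𝔪 := fun e he => key e (I.mul_mem_right _ (hp2 he))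
    have hnode : IsNode π B O1 O2 𝔪 :=
      ⟨h𝔪, h1 (pi_mem_branchIdeal hle1), (not_offBranch_iff hle1 𝔪).2 h1,
        (not_offBranch_iff hle2 𝔪).2 h2⟩
    obtain ⟨s, hs, v1, v2, hv1, hv2, hsd⟩ := hnodes 𝔪 hnode d (hd 𝔪 hnode)
    apply hs
    apply key
    rw [hsd, hI]
    exact mem_sup_branchIdeal.2 ⟨v1, v2, hv1, hv2, rfl⟩

/-- `𝔭₁ + 𝔭₂` is a radical ideal. -/
theorem pow_mem_sup_branchIdeal (hle1 : ∀ x ∈ B, x ∈ O1) (hle2 : ∀ x ∈ B, x ∈ O2)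
    (hnodes : ∀ 𝔪 : Ideal B, IsNode π B O1 O2 𝔪 → NodeSumAt π B O1 O2 𝔪) {d : B} {n : ℕ}
    (hd : d ^ n ∈ branchIdeal π B O1 hle1 ⊔ branchIdeal π B O2 hle2) :
    d ∈ branchIdeal π B O1 hle1 ⊔ branchIdeal π B O2 hle2 := by
  rw [mem_sup_branchIdeal_iff hle1 hle2 hnodes] at hd ⊢
  intro 𝔪 h𝔪
  exact h𝔪.1.isPrime.mem_of_pow_mem n (hd 𝔪 h𝔪)

theorem sup_branchIdeal_isRadical (hle1 : ∀ x ∈ B, x ∈ O1) (hle2 : ∀ x ∈ B, x ∈ O2)
    (hnodes : ∀ 𝔪 : Ideal B, IsNode π B O1 O2 𝔪 → NodeSumAt π B O1 O2 𝔪) :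
    (branchIdeal π B O1 hle1 ⊔ branchIdeal π B O2 hle2).IsRadical := by
  intro d hd
  obtain ⟨n, hn⟩ := hd
  exact pow_mem_sup_branchIdeal hle1 hle2 hnodes hn

/-- **Seminormality: pairs agreeing at the nodes glue.**  Two functions `b1` (on the first
branch) and `b2` (on the second branch) of the chart `B` come from one function `b ∈ B` iff they
agree at every two-branch point. -/
theorem exists_glue_iff (hle1 : ∀ x ∈ B, x ∈ O1) (hle2 : ∀ x ∈ B, x ∈ O2)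
    (hnodes : ∀ 𝔪 : Ideal B, IsNode π B O1 O2 𝔪 → NodeSumAt π B O1 O2 𝔪) (b1 b2 : B) :
    (∃ b : B, PiMem π O1 ((b : F) - (b1 : F)) ∧ PiMem π O2 ((b : F) - (b2 : F))) ↔
      ∀ 𝔪 : Ideal B, IsNode π B O1 O2 𝔪 → b1 - b2 ∈ 𝔪 := by
  rw [← mem_sup_branchIdeal_iff hle1 hle2 hnodes, mem_sup_branchIdeal]
  constructor
  · rintro ⟨b, h1, h2⟩
    refine ⟨b1 - b, b - b2, ?_, ?_, by ring⟩
    · have : ((b1 - b : B) : F) = -((b : F) - (b1 : F)) := by push_cast; ring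
      rw [this]; exact h1.neg
    · have : ((b - b2 : B) : F) = (b : F) - (b2 : F) := by push_cast; ring
      rw [this]; exact h2
  · rintro ⟨v1, v2, h1, h2, h12⟩
    refine ⟨b1 - v1, ?_, ?_⟩
    · have : ((b1 - v1 : B) : F) - (b1 : F) = -(v1 : F) := by push_cast; ring
      rw [this]; exact h1.neg
    · have e : b1 - v1 = b2 + v2 := by linear_combination h12
      have : ((b1 - v1 : B) : F) - (b2 : F) = (v2 : F) := by rw [e]; push_cast; ring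
      rw [this]; exact h2

end NodeSum

end Fermat.Agent.M1.Fib.Seminormal98
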