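/-
Programme M1 (S44), chapter FIB (helper98), file 6: the INSTANCE of helper15's abstract toric
setup `Pic2/Toric15.ToricSetup` for a nodal two-chart model.

Ambient ring `Ω = F`; `B0, B1` the charts (as subrings), `B01 = overlap t B0 = B0[1/t]`,
`k' = ` the image of `R`, `I = π B01`, `P_j = π O_j`.  Inputs beyond the model `M`:
`(AC_j)` (`ResidueAlgClosed`), transversality of the branches at the two-branch points
(`Seminormal98.NodeSumAt`, from `StrongCoords`), residue characteristic `p` (`π ∣ p`) and `k = R/π`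
perfect.

Consequences (`frobenius_injective`, `const_of_mem`, `mem_of_const`) are restated for the model in
elementwise form.
-/
import Mathlib
import Fermat.Agent.M1.Fib.Seminormal98
import Fermat.Agent.M1.Pic2.Toric15

set_option autoImplicit false
set_option linter.unusedSectionVars false

namespace Fermat.Agent.M1.Fib.ToricInst98

open Fermat.Agent.ES.N34.NodalCore13 Fermat.Agent.ES.N34.NodalCL13
  Fermat.Agent.ES.N34.NumData13 Fermat.Agent.M1.Fib.Branch98 Fermat.Agent.M1.Fib.Constants98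
  Fermat.Agent.M1.Fib.H0k98 Fermat.Agent.M1.Fib.Seminormal98 Fermat.Agent.M1.Pic2.Toric15

section Groups

variable {R F : Type*} [CommRing R] [Field F] [Algebra R F]

/-- `π O` as an additive subgroup of `F`. -/
def piGroup (π : R) (O : ValuationSubring F) : AddSubgroup F where
  carrier := {x | PiMem π O x}
  add_mem' := fun hx hy => hx.add hy
  zero_mem' := PiMem.zero
  neg_mem' := fun hx => hx.neg

@[simp] theorem mem_piGroup {π : R} {O : ValuationSubring F} {x : F} :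
    x ∈ piGroup π O ↔ PiMem π O x := Iff.rfl

/-- `π S` as an additive subgroup of `F`, for a subalgebra `S`. -/
def piSub (π : R) (S : Subalgebra R F) : AddSubgroup F where
  carrier := {x | ∃ c ∈ S, x = algebraMap R F π * c}
  add_mem' := by
    rintro x y ⟨c, hc, rfl⟩ ⟨d, hd, rfl⟩
    exact ⟨c + d, S.add_mem hc hd, by ring⟩
  zero_mem' := ⟨0, S.zero_mem, by ring⟩
  neg_mem' := by
    rintro x ⟨c, hc, rfl⟩
    exact ⟨-c, S.neg_mem hc, by ring⟩

@[simp] theorem mem_piSub {π : R} {S : Subalgebra R F} {x : F} :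
    x ∈ piSub π S ↔ ∃ c ∈ S, x = algebraMap R F π * c := Iff.rfl

variable {π : R} {B : Subalgebra R F} {O1 O2 : ValuationSubring F}

/-- helper15's `NodeSum` for the chart `B` is membership in `𝔭₁ + 𝔭₂`. -/
theorem nodeSum_iff (hle1 : ∀ x ∈ B, x ∈ O1) (hle2 : ∀ x ∈ B, x ∈ O2) (d : F) :
    NodeSum B.toSubring (piGroup π O1) (piGroup π O2) d ↔
      ∃ hd : d ∈ B, (⟨d, hd⟩ : B) ∈ branchIdeal π B O1 hle1 ⊔ branchIdeal π B O2 hle2 := by
  constructor
  · rintro ⟨v1, h1, v2, h2, m1, m2, rfl⟩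
    refine ⟨B.add_mem m1 m2, ?_⟩
    rw [mem_sup_branchIdeal]
    exact ⟨⟨v1, m1⟩, ⟨v2, m2⟩, h1, h2, rfl⟩
  · rintro ⟨hd, h⟩
    rw [mem_sup_branchIdeal] at h
    obtain ⟨v1, v2, h1, h2, h12⟩ := h
    refine ⟨v1, h1, v2, h2, v1.2, v2.2, ?_⟩
    have := congrArg (fun b : B => (b : F)) h12
    simpa using this

end Groups

section Instance

variable {R F : Type*} [CommRing R] [Field F] [Algebra R F]
variable {π : R} {t : F} {B0 B1 : Subalgebra R F} {O1 O2 : ValuationSubring F}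

/-- **The toric setup of a nodal two-chart model.** -/
theorem toricSetup (M : NodalTwoChartModel R F π t B0 B1 O1 O2)
    (hac1 : ResidueAlgClosed π O1) (hac2 : ResidueAlgClosed π O2)
    (hnodes0 : ∀ 𝔪 : Ideal B0, IsNode π B0 O1 O2 𝔪 → NodeSumAt π B0 O1 O2 𝔪)
    (hnodes1 : ∀ 𝔪 : Ideal B1, IsNode π B1 O1 O2 𝔪 → NodeSumAt π B1 O1 O2 𝔪)
    {p : ℕ} (hp : p.Prime) (hpπ : π ∣ (p : R))
    (hperf : ∀ r : R, ∃ ρ : R, π ∣ ρ ^ p - r) :
    ToricSetup p B0.toSubring B1.toSubring (overlap t B0 M.t_mem).toSubring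
      (algebraMap R F).range (piSub π (overlap t B0 M.t_mem)) (piGroup π O1) (piGroup π O2) where
  prime := hp
  le0 := fun x hx => le_overlap (ht := M.t_mem) hx
  le1 := fun x hx => le_overlap1 M hx
  k0 := by
    rintro x ⟨r, rfl⟩
    exact B0.algebraMap_mem r
  k1 := by
    rintro x ⟨r, rfl⟩
    exact B1.algebraMap_mem r
  I_le1 := by
    rintro x ⟨c, hc, rfl⟩
    exact ⟨c, overlap_le_O1 M hc, rfl⟩
  I_le2 := by
    rintro x ⟨c, hc, rfl⟩
    exact ⟨c, overlap_le_O2 M hc, rfl⟩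
  inf_le := by
    intro x hx h1 h2
    obtain ⟨c, hc1, hc2, hxc⟩ := (piO_iff M.pi_ne).2 ⟨h1, h2⟩
    exact ⟨c, sat01 M hx hc1 hc2 hxc, hxc⟩
  mul1 := fun b hb x hx => PiMem.mul_left hx (overlap_le_O1 M hb)
  mul2 := fun b hb x hx => PiMem.mul_left hx (overlap_le_O2 M hb)
  p_mem := by
    intro b hb
    obtain ⟨s, hs⟩ := hpπ
    refine ⟨algebraMap R F s * b, (overlap t B0 M.t_mem).mul_mem
      ((overlap t B0 M.t_mem).algebraMap_mem s) hb, ?_⟩
    have : ((p : ℕ) : F) = algebraMap R F ((p : ℕ) : R) := by rw [map_natCast]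
    rw [this, hs, map_mul]; ring
  const1 := by
    intro α hα β hβ hαβ
    have h0 : PiMem π O1 (α - α) := by rw [sub_self]; exact PiMem.zero
    have h1 : PiMem π O1 (α - -β) := by rw [sub_neg_eq_add]; exact hαβ
    obtain ⟨r, hr⟩ := exists_const_of_mem_both (isGauss1 M) hac1 M.t_ne M.le_O1_0 M.le_O1_1
      M.t_mem M.tinv_mem M.int0 M.int1 hα (B1.neg_mem hβ) h0 h1
    exact ⟨algebraMap R F r, ⟨r, rfl⟩, hr⟩
  const2 := by
    intro α hα β hβ hαβ
    have h0 : PiMem π O2 (α - α) := by rw [sub_self]; exact PiMem.zero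
    have h1 : PiMem π O2 (α - -β) := by rw [sub_neg_eq_add]; exact hαβ
    obtain ⟨r, hr⟩ := exists_const_of_mem_both (isGauss2 M) hac2 M.t_ne M.le_O2_0 M.le_O2_1
      M.t_mem M.tinv_mem M.int0 M.int1 hα (B1.neg_mem hβ) h0 h1
    exact ⟨algebraMap R F r, ⟨r, rfl⟩, hr⟩
  rad0 := by
    intro d hd h
    obtain ⟨hdp, h'⟩ := (nodeSum_iff M.le_O1_0 M.le_O2_0 _).1 h
    refine (nodeSum_iff M.le_O1_0 M.le_O2_0 _).2 ⟨hd, ?_⟩
    apply pow_mem_sup_branchIdeal M.le_O1_0 M.le_O2_0 hnodes0 (n := p)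
    have : (⟨d, hd⟩ : B0) ^ p = ⟨d ^ p, hdp⟩ := by
      apply Subtype.ext; simp
    rw [this]
    exact h'
  rad1 := by
    intro d hd h
    obtain ⟨hdp, h'⟩ := (nodeSum_iff M.le_O1_1 M.le_O2_1 _).1 h
    refine (nodeSum_iff M.le_O1_1 M.le_O2_1 _).2 ⟨hd, ?_⟩
    apply pow_mem_sup_branchIdeal M.le_O1_1 M.le_O2_1 hnodes1 (n := p)
    have : (⟨d, hd⟩ : B1) ^ p = ⟨d ^ p, hdp⟩ := by
      apply Subtype.ext; simp
    rw [this]
    exact h'
  perf := by
    rintro x ⟨r, rfl⟩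
    obtain ⟨ρ, s, hs⟩ := hperf r
    refine ⟨algebraMap R F ρ, ⟨ρ, rfl⟩, algebraMap R F s,
      (overlap t B0 M.t_mem).algebraMap_mem s, ?_⟩
    rw [← map_pow, ← map_sub, hs, map_mul]

/-- **Frobenius is injective on the toric part of `H¹(X_k, O)`**, for a nodal two-chart model:
if `c ∈ B01` has both abelian parts trivial (`c ≡ a_j + b_j mod π O_j`) and `c ^ p` is a
coboundary modulo `π` then `c` is a coboundary modulo `π`. -/
theorem frobenius_injective (M : NodalTwoChartModel R F π t B0 B1 O1 O2)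
    (hac1 : ResidueAlgClosed π O1) (hac2 : ResidueAlgClosed π O2)
    (hnodes0 : ∀ 𝔪 : Ideal B0, IsNode π B0 O1 O2 𝔪 → NodeSumAt π B0 O1 O2 𝔪)
    (hnodes1 : ∀ 𝔪 : Ideal B1, IsNode π B1 O1 O2 𝔪 → NodeSumAt π B1 O1 O2 𝔪)
    {p : ℕ} (hp : p.Prime) (hpπ : π ∣ (p : R))
    (hperf : ∀ r : R, ∃ ρ : R, π ∣ ρ ^ p - r)
    {c a1 a2 b1 b2 : F} (hc : c ∈ overlap t B0 M.t_mem)
    (ha1 : a1 ∈ B0) (ha2 : a2 ∈ B0) (hb1 : b1 ∈ B1) (hb2 : b2 ∈ B1)
    (h1 : PiMem π O1 (c - a1 - b1)) (h2 : PiMem π O2 (c - a2 - b2))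
    (hcp : ∃ a ∈ B0, ∃ b ∈ B1, ∃ z ∈ overlap t B0 M.t_mem,
      c ^ p - a - b = algebraMap R F π * z) :
    ∃ a ∈ B0, ∃ b ∈ B1, ∃ z ∈ overlap t B0 M.t_mem, c - a - b = algebraMap R F π * z := by
  have T := toricSetup M hac1 hac2 hnodes0 hnodes1 hp hpπ hperf
  obtain ⟨a, ha, b, hb, z, hz, hzz⟩ := hcp
  obtain ⟨a', ha', b', hb', z', hz', hzz'⟩ :=
    T.frobenius_injective (c := c) (a1 := a1) (a2 := a2) (b1 := b1) (b2 := b2)
      hc ha1 ha2 hb1 hb2 h1 h2 ⟨a, ha, b, hb, z, hz, hzz⟩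
  exact ⟨a', ha', b', hb', z', hz', hzz'⟩

end Instance

end Fermat.Agent.M1.Fib.ToricInst98
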