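/-
Programme M1 (S44), chapter FIB (helper98), file 10: the INSTANCES that make the PIC pair-level
theorems (helper60's `Pic2/Final60`, helper15's `Pic2/SeparatedPic15`, `Pic2/ToricPic15`)
hypothesis-free for a nodal two-chart model.

* `twoChart_of_numData` : `Defs60.TwoChart π B0 B1 B01` with `B01 = overlap t B0 = B0[1/t]`;
* `toricSetup_field_of_model` : helper15's `ToricSetup` in the `ToricField15.mulSub` shape;
* `pow_mem_Bdry_imp_model` : Frobenius is injective on the toric part of `H¹(X_k, O) = B01 / Bdry`;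
* `exists_smul_one_of_forall_level_model` : (R4) separatedness for the model;
* `level_succ_of_pow_lt_model` (T5), `exists_generator_of_pow_gt_model` (T7): the final pair-level
  statements of `Final60` with all chart hypotheses discharged.
-/
import Mathlib
import Fermat.Agent.M1.Fib.ToricInst98
import Fermat.Agent.M1.Pic2.ToricPic15
import Fermat.Agent.M1.Pic2.SeparatedPic15
import Fermat.Agent.M1.Pic2.Final60

set_option autoImplicit false
set_option linter.unusedSectionVars false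

namespace Fermat.Agent.M1.Fib.PicInst98

open Polynomial Fermat.Agent.ES.N34.NodalCore13 Fermat.Agent.ES.N34.NodalCL13
  Fermat.Agent.ES.N34.NumData13 Fermat.Agent.M1.Fib.Branch98 Fermat.Agent.M1.Fib.Constants98
  Fermat.Agent.M1.Fib.H0k98 Fermat.Agent.M1.Fib.Seminormal98
  Fermat.Agent.M1.Pic2.Defs60 Fermat.Agent.M1.Pic2.Toric15 Fermat.Agent.M1.Pic2.ToricField15
  Fermat.Agent.M1.Pic2.ToricPic15

section TwoChart

variable {R K F : Type*} [CommRing R] [Field K] [Field F] [Algebra R K] [Algebra K F]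
  [Algebra R F] [IsScalarTower R K F]
variable {π : R} {t : F} {B0 B1 : Subalgebra R F} {O1 O2 : ValuationSubring F}

/-- **The `TwoChart` structure of PIC for a nodal two-chart model**, with overlap ring
`B01 = B0[1/t]`. -/
theorem twoChart_of_numData (D : NodalNumData R K F π t B0 B1 O1 O2)
    (hac1 : ResidueAlgClosed π O1) (hac2 : ResidueAlgClosed π O2)
    (hnode : HasNode π B0 B1 O1 O2) :
    TwoChart (algebraMap R F π) B0 B1 (overlap t B0 D.model.t_mem) := by
  have M := D.model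
  refine
    { le0 := le_overlap
      le1 := le_overlap1 M
      pi_ne := M.pi_ne
      pi_mem := ⟨π, rfl⟩
      sat0 := fun x hx hπx => M.sat0 _ hπx x (overlap_le_O1 M hx) (overlap_le_O2 M hx) rfl
      sat1 := fun x hx hπx => M.sat1 _ hπx x (overlap_le_O1 M hx) (overlap_le_O2 M hx) rfl
      h0k := ?_
      hk := ?_ }
  · intro x0 hx0 x1 hx1 h01
    obtain ⟨r, ⟨c, hc, hcr⟩, -⟩ := h0k D hac1 hac2 hnode hx0 hx1 h01
    exact ⟨r, c, le_overlap hc, hcr⟩
  · intro r hr
    by_cases hr0 : r = 0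
    · exact ⟨0, by simp [hr0]⟩
    obtain ⟨k, v, hkv⟩ := D.dvrR r hr0
    rcases Nat.eq_zero_or_pos k with hk | hk
    · -- `r` would be a unit lying in `π O1`
      exfalso
      obtain ⟨z, hz, hrz⟩ := hr
      have hru : r = v := by rw [hkv, hk, pow_zero, one_mul]
      have hvinv : algebraMap R F r * algebraMap R F (↑v⁻¹ : R) = 1 := by
        rw [← map_mul, hru, Units.mul_inv, map_one]
      apply (isGauss1 M).not_piMem_one
      refine ⟨z * algebraMap R F (↑v⁻¹ : R), O1.mul_mem _ _ (overlap_le_O1 M hz)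
        (M.le_O1_0 _ (B0.algebraMap_mem _)), ?_⟩
      rw [← mul_assoc, ← hrz, hvinv]
    · obtain ⟨j, rfl⟩ : ∃ j, k = j + 1 := ⟨k - 1, by omega⟩
      refine ⟨π ^ j * v, ?_⟩
      rw [← map_mul, hkv]
      congr 1
      ring

end TwoChart

section Toric

variable {R F : Type*} [CommRing R] [Field F] [Algebra R F]
variable {π : R} {t : F} {B0 B1 : Subalgebra R F} {O1 O2 : ValuationSubring F}

/-- helper15's `NodeSum` in the `mulSub` shape is membership in `𝔭₁ ⊔ 𝔭₂`. -/
theorem nodeSum_mulSub_iff {B : Subalgebra R F} (hle1 : ∀ x ∈ B, x ∈ O1)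
    (hle2 : ∀ x ∈ B, x ∈ O2) (d : F) :
    NodeSum B.toSubring (mulSub (algebraMap R F π) O1.toAddSubgroup)
        (mulSub (algebraMap R F π) O2.toAddSubgroup) d ↔
      ∃ hd : d ∈ B, (⟨d, hd⟩ : B) ∈ branchIdeal π B O1 hle1 ⊔ branchIdeal π B O2 hle2 := by
  constructor
  · rintro ⟨v1, ⟨c1, hc1, h1⟩, v2, ⟨c2, hc2, h2⟩, m1, m2, rfl⟩
    refine ⟨B.add_mem m1 m2, ?_⟩
    rw [mem_sup_branchIdeal]
    exact ⟨⟨v1, m1⟩, ⟨v2, m2⟩, ⟨c1, hc1, h1⟩, ⟨c2, hc2, h2⟩, rfl⟩
  · rintro ⟨hd, h⟩
    rw [mem_sup_branchIdeal] at h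
    obtain ⟨v1, v2, ⟨c1, hc1, h1⟩, ⟨c2, hc2, h2⟩, h12⟩ := h
    refine ⟨v1, ⟨c1, hc1, h1⟩, v2, ⟨c2, hc2, h2⟩, v1.2, v2.2, ?_⟩
    have := congrArg (fun b : B => (b : F)) h12
    simpa using this

/-- **helper15's toric setup (`ToricField15` shape) for a nodal two-chart model**, all
hypotheses of `toricSetup_of_field` discharged. -/
theorem toricSetup_field_of_model (M : NodalTwoChartModel R F π t B0 B1 O1 O2)
    (hac1 : ResidueAlgClosed π O1) (hac2 : ResidueAlgClosed π O2)
    (hnodes0 : ∀ 𝔪 : Ideal B0, IsNode π B0 O1 O2 𝔪 → NodeSumAt π B0 O1 O2 𝔪)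
    (hnodes1 : ∀ 𝔪 : Ideal B1, IsNode π B1 O1 O2 𝔪 → NodeSumAt π B1 O1 O2 𝔪)
    {p : ℕ} (hp : p.Prime) (hpπ : π ∣ (p : R))
    (hperf : ∀ r : R, ∃ ρ : R, π ∣ ρ ^ p - r) :
    ToricSetup p B0.toSubring B1.toSubring (overlap t B0 M.t_mem).toSubring
      (algebraMap R F).range
      (mulSub (algebraMap R F π) (overlap t B0 M.t_mem).toSubring.toAddSubgroup)
      (mulSub (algebraMap R F π) O1.toAddSubgroup)
      (mulSub (algebraMap R F π) O2.toAddSubgroup) := by
  refine toricSetup_of_field p hp π M.pi_ne B0 B1 (overlap t B0 M.t_mem) O1 O2 le_overlap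
    (le_overlap1 M) (fun x hx => overlap_le_O1 M hx) (fun x hx => overlap_le_O2 M hx)
    (fun x hx c hxc hc1 hc2 => sat01 M hx hc1 hc2 hxc) ?_ ?_ ?_ ?_ ?_ ?_
  · obtain ⟨u, hu⟩ := hpπ
    exact ⟨u, hu⟩
  · intro α hα β hβ hαβ
    have h0 : PiMem π O1 (α - α) := by rw [sub_self]; exact PiMem.zero
    have h1 : PiMem π O1 (α - -β) := by rw [sub_neg_eq_add]; exact hαβ
    exact exists_const_of_mem_both (isGauss1 M) hac1 M.t_ne M.le_O1_0 M.le_O1_1
      M.t_mem M.tinv_mem M.int0 M.int1 hα (B1.neg_mem hβ) h0 h1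
  · intro α hα β hβ hαβ
    have h0 : PiMem π O2 (α - α) := by rw [sub_self]; exact PiMem.zero
    have h1 : PiMem π O2 (α - -β) := by rw [sub_neg_eq_add]; exact hαβ
    exact exists_const_of_mem_both (isGauss2 M) hac2 M.t_ne M.le_O2_0 M.le_O2_1
      M.t_mem M.tinv_mem M.int0 M.int1 hα (B1.neg_mem hβ) h0 h1
  · intro d hd h
    obtain ⟨hdp, h'⟩ := (nodeSum_mulSub_iff M.le_O1_0 M.le_O2_0 _).1 h
    refine (nodeSum_mulSub_iff M.le_O1_0 M.le_O2_0 _).2 ⟨hd, ?_⟩
    apply pow_mem_sup_branchIdeal M.le_O1_0 M.le_O2_0 hnodes0 (n := p)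
    have : (⟨d, hd⟩ : B0) ^ p = ⟨d ^ p, hdp⟩ := by
      apply Subtype.ext; simp
    rw [this]
    exact h'
  · intro d hd h
    obtain ⟨hdp, h'⟩ := (nodeSum_mulSub_iff M.le_O1_1 M.le_O2_1 _).1 h
    refine (nodeSum_mulSub_iff M.le_O1_1 M.le_O2_1 _).2 ⟨hd, ?_⟩
    apply pow_mem_sup_branchIdeal M.le_O1_1 M.le_O2_1 hnodes1 (n := p)
    have : (⟨d, hd⟩ : B1) ^ p = ⟨d ^ p, hdp⟩ := by
      apply Subtype.ext; simp
    rw [this]
    exact h'
  · intro r
    obtain ⟨ρ, u, hu⟩ := hperf r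
    exact ⟨ρ, u, hu⟩

/-- **Frobenius is injective on the toric part of `H¹(X_k, O) = B01 / Bdry`** for a nodal
two-chart model (the hypothesis `hfrob` of `Final60.Level.succ_of_pow_lt` for toric `c`). -/
theorem pow_mem_Bdry_imp_model (M : NodalTwoChartModel R F π t B0 B1 O1 O2)
    (hac1 : ResidueAlgClosed π O1) (hac2 : ResidueAlgClosed π O2)
    (hnodes0 : ∀ 𝔪 : Ideal B0, IsNode π B0 O1 O2 𝔪 → NodeSumAt π B0 O1 O2 𝔪)
    (hnodes1 : ∀ 𝔪 : Ideal B1, IsNode π B1 O1 O2 𝔪 → NodeSumAt π B1 O1 O2 𝔪)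
    {p : ℕ} (hp : p.Prime) (hpπ : π ∣ (p : R))
    (hperf : ∀ r : R, ∃ ρ : R, π ∣ ρ ^ p - r)
    {c : F} (hc : c ∈ overlap t B0 M.t_mem) (htor : IsToric π B0 B1 O1 O2 c)
    (hcp : c ^ p ∈ Bdry (algebraMap R F π) B0 B1 (overlap t B0 M.t_mem)) :
    c ∈ Bdry (algebraMap R F π) B0 B1 (overlap t B0 M.t_mem) :=
  pow_mem_Bdry_imp (toricSetup_field_of_model M hac1 hac2 hnodes0 hnodes1 hp hpπ hperf)
    hc htor hcp

end Toric

section Final

variable {R K F : Type*} [CommRing R] [Field K] [Field F] [Algebra R K] [Algebra K F]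
  [Algebra R F] [IsScalarTower R K F]
variable {π : R} {t : F} {B0 B1 : Subalgebra R F} {O1 O2 : ValuationSubring F}

open Fermat.Agent.M1.Pic2.Lead60 Fermat.Agent.M1.Pic2.LeadOps60 Fermat.Agent.M1.Pic2.Final60

/-- `π` is not a unit of `R`. -/
theorem not_isUnit_pi (D : NodalNumData R K F π t B0 B1 O1 O2) : ¬ IsUnit π := by
  intro hu
  obtain ⟨v, hv⟩ := hu.exists_right_inv
  apply D.model.pi_nonunit1
  have : (algebraMap R F π)⁻¹ = algebraMap R F v := by
    apply inv_eq_of_mul_eq_one_right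
    rw [← map_mul, hv, map_one]
  rw [this]
  exact D.model.le_O1_0 _ (B0.algebraMap_mem v)

/-- The base ring of a nodal two-chart model is local (a DVR with uniformiser `π`). -/
theorem isLocalRing_of_numData (D : NodalNumData R K F π t B0 B1 O1 O2) : IsLocalRing R := by
  have hnt : Nontrivial R := by
    refine ⟨⟨π, 0, ?_⟩⟩
    intro h
    apply D.model.pi_ne
    rw [h, map_zero]
  -- non-units are the multiples of `π`
  have key : ∀ r : R, ¬ IsUnit r → π ∣ r := by
    intro r hr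
    by_cases hr0 : r = 0
    · rw [hr0]; exact dvd_zero π
    obtain ⟨k, v, hkv⟩ := D.dvrR r hr0
    rcases Nat.eq_zero_or_pos k with hk | hk
    · exfalso
      apply hr
      rw [hkv, hk, pow_zero, one_mul]
      exact v.isUnit
    · rw [hkv]
      exact Dvd.dvd.mul_right (dvd_pow_self π hk.ne') _
  refine IsLocalRing.of_nonunits_add ?_
  intro a b ha hb
  have hab : π ∣ a + b := dvd_add (key a ha) (key b hb)
  intro hu
  exact not_isUnit_pi D (isUnit_of_dvd_unit hab hu)

theorem pi_mem_maximalIdeal (D : NodalNumData R K F π t B0 B1 O1 O2) :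
    haveI := isLocalRing_of_numData D
    π ∈ IsLocalRing.maximalIdeal R := by
  have := isLocalRing_of_numData D
  rw [IsLocalRing.mem_maximalIdeal]
  exact not_isUnit_pi D

/-- **(R4) Separatedness for a nodal two-chart model**: a line pair which is trivial modulo every
power of `π` is principal (`SeparatedPic15.exists_smul_one_of_forall_level`, all chart
hypotheses discharged). -/
theorem exists_smul_one_of_forall_level_model (D : NodalNumData R K F π t B0 B1 O1 O2)
    (hac1 : ResidueAlgClosed π O1) (hac2 : ResidueAlgClosed π O2)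
    (hnode : HasNode π B0 B1 O1 O2)
    (P : LinePair B0 B1 (overlap t B0 D.model.t_mem))
    (hlevel : ∀ n : ℕ, Level (algebraMap R F π) n P) :
    ∃ a : F, a ≠ 0 ∧ P.I0 = scale a (sm B0) ∧ P.I1 = scale a (sm B1) := by
  have M := D.model
  have := isLocalRing_of_numData D
  have := M.noethR
  have := D.noeth0
  have := D.noeth1
  refine Fermat.Agent.M1.Pic2.SeparatedPic15.exists_smul_one_of_forall_level π
    (pi_mem_maximalIdeal D) (twoChart_of_numData D hac1 hac2 hnode) t M.t_ne M.t_mem M.tinv_mem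
    M.int0 M.int1 (fun x hx => hx) ?_ M.fin0 P hlevel
  intro x hx
  have hx' : x ∈ overlap t⁻¹ B1 M.tinv_mem := by
    rw [← overlap_eq M]; exact hx
  exact hx'

/-- **(T7), pair level, for a nodal two-chart model**: a line pair of level `n > e / (p - 1)`
whose `p`-th power has every level is principal. -/
theorem principal_of_pow_gt_model (D : NodalNumData R K F π t B0 B1 O1 O2)
    (hac1 : ResidueAlgClosed π O1) (hac2 : ResidueAlgClosed π O2)
    (hnode : HasNode π B0 B1 O1 O2)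
    {p e n : ℕ} {υ : F} (hp : p.Prime)
    (hpe : (p : F) = algebraMap R F π ^ e * υ) (hυ : υ ∈ overlap t B0 D.model.t_mem)
    (hυB : ∀ c ∈ overlap t B0 D.model.t_mem,
      υ * c ∈ Bdry (algebraMap R F π) B0 B1 (overlap t B0 D.model.t_mem) →
      c ∈ Bdry (algebraMap R F π) B0 B1 (overlap t B0 D.model.t_mem))
    (hn : 1 ≤ n) (hgt : n + e < p * n)
    (P : LinePair B0 B1 (overlap t B0 D.model.t_mem))
    (hP : Level (algebraMap R F π) n P)
    (hpow : ∀ N : ℕ, Level (algebraMap R F π) N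
      (LinePair.npow (twoChart_of_numData D hac1 hac2 hnode).le0
        (twoChart_of_numData D hac1 hac2 hnode).le1 P p)) :
    ∃ a : F, a ≠ 0 ∧ P.I0 = scale a (sm B0) ∧ P.I1 = scale a (sm B1) := by
  have h := twoChart_of_numData D hac1 hac2 hnode
  have hall : ∀ m : ℕ, Level (algebraMap R F π) m P := by
    intro m
    rcases le_total m n with hmn | hnm
    · obtain ⟨k, rfl⟩ := Nat.exists_eq_add_of_le hmn
      clear hmn hgt hn
      induction k with
      | zero => exact hP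
      | succ k ih =>
        exact ih (Level.of_succ (pi_mem_of_range _ h.pi_mem) hP)
    · obtain ⟨k, rfl⟩ := Nat.exists_eq_add_of_le hnm
      exact Level.all_of_pow_gt h hp hpe hυ hυB hn hgt hP hpow k
  exact exists_smul_one_of_forall_level_model D hac1 hac2 hnode P hall

/-- **(T5), pair level, for a nodal two-chart model**: in the Frobenius regime `p n < n + e`, a
pair of level `n` with TORIC leading coefficient whose `p`-th power has level `p n + 1` has level
`n + 1`. -/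
theorem level_succ_of_pow_lt_model (D : NodalNumData R K F π t B0 B1 O1 O2)
    (hac1 : ResidueAlgClosed π O1) (hac2 : ResidueAlgClosed π O2)
    (hnode : HasNode π B0 B1 O1 O2)
    (hnodes0 : ∀ 𝔪 : Ideal B0, IsNode π B0 O1 O2 𝔪 → NodeSumAt π B0 O1 O2 𝔪)
    (hnodes1 : ∀ 𝔪 : Ideal B1, IsNode π B1 O1 O2 𝔪 → NodeSumAt π B1 O1 O2 𝔪)
    {p e n : ℕ} {υ c : F} (hp : p.Prime) (hpπ : π ∣ (p : R))
    (hperf : ∀ r : R, ∃ ρ : R, π ∣ ρ ^ p - r)
    (hpe : (p : F) = algebraMap R F π ^ e * υ) (hυ : υ ∈ overlap t B0 D.model.t_mem)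
    (hn : 1 ≤ n) (hlt : p * n < n + e)
    {P : LinePair B0 B1 (overlap t B0 D.model.t_mem)}
    (hc : HasLead (algebraMap R F π) n P c) (htor : IsToric π B0 B1 O1 O2 c)
    (hpow : Level (algebraMap R F π) (p * n + 1)
      (LinePair.npow (twoChart_of_numData D hac1 hac2 hnode).le0
        (twoChart_of_numData D hac1 hac2 hnode).le1 P p)) :
    Level (algebraMap R F π) (n + 1) P :=
  Level.succ_of_pow_lt (twoChart_of_numData D hac1 hac2 hnode) hp hpe hυ hn hlt hc hpow
    (fun hcp => pow_mem_Bdry_imp_model D.model hac1 hac2 hnodes0 hnodes1 hp hpπ hperf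
      (HasLead.mem hc) htor hcp)

end Final

end Fermat.Agent.M1.Fib.PicInst98
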