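/-
Programme M1 (S44), chapter FIB, brick NODE-EXISTS (helper61; statement and proof plan by
helper45): the special fibre of a nodal two-chart model whose global sections are the
constants (`B0 ∩ B1 = R`) has at least one two-branch point (`H0k98.HasNode`).
This is Zariski's connectedness theorem in its most elementary form, proved by a Cech argument:

* (a) `H¹ = B01 / (B0 + B1)` is a finitely generated `R`-module (`exists_fg_sup`), hence its
  `π`-power torsion is killed by a fixed `π ^ N` (`exists_pow_smul_mem`, `exists_torsion_bound`);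
* (b) a pair `(b0, b1) ∈ B0 × B1` congruent modulo `π ^ (N + 1) B01` is congruent to a constant
  modulo `π` (`exists_const_of_congr`);
* (c) if no chart has a two-branch point the branch ideals `𝔭₁, 𝔭₂` are comaximal in both charts;
  then `a_i ∈ 𝔭₁ ^ (N+1)`, `1 - a_i ∈ 𝔭₂ ^ (N+1)` glue to a "function" which is `≡ 0` on the first
  component and `≡ 1` on the second, contradicting (b) (`hasNode`).

`hasNode_of_numData` : the instance for `NumData13.NodalNumData` (no further hypothesis).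
-/
import Mathlib
import Fermat.Agent.M1.Fib.H0k98

set_option autoImplicit false
set_option linter.style.haveILetI false
set_option linter.unusedSectionVars false

namespace Fermat.Agent.M1.Fib.NodeExists61

open Polynomial Fermat.Agent.ES.N34.NodalCore13 Fermat.Agent.ES.N34.NodalCL13
  Fermat.Agent.ES.N34.NumData13 Fermat.Agent.M1.Fib.Branch98 Fermat.Agent.M1.Fib.H0k98

/-! ### (a) bounded `π`-power torsion modulo a submodule -/

section Torsion

variable {R V : Type*} [CommRing R] [IsNoetherianRing R] [AddCommGroup V] [Module R V]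

/-- The `π`-saturation of a submodule. -/
def satur (π : R) (W : Submodule R V) : Submodule R V where
  carrier := {x | ∃ n : ℕ, π ^ n • x ∈ W}
  add_mem' := by
    rintro x y ⟨n, hn⟩ ⟨m, hm⟩
    refine ⟨n + m, ?_⟩
    rw [smul_add]
    refine W.add_mem ?_ ?_
    · rw [pow_add, mul_comm, mul_smul]
      exact W.smul_mem _ hn
    · rw [pow_add, mul_smul]
      exact W.smul_mem _ hm
  zero_mem' := ⟨0, by rw [smul_zero]; exact W.zero_mem⟩
  smul_mem' := by
    rintro c x ⟨n, hn⟩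
    refine ⟨n, ?_⟩
    rw [smul_comm]
    exact W.smul_mem _ hn

theorem mem_satur {π : R} {W : Submodule R V} {x : V} :
    x ∈ satur π W ↔ ∃ n : ℕ, π ^ n • x ∈ W := Iff.rfl

/-- If `U ≤ G ⊔ W` with `G` finitely generated over the noetherian ring `R`, the `π`-power torsion
of `U` modulo `W` is killed by a fixed power of `π`. -/
theorem exists_pow_smul_mem (π : R) (G W U : Submodule R V) (hG : G.FG) (hU : U ≤ G ⊔ W) :
    ∃ N : ℕ, ∀ c ∈ U, (∃ n : ℕ, π ^ n • c ∈ W) → π ^ N • c ∈ W := by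
  classical
  haveI : IsNoetherian R G := isNoetherian_of_fg_of_noetherian G hG
  have hT : (G ⊓ satur π W).FG := isNoetherian_submodule.mp ‹_› _ inf_le_left
  obtain ⟨S, hS⟩ := hT
  have hSn : ∀ g ∈ S, ∃ n : ℕ, π ^ n • g ∈ W := by
    intro g hg
    have : g ∈ G ⊓ satur π W := hS ▸ Submodule.subset_span hg
    exact this.2
  choose! n hn using hSn
  set N := S.sup n with hN
  have hkill : ∀ x ∈ G ⊓ satur π W, π ^ N • x ∈ W := by
    intro x hx
    rw [← hS] at hx
    induction hx using Submodule.span_induction with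
    | mem g hg =>
      have hle : n g ≤ N := Finset.le_sup hg
      obtain ⟨d, hd⟩ := Nat.exists_eq_add_of_le hle
      rw [hd, pow_add, mul_comm, mul_smul]
      exact W.smul_mem _ (hn g hg)
    | zero => rw [smul_zero]; exact W.zero_mem
    | add x y _ _ hx hy => rw [smul_add]; exact W.add_mem hx hy
    | smul a x _ hx => rw [smul_comm]; exact W.smul_mem _ hx
  refine ⟨N, fun c hc ⟨m, hm⟩ => ?_⟩
  obtain ⟨g, hg, w, hw, rfl⟩ := Submodule.mem_sup.mp (hU hc)
  have hgs : g ∈ satur π W := by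
    refine ⟨m, ?_⟩
    have : π ^ m • g = π ^ m • (g + w) - π ^ m • w := by rw [smul_add, add_sub_cancel_right]
    rw [this]
    exact W.sub_mem hm (W.smul_mem _ hw)
  rw [smul_add]
  exact W.add_mem (hkill g ⟨hg, hgs⟩) (W.smul_mem _ hw)

end Torsion


/-! ### (a') the overlap ring modulo `B0 + B1` -/

section Model

variable {R F : Type*} [CommRing R] [Field F] [Algebra R F]
variable {π : R} {t : F} {B0 B1 : Subalgebra R F} {O1 O2 : ValuationSubring F}

/-- `B0[1/t] ⊆ G + B0 + B1` for a finitely generated `R`-module `G` (`H¹` of the structure sheaf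
is a finitely generated `R`-module). -/
theorem exists_fg_sup (M : NodalTwoChartModel R F π t B0 B1 O1 O2) :
    ∃ G : Submodule R F, G.FG ∧ Subalgebra.toSubmodule (overlap t B0 M.t_mem)
      ≤ G ⊔ (Subalgebra.toSubmodule B0 ⊔ Subalgebra.toSubmodule B1) := by
  classical
  obtain ⟨r, e, he, hgen⟩ := M.fin0
  have hk : ∀ i, ∃ k : ℕ, t⁻¹ ^ k * e i ∈ B1 := fun i => M.ov1 _ (he i)
  choose k hk using hk
  set k₀ := Finset.univ.sup k with hk₀
  have hB1 : ∀ i (m : ℕ), k₀ ≤ m → t⁻¹ ^ m * e i ∈ B1 := by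
    intro i m hm
    have hki : k i ≤ m := le_trans (Finset.le_sup (Finset.mem_univ i)) hm
    obtain ⟨d, hd⟩ := Nat.exists_eq_add_of_le hki
    rw [hd, pow_add, mul_comm (t⁻¹ ^ k i), mul_assoc]
    exact B1.mul_mem (B1.pow_mem M.tinv_mem d) (hk i)
  set G : Submodule R F :=
    Submodule.span R (Set.range fun p : Fin r × Fin k₀ => t⁻¹ ^ (p.2 : ℕ) * e p.1) with hG
  set W : Submodule R F := Subalgebra.toSubmodule B0 ⊔ Subalgebra.toSubmodule B1 with hW
  have hW0 : ∀ x ∈ B0, x ∈ G ⊔ W := fun x hx =>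
    Submodule.mem_sup_right (Submodule.mem_sup_left hx)
  have hW1 : ∀ x ∈ B1, x ∈ G ⊔ W := fun x hx =>
    Submodule.mem_sup_right (Submodule.mem_sup_right hx)
  refine ⟨G, Submodule.fg_span (Set.finite_range _), ?_⟩
  -- monomials
  have hmono : ∀ (i : Fin r) (k j : ℕ) (a : R),
      t⁻¹ ^ k * (algebraMap R F a * t ^ j) * e i ∈ G ⊔ W := by
    intro i k j a
    rcases le_or_gt k j with hkj | hkj
    · obtain ⟨d, hd⟩ := Nat.exists_eq_add_of_le hkj
      have h1 : t⁻¹ ^ k * (algebraMap R F a * t ^ j) * e i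
          = algebraMap R F a * (t ^ d * e i) := by
        have h2 : t⁻¹ ^ k * t ^ k = 1 := by rw [← mul_pow, inv_mul_cancel₀ M.t_ne, one_pow]
        rw [hd, pow_add]
        calc t⁻¹ ^ k * (algebraMap R F a * (t ^ k * t ^ d)) * e i
            = (t⁻¹ ^ k * t ^ k) * (algebraMap R F a * (t ^ d * e i)) := by ring
          _ = algebraMap R F a * (t ^ d * e i) := by rw [h2, one_mul]
      rw [h1]
      exact hW0 _ (B0.mul_mem (B0.algebraMap_mem a) (B0.mul_mem (B0.pow_mem M.t_mem d) (he i)))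
    · obtain ⟨d, hd⟩ := Nat.exists_eq_add_of_le hkj.le
      have h1 : t⁻¹ ^ k * (algebraMap R F a * t ^ j) * e i
          = a • (t⁻¹ ^ d * e i) := by
        have h2 : t⁻¹ ^ j * t ^ j = 1 := by rw [← mul_pow, inv_mul_cancel₀ M.t_ne, one_pow]
        rw [hd, pow_add, Algebra.smul_def]
        calc t⁻¹ ^ j * t⁻¹ ^ d * (algebraMap R F a * t ^ j) * e i
            = (t⁻¹ ^ j * t ^ j) * (algebraMap R F a * (t⁻¹ ^ d * e i)) := by ring
          _ = algebraMap R F a * (t⁻¹ ^ d * e i) := by rw [h2, one_mul]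
      rw [h1]
      refine Submodule.smul_mem _ _ ?_
      rcases lt_or_ge d k₀ with hd0 | hd0
      · exact Submodule.mem_sup_left (Submodule.subset_span ⟨(i, ⟨d, hd0⟩), rfl⟩)
      · exact hW1 _ (hB1 i d hd0)
  have hpoly : ∀ (i : Fin r) (k : ℕ) (P : R[X]), t⁻¹ ^ k * aeval t P * e i ∈ G ⊔ W := by
    intro i k P
    induction P using Polynomial.induction_on' with
    | add p q hp hq =>
      rw [map_add, mul_add, add_mul]
      exact Submodule.add_mem _ hp hq
    | monomial j a =>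
      rw [aeval_monomial]
      exact hmono i k j a
  intro c hc
  obtain ⟨k, hk'⟩ := hc
  obtain ⟨P, hP⟩ := hgen _ hk'
  have hc' : c = ∑ i, t⁻¹ ^ k * aeval t (P i) * e i := by
    have h2 : t⁻¹ ^ k * t ^ k = 1 := by rw [← mul_pow, inv_mul_cancel₀ M.t_ne, one_pow]
    calc c = (t⁻¹ ^ k * t ^ k) * c := by rw [h2, one_mul]
      _ = t⁻¹ ^ k * (t ^ k * c) := by ring
      _ = t⁻¹ ^ k * ∑ i, aeval t (P i) * e i := by rw [hP]
      _ = ∑ i, t⁻¹ ^ k * aeval t (P i) * e i := by
        rw [Finset.mul_sum]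
        exact Finset.sum_congr rfl fun i _ => by ring
  rw [hc']
  exact Submodule.sum_mem _ fun i _ => hpoly i k (P i)

/-- The `π`-power torsion of `B01 / (B0 + B1)` is killed by a fixed power `π ^ N`. -/
theorem exists_torsion_bound (M : NodalTwoChartModel R F π t B0 B1 O1 O2) :
    ∃ N : ℕ, ∀ c ∈ overlap t B0 M.t_mem,
      (∃ n : ℕ, ∃ b0 ∈ B0, ∃ b1 ∈ B1, algebraMap R F π ^ n * c = b0 + b1) →
      ∃ c0 ∈ B0, ∃ c1 ∈ B1, algebraMap R F π ^ N * c = c0 + c1 := by
  haveI := M.noethR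
  obtain ⟨G, hG, hU⟩ := exists_fg_sup M
  obtain ⟨N, hN⟩ := exists_pow_smul_mem π G
    (Subalgebra.toSubmodule B0 ⊔ Subalgebra.toSubmodule B1) _ hG hU
  refine ⟨N, fun c hc ⟨n, b0, hb0, b1, hb1, h⟩ => ?_⟩
  have h1 : π ^ N • c ∈ Subalgebra.toSubmodule B0 ⊔ Subalgebra.toSubmodule B1 := by
    refine hN c hc ⟨n, ?_⟩
    rw [Algebra.smul_def, map_pow, h]
    exact Submodule.add_mem_sup hb0 hb1
  obtain ⟨c0, hc0, c1, hc1, h2⟩ := Submodule.mem_sup.mp h1
  refine ⟨c0, hc0, c1, hc1, ?_⟩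
  rw [h2, Algebra.smul_def, map_pow]


/-! ### (b) powers of the branch ideals, iterated saturation, the key lemma -/

/-- Elements of the `m`-th power of the branch ideal `B ∩ π O` lie in `π ^ m O`. -/
theorem exists_eq_pow_mul_of_mem_pow {B : Subalgebra R F} {O : ValuationSubring F}
    (hle : ∀ x ∈ B, x ∈ O) (m : ℕ) :
    ∀ b ∈ (branchIdeal π B O hle) ^ m, ∃ c ∈ O, (b : F) = algebraMap R F π ^ m * c := by
  induction m with
  | zero =>
    intro b _
    exact ⟨b, hle _ b.2, by rw [pow_zero, one_mul]⟩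
  | succ m ih =>
    intro b hb
    rw [pow_succ] at hb
    refine Submodule.mul_induction_on hb ?_ ?_
    · intro x hx y hy
      obtain ⟨c, hc, hxc⟩ := ih x hx
      obtain ⟨d, hd, hyd⟩ := hy
      refine ⟨c * d, O.mul_mem _ _ hc hd, ?_⟩
      rw [Subalgebra.coe_mul, hxc, hyd, pow_succ]
      ring
    · rintro x y ⟨c, hc, hxc⟩ ⟨d, hd, hyd⟩
      refine ⟨c + d, O.add_mem _ _ hc hd, ?_⟩
      rw [Subalgebra.coe_add, hxc, hyd]
      ring

/-- Iterated saturation of the overlap ring. -/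
theorem overlap_sat_pow (M : NodalTwoChartModel R F π t B0 B1 O1 O2) (m : ℕ) :
    ∀ x ∈ overlap t B0 M.t_mem, ∀ c : F, c ∈ O1 → c ∈ O2 →
      x = algebraMap R F π ^ m * c → c ∈ overlap t B0 M.t_mem := by
  have hπ1 : algebraMap R F π ∈ O1 := (isGauss1 M).pi_mem
  have hπ2 : algebraMap R F π ∈ O2 := (isGauss2 M).pi_mem
  induction m with
  | zero =>
    intro x hx c _ _ hxc
    rw [pow_zero, one_mul] at hxc
    rw [← hxc]; exact hx
  | succ m ih =>
    intro x hx c hc1 hc2 hxc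
    have h1 : algebraMap R F π ^ m * c ∈ overlap t B0 M.t_mem := by
      refine sat01 M hx (O1.mul_mem _ _ (pow_mem hπ1 m) hc1) (O2.mul_mem _ _ (pow_mem hπ2 m) hc2) ?_
      rw [hxc, pow_succ]
      ring
    exact ih _ h1 c hc1 hc2 rfl

/-- **Key lemma**: a pair `(b0, b1) ∈ B0 × B1` congruent modulo `π ^ (N + 1) B01` is congruent to
a constant modulo `π`. -/
theorem exists_const_of_congr (M : NodalTwoChartModel R F π t B0 B1 O1 O2)
    (hconst : ∀ x : F, x ∈ B0 → x ∈ B1 → ∃ r : R, algebraMap R F r = x) {N : ℕ}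
    (hN : ∀ c ∈ overlap t B0 M.t_mem,
      (∃ n : ℕ, ∃ b0 ∈ B0, ∃ b1 ∈ B1, algebraMap R F π ^ n * c = b0 + b1) →
      ∃ c0 ∈ B0, ∃ c1 ∈ B1, algebraMap R F π ^ N * c = c0 + c1)
    {b0 b1 c : F} (hb0 : b0 ∈ B0) (hb1 : b1 ∈ B1) (hc : c ∈ overlap t B0 M.t_mem)
    (h : b0 - b1 = algebraMap R F π ^ (N + 1) * c) :
    ∃ r : R, ∃ c0 ∈ B0, b0 - algebraMap R F r = algebraMap R F π * c0 := by
  obtain ⟨c0, hc0, c1, hc1, h1⟩ := hN c hc
    ⟨N + 1, b0, hb0, -b1, B1.neg_mem hb1, by rw [← h]; ring⟩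
  have h2 : b0 - algebraMap R F π * c0 = b1 + algebraMap R F π * c1 := by
    have : b0 - b1 = algebraMap R F π * (c0 + c1) := by rw [h, pow_succ, ← h1]; ring
    linear_combination this
  obtain ⟨r, hr⟩ := hconst (b0 - algebraMap R F π * c0)
    (B0.sub_mem hb0 (B0.mul_mem (B0.algebraMap_mem π) hc0))
    (by rw [h2]; exact B1.add_mem hb1 (B1.mul_mem (B1.algebraMap_mem π) hc1))
  exact ⟨r, c0, hc0, by rw [hr]; ring⟩

/-! ### (c) the connectedness theorem -/

/-- If the two branch ideals of a chart are not comaximal, the chart has a two-branch point. -/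
theorem exists_isNode_of_sup_ne_top {B : Subalgebra R F}
    (hle1 : ∀ x ∈ B, x ∈ O1) (hle2 : ∀ x ∈ B, x ∈ O2)
    (h : branchIdeal π B O1 hle1 ⊔ branchIdeal π B O2 hle2 ≠ ⊤) :
    ∃ 𝔪 : Ideal B, IsNode π B O1 O2 𝔪 := by
  obtain ⟨𝔪, h𝔪, hle⟩ := Ideal.exists_le_maximal _ h
  refine ⟨𝔪, h𝔪, ?_, ?_, ?_⟩
  · exact hle (Ideal.mem_sup_left (pi_mem_branchIdeal hle1))
  · exact (not_offBranch_iff hle1 𝔪).2 (le_trans le_sup_left hle)
  · exact (not_offBranch_iff hle2 𝔪).2 (le_trans le_sup_right hle)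

/-- **NODE-EXISTS** (Zariski's connectedness theorem, elementary form): the special fibre of a
nodal two-chart model with `H⁰ = R` has a two-branch point. -/
theorem hasNode (M : NodalTwoChartModel R F π t B0 B1 O1 O2)
    (hconst : ∀ x : F, x ∈ B0 → x ∈ B1 → ∃ r : R, algebraMap R F r = x)
    (hR1 : ∀ r : R, PiMem π O1 (algebraMap R F r) → π ∣ r)
    (hR2 : ∀ r : R, PiMem π O2 (algebraMap R F r) → π ∣ r) :
    HasNode π B0 B1 O1 O2 := by
  by_contra hno
  have hno0 : ¬ ∃ 𝔪 : Ideal B0, IsNode π B0 O1 O2 𝔪 := fun h => hno (Or.inl h)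
  have hno1 : ¬ ∃ 𝔪 : Ideal B1, IsNode π B1 O1 O2 𝔪 := fun h => hno (Or.inr h)
  have htop0 : branchIdeal π B0 O1 M.le_O1_0 ⊔ branchIdeal π B0 O2 M.le_O2_0 = ⊤ := by
    by_contra h; exact hno0 (exists_isNode_of_sup_ne_top _ _ h)
  have htop1 : branchIdeal π B1 O1 M.le_O1_1 ⊔ branchIdeal π B1 O2 M.le_O2_1 = ⊤ := by
    by_contra h; exact hno1 (exists_isNode_of_sup_ne_top _ _ h)
  have hG1 := isGauss1 M
  have hG2 := isGauss2 M
  obtain ⟨N, hN⟩ := exists_torsion_bound M
  -- idempotent-like elements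
  have hp0 := Ideal.pow_sup_pow_eq_top (m := N + 1) (n := N + 1) htop0
  have hp1 := Ideal.pow_sup_pow_eq_top (m := N + 1) (n := N + 1) htop1
  obtain ⟨a0, ha0, a0', ha0', hsum0⟩ := Submodule.mem_sup.mp (hp0 ▸ (Submodule.mem_top : (1 : B0) ∈ ⊤))
  obtain ⟨a1, ha1, a1', ha1', hsum1⟩ := Submodule.mem_sup.mp (hp1 ▸ (Submodule.mem_top : (1 : B1) ∈ ⊤))
  -- in `F`
  obtain ⟨c0, hc0, e0⟩ := exists_eq_pow_mul_of_mem_pow M.le_O1_0 (N + 1) a0 ha0
  obtain ⟨c0', hc0', e0'⟩ := exists_eq_pow_mul_of_mem_pow M.le_O2_0 (N + 1) a0' ha0'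
  obtain ⟨c1, hc1, e1⟩ := exists_eq_pow_mul_of_mem_pow M.le_O1_1 (N + 1) a1 ha1
  obtain ⟨c1', hc1', e1'⟩ := exists_eq_pow_mul_of_mem_pow M.le_O2_1 (N + 1) a1' ha1'
  have hs0 : (a0 : F) + (a0' : F) = 1 := by
    have := congrArg (fun z : B0 => (z : F)) hsum0
    simpa using this
  have hs1 : (a1 : F) + (a1' : F) = 1 := by
    have := congrArg (fun z : B1 => (z : F)) hsum1
    simpa using this
  set p : F := algebraMap R F π with hp
  have hpN : p ^ (N + 1) ≠ 0 := pow_ne_zero _ M.pi_ne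
  have hB0 : B0 ≤ overlap t B0 M.t_mem := le_overlap
  have hB1 : B1 ≤ overlap t B0 M.t_mem := le_overlap1 M
  -- `a0 * a1' ∈ π^(N+1) B01`
  have hx : ∃ c ∈ overlap t B0 M.t_mem, (a0 : F) * (a1' : F) = p ^ (N + 1) * c := by
    have hmem : (a0 : F) * (a1' : F) ∈ overlap t B0 M.t_mem :=
      Subalgebra.mul_mem _ (hB0 a0.2) (hB1 a1'.2)
    have h1 : (a0 : F) * (a1' : F) = p ^ (N + 1) * (c0 * (a1' : F)) := by rw [e0]; ring
    have h2 : (a0 : F) * (a1' : F) = p ^ (N + 1) * ((a0 : F) * c1') := by rw [e1']; ring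
    have heq : c0 * (a1' : F) = (a0 : F) * c1' := mul_left_cancel₀ hpN (h1.symm.trans h2)
    refine ⟨c0 * (a1' : F), overlap_sat_pow M (N + 1) _ hmem _
      (O1.mul_mem _ _ hc0 (M.le_O1_1 _ a1'.2)) ?_ h1, h1⟩
    rw [heq]
    exact O2.mul_mem _ _ (M.le_O2_0 _ a0.2) hc1'
  -- `a1 * a0' ∈ π^(N+1) B01`
  have hy : ∃ c ∈ overlap t B0 M.t_mem, (a1 : F) * (a0' : F) = p ^ (N + 1) * c := by
    have hmem : (a1 : F) * (a0' : F) ∈ overlap t B0 M.t_mem :=
      Subalgebra.mul_mem _ (hB1 a1.2) (hB0 a0'.2)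
    have h1 : (a1 : F) * (a0' : F) = p ^ (N + 1) * (c1 * (a0' : F)) := by rw [e1]; ring
    have h2 : (a1 : F) * (a0' : F) = p ^ (N + 1) * ((a1 : F) * c0') := by rw [e0']; ring
    have heq : c1 * (a0' : F) = (a1 : F) * c0' := mul_left_cancel₀ hpN (h1.symm.trans h2)
    refine ⟨c1 * (a0' : F), overlap_sat_pow M (N + 1) _ hmem _
      (O1.mul_mem _ _ hc1 (M.le_O1_0 _ a0'.2)) ?_ h1, h1⟩
    rw [heq]
    exact O2.mul_mem _ _ (M.le_O2_1 _ a1.2) hc0'
  obtain ⟨x, hxm, hxe⟩ := hx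
  obtain ⟨y, hym, hye⟩ := hy
  have hdiff : (a0 : F) - (a1 : F) = p ^ (N + 1) * (x - y) := by
    have : (a0 : F) - (a1 : F) = (a0 : F) * (a1' : F) - (a1 : F) * (a0' : F) := by
      have e1'' : (a1' : F) = 1 - (a1 : F) := by rw [← hs1]; ring
      have e0'' : (a0' : F) = 1 - (a0 : F) := by rw [← hs0]; ring
      rw [e1'', e0'']; ring
    rw [this, hxe, hye]; ring
  obtain ⟨r, d0, hd0, hr⟩ := exists_const_of_congr M hconst hN a0.2 a1.2
    (Subalgebra.sub_mem _ hxm hym) hdiff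
  -- `r ∈ π R`
  have ha0p : PiMem π O1 (a0 : F) :=
    Ideal.pow_le_self (Nat.succ_ne_zero N) ha0
  have ha0'p : PiMem π O2 (a0' : F) :=
    Ideal.pow_le_self (Nat.succ_ne_zero N) ha0'
  have hr1 : PiMem π O1 (algebraMap R F r) := by
    have : algebraMap R F r = (a0 : F) - p * d0 := by rw [← hr]; ring
    rw [this]
    exact ha0p.sub (piMem_pi_mul (M.le_O1_0 _ hd0))
  have hr2 : PiMem π O2 (algebraMap R F (1 - r)) := by
    have : algebraMap R F (1 - r) = (a0' : F) + p * d0 := by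
      rw [map_sub, map_one, ← hs0]
      linear_combination hr
    rw [this]
    exact ha0'p.add (piMem_pi_mul (M.le_O2_0 _ hd0))
  have hdvd : π ∣ 1 := by
    have h1 := hR1 r hr1
    have h2 := hR2 (1 - r) hr2
    have : (1 : R) = r + (1 - r) := by ring
    rw [this]
    exact dvd_add h1 h2
  obtain ⟨s, hs⟩ := hdvd
  apply M.pi_nonunit1
  have : (algebraMap R F π)⁻¹ = algebraMap R F s := by
    apply inv_eq_of_mul_eq_one_right
    rw [← map_mul, ← hs, map_one]
  rw [this]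
  exact M.le_O1_0 _ (B0.algebraMap_mem s)

end Model

/-! ### The instance for `NodalNumData` -/

section NumData

variable {R K F : Type*} [CommRing R] [Field K] [Field F] [Algebra R K] [Algebra K F]
  [Algebra R F] [IsScalarTower R K F]
variable {π : R} {t : F} {B0 B1 : Subalgebra R F} {O1 O2 : ValuationSubring F}

/-- A constant of `R` lying in `π O_j` is divisible by `π` (`R` a DVR with uniformiser `π`). -/
theorem dvd_of_piMem {O : ValuationSubring F} (hG : IsGauss π O)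
    (hRO : ∀ r : R, algebraMap R F r ∈ O)
    (dvrR : ∀ r : R, r ≠ 0 → ∃ (k : ℕ) (v : Rˣ), r = π ^ k * v)
    (r : R) (hr : PiMem π O (algebraMap R F r)) : π ∣ r := by
  by_cases hr0 : r = 0
  · rw [hr0]; exact dvd_zero π
  obtain ⟨k, v, hkv⟩ := dvrR r hr0
  rcases Nat.eq_zero_or_pos k with hk | hk
  · exfalso
    apply hG.not_piMem_one
    rw [hkv, hk, pow_zero, one_mul] at hr
    have := hr.mul_left (hRO ((v⁻¹ : Rˣ) : R))
    rwa [← map_mul, Units.inv_mul, map_one] at this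
  · rw [hkv]
    exact Dvd.dvd.mul_right (dvd_pow_self π (Nat.pos_iff_ne_zero.mp hk)) _

/-- Global sections: `B0 ∩ B1 = R` for a `NodalNumData`. -/
theorem exists_const_of_mem_inter (D : NodalNumData R K F π t B0 B1 O1 O2) (x : F)
    (hx0 : x ∈ B0) (hx1 : x ∈ B1) : ∃ r : R, algebraMap R F r = x := by
  have M := D.model
  have hG1 := isGauss1 M
  haveI := D.fracR
  haveI : Nontrivial R := (algebraMap R K).domain_nontrivial
  obtain ⟨c, hc⟩ := Fermat.Agent.RED.CORE.Constants18.exists_algebraMap_eq_of_mem_both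
    (R₀ := R) D.algClosed t B0.toSubring B1.toSubring
    (fun y hy => M.int0 y hy) (fun y hy => M.int1 y hy) (x := x) hx0 hx1
  obtain ⟨a, b, hb, hab⟩ := IsFractionRing.div_surjective (A := R) c
  have hb0 : b ≠ 0 := nonZeroDivisors.ne_zero hb
  by_cases ha0 : a = 0
  · refine ⟨0, ?_⟩
    rw [map_zero, ← hc, ← hab, ha0, map_zero, zero_div, map_zero]
  obtain ⟨k, v, hkv⟩ := D.dvrR a ha0
  obtain ⟨l, w, hlw⟩ := D.dvrR b hb0
  have hRF : ∀ r : R, algebraMap R F r = algebraMap K F (algebraMap R K r) :=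
    fun r => IsScalarTower.algebraMap_apply R K F r
  have hbF : algebraMap R F b ≠ 0 := by
    rw [hRF]
    intro h
    have h1 := (algebraMap K F).injective (h.trans (map_zero _).symm)
    exact hb0 (IsFractionRing.injective R K (h1.trans (map_zero _).symm))
  have hxab : x * algebraMap R F b = algebraMap R F a := by
    rw [← hc, ← hab, hRF, hRF, ← map_mul, div_mul_cancel₀]
    intro h
    exact hb0 (IsFractionRing.injective R K (h.trans (map_zero _).symm))
  rcases le_or_gt l k with hlk | hlk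
  · -- `c = π^(k-l) v w⁻¹ ∈ R`
    obtain ⟨d, hd⟩ := Nat.exists_eq_add_of_le hlk
    refine ⟨π ^ d * v * ((w⁻¹ : Rˣ) : R), ?_⟩
    have h1 : algebraMap R F (π ^ d * v * ((w⁻¹ : Rˣ) : R)) * algebraMap R F b
        = algebraMap R F a := by
      rw [← map_mul, hkv, hlw, hd, pow_add]
      congr 1
      have hw : ((w⁻¹ : Rˣ) : R) * (w : R) = 1 := Units.inv_mul w
      calc π ^ d * ↑v * ↑w⁻¹ * (π ^ l * ↑w) = π ^ l * π ^ d * ↑v * (↑w⁻¹ * ↑w) := by ring
        _ = π ^ l * π ^ d * ↑v := by rw [hw, mul_one]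
    exact mul_right_cancel₀ hbF (h1.trans hxab.symm)
  · -- `x⁻¹` is a multiple of `π`: impossible since `x ∈ O1`
    exfalso
    obtain ⟨d, hd⟩ := Nat.exists_eq_add_of_le hlk
    -- `x * (π^(d) * w) = π^0 ... `: `x * π ^ (l - k) * w = v`
    have hpk : algebraMap R F π ^ k ≠ 0 := pow_ne_zero _ M.pi_ne
    have h1 : x * (algebraMap R F π ^ (d + 1) * algebraMap R F w) * algebraMap R F π ^ k
        = algebraMap R F v * algebraMap R F π ^ k := by
      have : x * (algebraMap R F π ^ (d + 1) * algebraMap R F w) * algebraMap R F π ^ k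
          = x * algebraMap R F b := by
        rw [hlw, map_mul, map_pow]
        have : l = k + (d + 1) := by omega
        rw [this, pow_add]; ring
      rw [this, hxab, hkv, map_mul, map_pow]; ring
    have h2 : x * (algebraMap R F π ^ (d + 1) * algebraMap R F w) = algebraMap R F v :=
      mul_right_cancel₀ hpk h1
    apply hG1.not_piMem_one
    -- `1 = π * (x * π^d * w * v⁻¹)`
    refine ⟨x * algebraMap R F π ^ d * algebraMap R F w * algebraMap R F ((v⁻¹ : Rˣ) : R), ?_, ?_⟩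
    · refine O1.mul_mem _ _ (O1.mul_mem _ _ (O1.mul_mem _ _ (M.le_O1_0 _ hx0)
        (pow_mem hG1.pi_mem d)) (M.le_O1_0 _ (B0.algebraMap_mem _)))
        (M.le_O1_0 _ (B0.algebraMap_mem _))
    · have hv : algebraMap R F v * algebraMap R F ((v⁻¹ : Rˣ) : R) = 1 := by
        rw [← map_mul, Units.mul_inv, map_one]
      calc (1 : F) = algebraMap R F v * algebraMap R F ((v⁻¹ : Rˣ) : R) := hv.symm
        _ = x * (algebraMap R F π ^ (d + 1) * algebraMap R F w)
              * algebraMap R F ((v⁻¹ : Rˣ) : R) := by rw [h2]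
        _ = algebraMap R F π * (x * algebraMap R F π ^ d * algebraMap R F w
              * algebraMap R F ((v⁻¹ : Rˣ) : R)) := by rw [pow_succ]; ring

/-- **NODE-EXISTS for the model of record**: a `NodalNumData` has a two-branch point. -/
theorem hasNode_of_numData (D : NodalNumData R K F π t B0 B1 O1 O2) :
    HasNode π B0 B1 O1 O2 := by
  have M := D.model
  refine hasNode M (exists_const_of_mem_inter D)
    (dvd_of_piMem (isGauss1 M) (fun r => M.le_O1_0 _ (B0.algebraMap_mem r)) D.dvrR)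
    (dvd_of_piMem (isGauss2 M) (fun r => M.le_O2_0 _ (B0.algebraMap_mem r)) D.dvrR)

end NumData

end Fermat.Agent.M1.Fib.NodeExists61
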