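/-
Programme M1 (S44), chapter FIB (helper98), file 9: LOCAL seminormality at a node, in the literal
shape of the hypothesis `semi` of helper58's `Car/DepthZero58.mem_cart_one_of_red_trivial`
(D0-core), and the supply of `Seminormal98.NodeSumAt` from helper25's thick nodes.

* `nodeSumAt_of_thickNode` : `ThickNode (locSub B 𝔪) O1 O2 π x y e ⟹ NodeSumAt π B O1 O2 𝔪`
  (`𝔪 B_𝔪 = (π, x, y)`, `x ∈ π O2`, `y ∈ π O1`);
* `semi_at` : at a point `𝔪` on both branches with `NodeSumAt`: if `z ≡ w₁ mod π O1`,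
  `z ≡ w₂ mod π O2` with `w₁, w₂ ∈ B_𝔪`, `w₁ - w₂ ∈ 𝔪 B_𝔪`, then `z ≡ w mod π (O1 ⊓ O2)` for some
  `w ∈ B_𝔪`;
* `semi_of_nodeSumAt`, `semi_of_thickNodes` : the hypothesis `semi` of D0-core, literally;
* `nodeSumAt_of_thickNodes`, `toricSetup_of_thickNodes` : the inputs of `ToricInst98` from
  `NodeFrame58.ThickNodes`.
-/
import Mathlib
import Fermat.Agent.M1.Fib.ToricInst98
import Fermat.Agent.M1.Car.NodeFrame58

set_option autoImplicit false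
set_option linter.unusedSectionVars false

namespace Fermat.Agent.M1.Fib.SemiLocal98

open Fermat.Agent.ES.N34.NodalCore13 Fermat.Agent.ES.N34.NodalCL13
  Fermat.Agent.ES.N34.NumData13 Fermat.Agent.ES.N34.NodalSmooth13
  Fermat.Agent.M1.Fib.Branch98 Fermat.Agent.M1.Fib.Constants98
  Fermat.Agent.M1.Fib.H0k98 Fermat.Agent.M1.Fib.Seminormal98
  Fermat.Agent.M1.Node.Thick25 Fermat.Agent.M1.Car.NodeFrame58

section Local

variable {R F : Type*} [CommRing R] [Field F] [Algebra R F]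
variable {π : R} {B : Subalgebra R F} {O1 O2 : ValuationSubring F}

/-- A common denominator for two elements of `B_𝔪`. -/
theorem exists_common_den {𝔪 : Ideal B} [h𝔪 : 𝔪.IsPrime] {u v : F} (hu : u ∈ locSub B 𝔪)
    (hv : v ∈ locSub B 𝔪) :
    ∃ s : B, s ∉ 𝔪 ∧ ∃ a b : B, u * (s : F) = (a : F) ∧ v * (s : F) = (b : F) := by
  obtain ⟨a, d, hd, ha⟩ := hu
  obtain ⟨b, d', hd', hb⟩ := hv
  refine ⟨d * d', fun h => (h𝔪.mem_or_mem h).elim hd hd', a * d', b * d, ?_, ?_⟩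
  · push_cast; rw [← ha]; ring
  · push_cast; rw [← hb]; ring

/-- **Thick nodes are transversal**: at a thick node the maximal ideal is locally `𝔭₁ + 𝔭₂`. -/
theorem nodeSumAt_of_thickNode {𝔪 : Ideal B} [h𝔪 : 𝔪.IsPrime] {x y : F} {e : ℕ}
    (hT : ThickNode (locSub B 𝔪).toSubring O1 O2 (algebraMap R F π) x y e) :
    NodeSumAt π B O1 O2 𝔪 := by
  intro f hf
  have h1𝔪 : (1 : B) ∉ 𝔪 := fun h1 => h𝔪.ne_top ((Ideal.eq_top_iff_one 𝔪).mpr h1)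
  by_cases hf0 : (f : F) = 0
  · refine ⟨1, h1𝔪, 0, 0, ?_, ?_, ?_⟩
    · rw [Subalgebra.coe_zero]; exact PiMem.zero
    · rw [Subalgebra.coe_zero]; exact PiMem.zero
    · have : f = 0 := Subtype.ext hf0
      rw [this]; ring
  set C := (locSub B 𝔪).toSubring with hC
  have hfC : (f : F) ∈ C := ⟨f, 1, h1𝔪, by simp⟩
  -- `f` is not a unit of `B_𝔪`
  have hfinv : ((f : F))⁻¹ ∉ C := by
    rintro ⟨a, d, hd, had⟩
    apply hd
    have : (d : F) = (a : F) * (f : F) := by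
      rw [← had]; field_simp
    have hd' : d = a * f := Subtype.ext (by push_cast; exact this)
    rw [hd']
    exact 𝔪.mul_mem_left _ hf
  obtain ⟨a, ha, b, hb, d, hd, hfabd⟩ := hT.nonunit _ hfC hfinv
  -- `x ∈ π O2`, `y ∈ π O1`
  have hx2 : ∃ o ∈ O2, x = algebraMap R F π * o := by
    rw [hT.unif2.mem_pi_iff, hT.val2_x]
    exact pow_lt_one₀ zero_le hT.unif2.val_lt_one hT.e_pos.ne'
  have hy1 : ∃ o ∈ O1, y = algebraMap R F π * o := by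
    rw [hT.unif1.mem_pi_iff, hT.val1_y]
    exact pow_lt_one₀ zero_le hT.unif1.val_lt_one hT.e_pos.ne'
  -- the two parts
  have hu : a * algebraMap R F π + d * y ∈ locSub B 𝔪 :=
    C.add_mem (C.mul_mem ha hT.pi_mem) (C.mul_mem hd hT.y_mem)
  have hv : b * x ∈ locSub B 𝔪 := C.mul_mem hb hT.x_mem
  obtain ⟨s, hs, α, β, hα, hβ⟩ := exists_common_den hu hv
  have hsO1 : (s : F) ∈ O1 := hT.le1 _ ⟨s, 1, h1𝔪, by simp⟩
  have hsO2 : (s : F) ∈ O2 := hT.le2 _ ⟨s, 1, h1𝔪, by simp⟩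
  refine ⟨s, hs, α, β, ?_, ?_, ?_⟩
  · -- `α = (a π + d y) s ∈ π O1`
    rw [← hα]
    obtain ⟨o, ho, hyo⟩ := hy1
    refine ⟨(a + d * o) * (s : F), O1.mul_mem _ _ (O1.add_mem _ _ (hT.le1 _ ha)
      (O1.mul_mem _ _ (hT.le1 _ hd) ho)) hsO1, ?_⟩
    rw [hyo]; ring
  · -- `β = b x s ∈ π O2`
    rw [← hβ]
    obtain ⟨o, ho, hxo⟩ := hx2
    refine ⟨b * o * (s : F), O2.mul_mem _ _ (O2.mul_mem _ _ (hT.le2 _ hb) ho) hsO2, ?_⟩
    rw [hxo]; ring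
  · apply Subtype.ext
    push_cast
    rw [← hα, ← hβ, hfabd]
    ring

/-- **Local seminormality at a node.**  If `z ≡ w₁ mod π O1`, `z ≡ w₂ mod π O2` with
`w₁, w₂ ∈ B_𝔪` and `w₁ - w₂ ∈ 𝔪 B_𝔪`, then `z ≡ w mod π O1` and `mod π O2` for ONE `w ∈ B_𝔪`. -/
theorem semi_at (hG1 : IsGauss π O1) (hG2 : IsGauss π O2)
    (hle1 : ∀ b ∈ B, b ∈ O1) (hle2 : ∀ b ∈ B, b ∈ O2)
    {𝔪 : Ideal B} [h𝔪 : 𝔪.IsPrime] (hon1 : ¬ OffBranch π B O1 𝔪) (hon2 : ¬ OffBranch π B O2 𝔪)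
    (hsum : NodeSumAt π B O1 O2 𝔪) (z w1 w2 : F)
    (hw1 : ∃ a d : B, d ∉ 𝔪 ∧ w1 * (d : F) = (a : F))
    (_hw2 : ∃ a d : B, d ∉ 𝔪 ∧ w2 * (d : F) = (a : F))
    (hz1 : ∃ c ∈ O1, z - w1 = algebraMap R F π * c)
    (hz2 : ∃ c ∈ O2, z - w2 = algebraMap R F π * c)
    (h12 : ∃ a d : B, a ∈ 𝔪 ∧ d ∉ 𝔪 ∧ (w1 - w2) * (d : F) = (a : F)) :
    ∃ w, (∃ a d : B, d ∉ 𝔪 ∧ w * (d : F) = (a : F)) ∧
      (∃ c ∈ O1, z - w = algebraMap R F π * c) ∧ (∃ c ∈ O2, z - w = algebraMap R F π * c) := by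
  obtain ⟨a, d, ha, hd, had⟩ := h12
  obtain ⟨d', hd', v1, v2, hv1, hv2, hsum'⟩ := hsum a ha
  -- `(w1 - w2) * D = v1 + v2` with `D = d * d' ∉ 𝔪`
  set D : B := d * d' with hD
  have hD𝔪 : D ∉ 𝔪 := fun h => (h𝔪.mem_or_mem h).elim hd hd'
  have hrel : (w1 - w2) * (D : F) = (v1 : F) + (v2 : F) := by
    have := congrArg (fun b : B => (b : F)) hsum'
    simp only [Subalgebra.coe_mul, Subalgebra.coe_add] at this
    rw [hD, Subalgebra.coe_mul, ← mul_assoc, had, mul_comm, this]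
  -- `D` is a unit of `O1` and of `O2`
  have hDn1 : ¬ PiMem π O1 (D : F) := fun h => hon1 ⟨D, hD𝔪, h⟩
  have hDn2 : ¬ PiMem π O2 (D : F) := fun h => hon2 ⟨D, hD𝔪, h⟩
  have hDinv1 : ((D : F))⁻¹ ∈ O1 := hG1.inv_mem_of_not_piMem (hle1 _ D.2) hDn1
  have hDinv2 : ((D : F))⁻¹ ∈ O2 := hG2.inv_mem_of_not_piMem (hle2 _ D.2) hDn2
  have hD0 : (D : F) ≠ 0 := by
    intro h0
    apply hDn1
    rw [h0]; exact PiMem.zero
  -- the glued function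
  refine ⟨w1 - (v1 : F) * ((D : F))⁻¹, ?_, ?_, ?_⟩
  · obtain ⟨a1, d1, hd1, h1⟩ := hw1
    refine ⟨a1 * D - v1 * d1, d1 * D, fun h => (h𝔪.mem_or_mem h).elim hd1 hD𝔪, ?_⟩
    push_cast
    rw [← h1]
    field_simp
  · have : z - (w1 - (v1 : F) * ((D : F))⁻¹) = (z - w1) + (v1 : F) * ((D : F))⁻¹ := by ring
    rw [this]
    exact (show PiMem π O1 (z - w1) from hz1).add (hv1.mul_right hDinv1)
  · have hw : w1 - (v1 : F) * ((D : F))⁻¹ = w2 + (v2 : F) * ((D : F))⁻¹ := by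
      have : w1 - w2 = ((v1 : F) + (v2 : F)) * ((D : F))⁻¹ := by
        rw [← hrel, mul_assoc, mul_inv_cancel₀ hD0, mul_one]
      linear_combination this
    have : z - (w1 - (v1 : F) * ((D : F))⁻¹) = (z - w2) - (v2 : F) * ((D : F))⁻¹ := by
      rw [hw]; ring
    rw [this]
    exact (show PiMem π O2 (z - w2) from hz2).sub (hv2.mul_right hDinv2)

end Local

section Global

variable {R F : Type*} [CommRing R] [Field F] [Algebra R F]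
variable {π : R} {t : F} {B0 B1 : Subalgebra R F} {O1 O2 : ValuationSubring F}

/-- **The hypothesis `semi` of `DepthZero58.mem_cart_one_of_red_trivial`** (D0-core), literally,
from transversality of the branches at the two-branch points. -/
theorem semi_of_nodeSumAt (M : NodalTwoChartModel R F π t B0 B1 O1 O2)
    (hnodes0 : ∀ 𝔪 : Ideal B0, IsNode π B0 O1 O2 𝔪 → NodeSumAt π B0 O1 O2 𝔪)
    (hnodes1 : ∀ 𝔪 : Ideal B1, IsNode π B1 O1 O2 𝔪 → NodeSumAt π B1 O1 O2 𝔪) :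
    ∀ B : Subalgebra R F, B = B0 ∨ B = B1 → ∀ 𝔪 : Ideal B,
      Fermat.Agent.M1.Mon.WildPL43.IsNode π B0 B1 O1 O2 B 𝔪 → ∀ z w1 w2 : F,
      Fermat.Agent.M1.Mon.WildPL43.InLocal B 𝔪 w1 →
      Fermat.Agent.M1.Mon.WildPL43.InLocal B 𝔪 w2 →
      (∃ c ∈ O1, z - w1 = algebraMap R F π * c) → (∃ c ∈ O2, z - w2 = algebraMap R F π * c) →
      (∃ a d : B, a ∈ 𝔪 ∧ d ∉ 𝔪 ∧ (w1 - w2) * (d : F) = (a : F)) →
      ∃ w, Fermat.Agent.M1.Mon.WildPL43.InLocal B 𝔪 w ∧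
        (∃ c ∈ O1, z - w = algebraMap R F π * c) ∧
        (∃ c ∈ O2, z - w = algebraMap R F π * c) := by
  rintro B (rfl | rfl) 𝔪 hs z w1 w2 hw1 hw2 hz1 hz2 h12
  · have : 𝔪.IsPrime := hs.max.isPrime
    exact semi_at (isGauss1 M) (isGauss2 M) M.le_O1_0 M.le_O2_0 hs.on1 hs.on2
      (hnodes0 𝔪 ⟨hs.max, hs.pi_mem, hs.on1, hs.on2⟩) z w1 w2 hw1 hw2 hz1 hz2 h12
  · have : 𝔪.IsPrime := hs.max.isPrime
    exact semi_at (isGauss1 M) (isGauss2 M) M.le_O1_1 M.le_O2_1 hs.on1 hs.on2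
      (hnodes1 𝔪 ⟨hs.max, hs.pi_mem, hs.on1, hs.on2⟩) z w1 w2 hw1 hw2 hz1 hz2 h12

/-- Thick nodes (helper58's `NodeFrame58.ThickNodes`) give transversality at every two-branch
point of both charts. -/
theorem nodeSumAt_of_thickNodes {e : ℕ} (hth : ThickNodes π B0 B1 O1 O2 e) :
    (∀ 𝔪 : Ideal B0, IsNode π B0 O1 O2 𝔪 → NodeSumAt π B0 O1 O2 𝔪) ∧
      (∀ 𝔪 : Ideal B1, IsNode π B1 O1 O2 𝔪 → NodeSumAt π B1 O1 O2 𝔪) := by
  constructor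
  · intro 𝔪 h
    have : 𝔪.IsPrime := h.1.isPrime
    obtain ⟨x, y, hT, -⟩ := hth.1 𝔪 h.1 h.2.1 h.2.2.1 h.2.2.2
    exact nodeSumAt_of_thickNode hT
  · intro 𝔪 h
    have : 𝔪.IsPrime := h.1.isPrime
    obtain ⟨x, y, hT, -⟩ := hth.2 𝔪 h.1 h.2.1 h.2.2.1 h.2.2.2
    exact nodeSumAt_of_thickNode hT

/-- The hypothesis `semi` of D0-core for a model with thick nodes. -/
theorem semi_of_thickNodes (M : NodalTwoChartModel R F π t B0 B1 O1 O2) {e : ℕ}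
    (hth : ThickNodes π B0 B1 O1 O2 e) :
    ∀ B : Subalgebra R F, B = B0 ∨ B = B1 → ∀ 𝔪 : Ideal B,
      Fermat.Agent.M1.Mon.WildPL43.IsNode π B0 B1 O1 O2 B 𝔪 → ∀ z w1 w2 : F,
      Fermat.Agent.M1.Mon.WildPL43.InLocal B 𝔪 w1 →
      Fermat.Agent.M1.Mon.WildPL43.InLocal B 𝔪 w2 →
      (∃ c ∈ O1, z - w1 = algebraMap R F π * c) → (∃ c ∈ O2, z - w2 = algebraMap R F π * c) →
      (∃ a d : B, a ∈ 𝔪 ∧ d ∉ 𝔪 ∧ (w1 - w2) * (d : F) = (a : F)) →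
      ∃ w, Fermat.Agent.M1.Mon.WildPL43.InLocal B 𝔪 w ∧
        (∃ c ∈ O1, z - w = algebraMap R F π * c) ∧
        (∃ c ∈ O2, z - w = algebraMap R F π * c) :=
  semi_of_nodeSumAt M (nodeSumAt_of_thickNodes hth).1 (nodeSumAt_of_thickNodes hth).2

/-- The toric setup (`ToricInst98.toricSetup`) of a model with thick nodes. -/
theorem toricSetup_of_thickNodes (M : NodalTwoChartModel R F π t B0 B1 O1 O2)
    (hac1 : ResidueAlgClosed π O1) (hac2 : ResidueAlgClosed π O2) {e : ℕ}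
    (hth : ThickNodes π B0 B1 O1 O2 e)
    {p : ℕ} (hp : p.Prime) (hpπ : π ∣ (p : R)) (hperf : ∀ r : R, ∃ ρ : R, π ∣ ρ ^ p - r) :
    Fermat.Agent.M1.Pic2.Toric15.ToricSetup p B0.toSubring B1.toSubring
      (overlap t B0 M.t_mem).toSubring (algebraMap R F).range
      (ToricInst98.piSub π (overlap t B0 M.t_mem)) (ToricInst98.piGroup π O1)
      (ToricInst98.piGroup π O2) :=
  ToricInst98.toricSetup M hac1 hac2 (nodeSumAt_of_thickNodes hth).1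
    (nodeSumAt_of_thickNodes hth).2 hp hpπ hperf

end Global

end Fermat.Agent.M1.Fib.SemiLocal98
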