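/-
Programme M1 (S44), chapter FIB (helper98), file 8: a criterion for `(AC)`
(`Constants98.ResidueAlgClosed`), for MOD.

* `PowerSeries` / `LaurentSeries`: a field `k` is algebraically closed in `k⟦X⟧` and in `k⸨X⸩`
  (`powerSeries_eq_C_of_isIntegral`, `powerSeries_eq_C_of_root`, `laurentSeries_eq_C_of_root`),
  for EVERY field `k`; the root forms use the explicit ring homomorphisms `PowerSeries.C`,
  `HahnSeries.C` (there are two non-defeq `Algebra k k⸨X⸩` instances around).
* `residueAlgClosed_of_hom` : if the residue map of the Gauss ring `O` is realised by a ring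
  homomorphism `ρ : O → Ω` with kernel `π O` into a ring `Ω ⊇ k` in which `k` is integrally
  closed, compatible with a surjection `ψ : R → k` on constants, then `(AC)` holds.
* `residueAlgClosed_of_laurent` : the case `Ω = k⸨X⸩` (the `q`-expansion of the reduction: the
  residue field of the Gauss valuation at a cusp sits inside `k((q))`).
-/
import Mathlib
import Fermat.Agent.M1.Fib.Constants98

set_option autoImplicit false
set_option linter.unusedSectionVars false

namespace Fermat.Agent.M1.Fib.LaurentConst98

open Polynomial Fermat.Agent.M1.Fib.Branch98 Fermat.Agent.M1.Fib.Constants98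

section Series

variable {k : Type*} [Field k]

/-- A power series which is integral over the field of constants is a constant. -/
theorem powerSeries_eq_C_of_isIntegral (x : PowerSeries k) (hx : IsIntegral k x) :
    x = PowerSeries.C (PowerSeries.constantCoeff x) := by
  have hirr := minpoly.irreducible hx
  have h0 : aeval x (minpoly k x) = 0 := minpoly.aeval k x
  let φ : PowerSeries k →ₐ[k] k :=
    { PowerSeries.constantCoeff with
      commutes' := fun r => by simp }
  have hφ : φ x = PowerSeries.constantCoeff x := rfl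
  have h1 : aeval (φ x) (minpoly k x) = 0 := by
    rw [aeval_algHom_apply, h0, map_zero]
  rw [hφ, coe_aeval_eq_eval] at h1
  set c := PowerSeries.constantCoeff x with hc
  have hdvd : X - C c ∣ minpoly k x := dvd_iff_isRoot.mpr h1
  have hassoc : Associated (X - C c) (minpoly k x) :=
    (irreducible_X_sub_C c).associated_of_dvd hirr hdvd
  have heq : minpoly k x = X - C c :=
    (eq_of_monic_of_associated (monic_X_sub_C c) (minpoly.monic hx) hassoc).symm
  rw [heq] at h0
  simp only [map_sub, aeval_X, aeval_C] at h0
  have : x = algebraMap k (PowerSeries k) c := sub_eq_zero.mp h0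
  rw [this]
  rfl

/-- Root form of `powerSeries_eq_C_of_isIntegral` with the explicit ring homomorphism
`PowerSeries.C`. -/
theorem powerSeries_eq_C_of_root (y : PowerSeries k) (P : k[X]) (hP : P.Monic)
    (h : eval₂ (PowerSeries.C : k →+* PowerSeries k) y P = 0) :
    y = PowerSeries.C (PowerSeries.constantCoeff y) := by
  apply powerSeries_eq_C_of_isIntegral
  refine ⟨P, hP, ?_⟩
  exact h

/-- A Laurent series which is a root of a monic polynomial with constant coefficients is a
constant (stated with the explicit ring homomorphism `HahnSeries.C`, to be independent of the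
choice of an `Algebra k k⸨X⸩` instance). -/
theorem laurentSeries_eq_C_of_root (x : LaurentSeries k) (P : k[X]) (hP : P.Monic)
    (h : eval₂ (HahnSeries.C : k →+* LaurentSeries k) x P = 0) :
    ∃ c : k, x = HahnSeries.C c := by
  have hcomp : (HahnSeries.ofPowerSeries ℤ k).comp (PowerSeries.C : k →+* PowerSeries k) =
      (HahnSeries.C : k →+* LaurentSeries k) := by
    ext r : 1
    exact HahnSeries.ofPowerSeries_C r
  have hal : algebraMap (PowerSeries k) (LaurentSeries k) = HahnSeries.ofPowerSeries ℤ k :=
    RingHom.ext fun y => by rw [LaurentSeries.coe_algebraMap]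
  -- `x` is integral over `k⟦X⟧`
  have hx' : IsIntegral (PowerSeries k) x := by
    refine ⟨P.map (PowerSeries.C : k →+* PowerSeries k), hP.map _, ?_⟩
    rw [hal, eval₂_map, hcomp]
    exact h
  obtain ⟨y, hy⟩ := (IsIntegrallyClosed.isIntegral_iff (R := PowerSeries k)).1 hx'
  rw [hal] at hy
  have hinj : Function.Injective (HahnSeries.ofPowerSeries ℤ k) :=
    HahnSeries.ofPowerSeries_injective
  have hyroot : eval₂ (PowerSeries.C : k →+* PowerSeries k) y P = 0 := by
    apply hinj
    rw [map_zero, hom_eval₂, hcomp, hy]
    exact h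
  have hyc := powerSeries_eq_C_of_root y P hP hyroot
  refine ⟨PowerSeries.constantCoeff y, ?_⟩
  rw [← hy, hyc, HahnSeries.ofPowerSeries_C]
  simp

end Series

section Criterion

variable {R F : Type*} [CommRing R] [Field F] [Algebra R F]

/-- **Criterion for (AC).**  Let `ρ : O → Ω` be a ring homomorphism with kernel `π O` into a
ring `Ω` containing a field `k` (via `ι`) which is integrally closed in `Ω`, such that `ρ` is
`ι ∘ ψ` on the constants for a surjection `ψ : R → k`.  Then `k = R/π` is algebraically closed in
the residue field of `O`, in the elementwise form `ResidueAlgClosed`. -/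
theorem residueAlgClosed_of_hom {k Ω : Type*} [Field k] [CommRing Ω] (ι : k →+* Ω)
    (hΩ : ∀ (y : Ω) (P : k[X]), P.Monic → eval₂ ι y P = 0 → ∃ c : k, y = ι c)
    {π : R} {O : ValuationSubring F} (hR : ∀ r : R, algebraMap R F r ∈ O)
    (ρ : ↥O →+* Ω) (hker : ∀ x : ↥O, ρ x = 0 ↔ PiMem π O (x : F))
    (ψ : R →+* k) (hψ : Function.Surjective ψ)
    (hconst : ∀ r : R, ρ ⟨algebraMap R F r, hR r⟩ = ι (ψ r)) :
    ResidueAlgClosed π O := by
  intro f hf hP
  obtain ⟨P, hPm, hPf⟩ := hP
  let toO : R →+* ↥O :=
    { toFun := fun r => ⟨algebraMap R F r, hR r⟩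
      map_one' := by apply Subtype.ext; exact map_one _
      map_mul' := fun x y => by apply Subtype.ext; exact map_mul _ x y
      map_zero' := by apply Subtype.ext; exact map_zero _
      map_add' := fun x y => by apply Subtype.ext; exact map_add _ x y }
  have hcomp : ρ.comp toO = ι.comp ψ := by
    ext r
    exact hconst r
  -- `aeval f P`, as an element of `O`
  have h1 : ((eval₂ toO ⟨f, hf⟩ P : ↥O) : F) = aeval f P := by
    have := hom_eval₂ P toO O.subtype ⟨f, hf⟩
    rw [aeval_def]
    exact this
  have h2 : ρ (eval₂ toO ⟨f, hf⟩ P) = 0 := by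
    rw [hker, h1]
    exact hPf
  -- `ρ f` is a root of the monic polynomial `P.map ψ`
  have h3 : eval₂ ι (ρ ⟨f, hf⟩) (P.map ψ) = 0 := by
    rw [eval₂_map, ← hcomp, ← hom_eval₂]
    exact h2
  obtain ⟨c, hc⟩ := hΩ _ (P.map ψ) (hPm.map ψ) h3
  obtain ⟨r, rfl⟩ := hψ c
  refine ⟨r, ?_⟩
  have h4 : ρ (⟨f, hf⟩ - toO r) = 0 := by
    rw [map_sub, hc]
    show ι (ψ r) - ρ ⟨algebraMap R F r, hR r⟩ = 0
    rw [hconst r, sub_self]
  exact (hker _).1 h4

/-- **Criterion for (AC), `q`-expansion form**: the residue map of `O` is given by a ring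
homomorphism into `k⸨X⸩` with kernel `π O`, constant on constants. -/
theorem residueAlgClosed_of_laurent {k : Type*} [Field k]
    {π : R} {O : ValuationSubring F} (hR : ∀ r : R, algebraMap R F r ∈ O)
    (ρ : ↥O →+* LaurentSeries k) (hker : ∀ x : ↥O, ρ x = 0 ↔ PiMem π O (x : F))
    (ψ : R →+* k) (hψ : Function.Surjective ψ)
    (hconst : ∀ r : R, ρ ⟨algebraMap R F r, hR r⟩ = HahnSeries.C (ψ r)) :
    ResidueAlgClosed π O :=
  residueAlgClosed_of_hom (HahnSeries.C : k →+* LaurentSeries k)
    (fun y P hP h => laurentSeries_eq_C_of_root y P hP h) hR ρ hker ψ hψ hconst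

end Criterion

end Fermat.Agent.M1.Fib.LaurentConst98
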