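/-
Programme M1 (S44), chapter FIB (helper98), file 12: **`(AC)` FOR A GAUSS VALUATION RING**
(generic form; the model of record is `Mod/ACModel98`).

`O : ValuationSubring K` with uniformiser `π` (`GaussGen8.IsUnif O π`), `E ⊂ Frac O((q))` an
intermediate field of `K((q)) / K`, `gaussVS hπ E hE : ValuationSubring E` the Gauss valuation
ring.  Its residue map is `gaussVSRed : gaussVS →+* κ((q))`, `κ = O/π`, with kernel `π · gaussVS`,
equal to `C ∘ res` on the constants; since `κ` is algebraically closed in `κ((q))`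
(`LaurentConst98`) we get `Constants98.ResidueAlgClosed π (gaussVS hπ E hE)`.

The `O`-algebra structure of `E` is an ARBITRARY instance with
`hcoe : ↑(algebraMap O E r) = C ↑r` (no dependence on instance paths).
-/
import Mathlib
import Fermat.Agent.RED.PUR.GaussGen8
import Fermat.Agent.M1.Fib.LaurentConst98

set_option autoImplicit false
set_option linter.unusedSectionVars false

noncomputable section

open HahnSeries ModularCurve

namespace Fermat.Agent.M1.Fib.ACGauss98

open Fermat.Agent.RED.PUR.GaussGen8 Fermat.Agent.M1.Fib.Branch98 Fermat.Agent.M1.Fib.Constants98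

variable {K : Type*} [Field K] {O : ValuationSubring K} {π : ↥O} (hπ : IsUnif O π)
  (E : IntermediateField K (LaurentSeries K)) (hE : E ≤ fracField O)
  [Algebra ↥O ↥E]
  (hcoe : ∀ r : ↥O, ((algebraMap ↥O ↥E r : E) : LaurentSeries K) = HahnSeries.C ((r : ↥O) : K))

include hcoe hπ

/-- The constants lie in the Gauss valuation ring. -/
theorem algebraMap_mem_gaussVS (r : ↥O) : algebraMap ↥O ↥E r ∈ gaussVS hπ E hE := by
  rw [mem_gaussVS_iff, hcoe]
  exact C_mem O r

/-- The residue map on constants. -/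
theorem gaussVSRed_algebraMap (r : ↥O) :
    gaussVSRed hπ E hE ⟨algebraMap ↥O ↥E r, algebraMap_mem_gaussVS hπ E hE hcoe r⟩
      = HahnSeries.C (res0 O r) := by
  rw [gaussVSRed_apply, ← gaussRed_constG]
  congr 1
  apply Subtype.ext
  exact hcoe r

theorem algebraMap_pi_ne_zero : algebraMap ↥O ↥E π ≠ 0 := by
  intro h
  have h1 : ((algebraMap ↥O ↥E π : E) : LaurentSeries K) = ((0 : E) : LaurentSeries K) := by
    rw [h]
  rw [hcoe] at h1
  exact piK_ne_zero hπ h1

/-- **The kernel of the residue map of the Gauss valuation ring is `π · O`.** -/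
theorem gaussVSRed_eq_zero_iff (x : ↥(gaussVS hπ E hE)) :
    gaussVSRed hπ E hE x = 0 ↔ PiMem π (gaussVS hπ E hE) (x : E) := by
  have hπ0 : algebraMap ↥O ↥E π ≠ 0 := algebraMap_pi_ne_zero hπ E hcoe
  rw [gaussVSRed_apply, gaussRed_eq_zero_iff hπ]
  constructor
  · rintro ⟨g, hg⟩
    have hg' : ((x : E) : LaurentSeries K)
        = HahnSeries.C ((π : ↥O) : K) * (g : LaurentSeries K) :=
      congrArg Subtype.val hg
    refine ⟨(algebraMap ↥O ↥E π)⁻¹ * (x : E), ?_, ?_⟩
    · rw [mem_gaussVS_iff]
      have h1 : (((algebraMap ↥O ↥E π)⁻¹ * (x : E) : E) : LaurentSeries K)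
          = (g : LaurentSeries K) := by
        rw [MulMemClass.coe_mul, IntermediateField.coe_inv, hcoe, hg', ← mul_assoc,
          inv_mul_cancel₀ (piK_ne_zero hπ), one_mul]
      rw [h1]
      exact g.2
    · rw [← mul_assoc, mul_inv_cancel₀ hπ0, one_mul]
  · rintro ⟨c, hc, hxc⟩
    refine ⟨⟨(c : LaurentSeries K), (mem_gaussVS_iff hπ E hE c).mp hc⟩, ?_⟩
    apply Subtype.ext
    show ((x : E) : LaurentSeries K) = HahnSeries.C ((π : ↥O) : K) * (c : LaurentSeries K)
    rw [hxc, MulMemClass.coe_mul, hcoe]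

/-- **`(AC)` for a Gauss valuation ring.** -/
theorem residueAlgClosed_gaussVS : ResidueAlgClosed π (gaussVS hπ E hE) :=
  Fermat.Agent.M1.Fib.LaurentConst98.residueAlgClosed_of_laurent
    (algebraMap_mem_gaussVS hπ E hE hcoe) (gaussVSRed hπ E hE)
    (gaussVSRed_eq_zero_iff hπ E hE hcoe) (res0 O) IsLocalRing.residue_surjective
    (gaussVSRed_algebraMap hπ E hE hcoe)

end Fermat.Agent.M1.Fib.ACGauss98
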