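/-
Programme M1 (S44), chapter FIB (helper98), file 11: TRANSFER of `(AC)`
(`Constants98.ResidueAlgClosed`).

* `residueAlgClosed_comap` : `(AC)` for `O` gives `(AC)` for `O.comap w`, `w` a ring endomorphism
  of the function field fixing the constants (for `O2 = O1.comap W_N`);
* `residueAlgClosed_of_residue_eq` : `(AC)` goes up along a base change `R → R'`, `F → F'`,
  `O → O'` with the SAME residue fields (totally ramified base change `L / K`:
  `O_j(L) = O_j(K)[π_L]`, `R_L = R_K[π_L]`).
-/
import Mathlib
import Fermat.Agent.M1.Fib.Constants98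

set_option autoImplicit false
set_option linter.unusedSectionVars false

namespace Fermat.Agent.M1.Fib.ACTransfer98

open Polynomial Fermat.Agent.M1.Fib.Branch98 Fermat.Agent.M1.Fib.Constants98

section Comap

variable {R E : Type*} [CommRing R] [Field E] [Algebra R E]

/-- `(AC)` is transported by a ring endomorphism of the function field which fixes the
constants. -/
theorem residueAlgClosed_comap {π : R} {O : ValuationSubring E} (w : E →+* E)
    (hw : ∀ r : R, w (algebraMap R E r) = algebraMap R E r)
    (hπ : algebraMap R E π ≠ 0) (hac : ResidueAlgClosed π O) :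
    ResidueAlgClosed π (O.comap w) := by
  intro f hf hP
  obtain ⟨P, hPm, c, hc, hPc⟩ := hP
  have hwf : w f ∈ O := hf
  -- `w (aeval f P) = aeval (w f) P`
  have hwP : w (aeval f P) = aeval (w f) P := by
    rw [aeval_def, aeval_def, hom_eval₂]
    congr 1
    ext r
    exact hw r
  have hP' : PiMem π O (aeval (w f) P) := by
    refine ⟨w c, hc, ?_⟩
    rw [← hwP, hPc, map_mul, hw]
  obtain ⟨r, c', hc', hr⟩ := hac (w f) hwf ⟨P, hPm, hP'⟩
  refine ⟨r, (algebraMap R E π)⁻¹ * (f - algebraMap R E r), ?_, ?_⟩
  · show w ((algebraMap R E π)⁻¹ * (f - algebraMap R E r)) ∈ O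
    rw [map_mul, map_inv₀, map_sub, hw, hw, hr, ← mul_assoc, inv_mul_cancel₀ hπ, one_mul]
    exact hc'
  · rw [← mul_assoc, mul_inv_cancel₀ hπ, one_mul]

/-- The same for an algebra endomorphism over ANY base `S` (only the underlying ring
homomorphism matters); stated so that the concrete `hw` is consumed by unification. -/
theorem residueAlgClosed_comap_algHom {S : Type*} [CommSemiring S] [Algebra S E] {π : R}
    {O : ValuationSubring E} (w : E →ₐ[S] E)
    (hw : ∀ r : R, w (algebraMap R E r) = algebraMap R E r)
    (hπ : algebraMap R E π ≠ 0) (hac : ResidueAlgClosed π O) :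
    ResidueAlgClosed π (O.comap w.toRingHom) :=
  residueAlgClosed_comap w.toRingHom hw hπ hac

end Comap

section BaseChange

variable {R R' F F' : Type*} [CommRing R] [CommRing R'] [Field F] [Field F']
  [Algebra R R'] [Algebra R F] [Algebra R' F'] [Algebra R F'] [Algebra F F']
  [IsScalarTower R R' F'] [IsScalarTower R F F']

/-- **`(AC)` goes up along a base change with the same residue fields.** -/
theorem residueAlgClosed_of_residue_eq {π : R} {π' : R'} {O : ValuationSubring F}
    {O' : ValuationSubring F'} (hG' : IsGauss π' O')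
    (hR : ∀ r : R, algebraMap R F r ∈ O) (hR' : ∀ r' : R', algebraMap R' F' r' ∈ O')
    (hOO' : ∀ g ∈ O, algebraMap F F' g ∈ O')
    (hres : ∀ f ∈ O', ∃ g ∈ O, PiMem π' O' (f - algebraMap F F' g))
    (hresR : ∀ r' : R', ∃ r : R, π' ∣ r' - algebraMap R R' r)
    (hcap : ∀ g ∈ O, PiMem π' O' (algebraMap F F' g) → PiMem π O g)
    (hπ : PiMem π' O' (algebraMap R F' π))
    (hac : ResidueAlgClosed π O) : ResidueAlgClosed π' O' := by
  intro f hf hP
  obtain ⟨P', hP'm, hP'f⟩ := hP
  obtain ⟨g, hg, hfg⟩ := hres f hf
  have hgO' : algebraMap F F' g ∈ O' := hOO' g hg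
  -- lift the coefficients of `P'` to `R`, keeping the polynomial monic
  choose lift hlift using hresR
  set n := P'.natDegree with hn
  set P : R[X] := X ^ n + ∑ i ∈ Finset.range n, C (lift (P'.coeff i)) * X ^ i with hPdef
  have hdeglt : (∑ i ∈ Finset.range n, C (lift (P'.coeff i)) * X ^ i : R[X]).degree < n := by
    refine lt_of_le_of_lt (degree_sum_le _ _) ?_
    exact (Finset.sup_lt_iff (WithBot.bot_lt_coe n)).2 fun i hi =>
      (degree_C_mul_X_pow_le i _).trans_lt (WithBot.coe_lt_coe.2 (Finset.mem_range.mp hi))
  have hPm : P.Monic := monic_X_pow_add hdeglt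
  -- the residue ring homomorphism of `O'`
  let toO' : R' →+* ↥O' :=
    { toFun := fun r => ⟨algebraMap R' F' r, hR' r⟩
      map_one' := by apply Subtype.ext; exact map_one _
      map_mul' := fun x y => by apply Subtype.ext; exact map_mul _ x y
      map_zero' := by apply Subtype.ext; exact map_zero _
      map_add' := fun x y => by apply Subtype.ext; exact map_add _ x y }
  let ψ : R' →+* IsLocalRing.ResidueField ↥O' := (red O').comp toO'
  have hψπ : ψ π' = 0 := by
    show red O' ⟨algebraMap R' F' π', hR' π'⟩ = 0
    rw [red_eq_zero_iff hG']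
    exact piMem_pi
  have hψlift : ∀ r' : R', ψ (algebraMap R R' (lift r')) = ψ r' := by
    intro r'
    obtain ⟨s, hs⟩ := hlift r'
    have : r' = algebraMap R R' (lift r') + π' * s := by rw [← hs]; ring
    conv_rhs => rw [this]
    rw [map_add, map_mul, hψπ, zero_mul, add_zero]
  -- the two polynomials agree over the residue field
  have hmap : (P.map (algebraMap R R')).map ψ = P'.map ψ := by
    ext i
    rw [coeff_map, coeff_map, coeff_map, hPdef]
    simp only [coeff_add, coeff_X_pow, finsetSum_coeff, coeff_C_mul]
    by_cases hin : i = n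
    · subst hin
      have h0 : (∑ b ∈ Finset.range n, lift (P'.coeff b) * if n = b then (1 : R) else 0) = 0 := by
        apply Finset.sum_eq_zero
        intro b hb
        have : n ≠ b := (Finset.mem_range.mp hb).ne'
        rw [if_neg this, mul_zero]
      rw [if_pos rfl, h0, add_zero, map_one, map_one]
      have : P'.coeff n = 1 := hP'm.coeff_natDegree
      rw [this, map_one]
    · rw [if_neg hin, zero_add]
      by_cases hlt : i < n
      · rw [Finset.sum_eq_single i]
        · rw [if_pos rfl, mul_one, hψlift]
        · intro b _ hbi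
          rw [if_neg (Ne.symm hbi), mul_zero]
        · intro hi
          exact absurd (Finset.mem_range.mpr hlt) hi
      · have hgt : n < i := lt_of_le_of_ne (not_lt.mp hlt) (Ne.symm hin)
        have h0 : (∑ b ∈ Finset.range n, lift (P'.coeff b) * if i = b then (1 : R) else 0) = 0 := by
          apply Finset.sum_eq_zero
          intro b hb
          have : i ≠ b := by
            have := Finset.mem_range.mp hb
            omega
          rw [if_neg this, mul_zero]
        rw [h0, map_zero, map_zero, coeff_eq_zero_of_natDegree_lt hgt, map_zero]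
  -- residues of `f` and `g`
  have hxfg : red O' ⟨f, hf⟩ = red O' ⟨algebraMap F F' g, hgO'⟩ := (red_eq_iff hG' _ _).2 hfg
  -- `aeval f P'` in `O'`
  have h1 : ((eval₂ toO' ⟨f, hf⟩ P' : ↥O') : F') = aeval f P' := by
    have := hom_eval₂ P' toO' O'.subtype ⟨f, hf⟩
    rw [aeval_def]
    exact this
  have h2 : eval₂ ψ (red O' ⟨f, hf⟩) P' = 0 := by
    have : red O' (eval₂ toO' ⟨f, hf⟩ P') = 0 := by
      rw [red_eq_zero_iff hG', h1]; exact hP'f
    rw [hom_eval₂] at this
    exact this
  -- hence `aeval g P` reduces to zero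
  have h3 : eval₂ ψ (red O' ⟨algebraMap F F' g, hgO'⟩) (P.map (algebraMap R R')) = 0 := by
    rw [← hxfg, ← eval_map, hmap, eval_map]
    exact h2
  have h4 : ((eval₂ toO' ⟨algebraMap F F' g, hgO'⟩ (P.map (algebraMap R R')) : ↥O') : F') =
      algebraMap F F' (aeval g P) := by
    have e1 := hom_eval₂ (P.map (algebraMap R R')) toO' O'.subtype ⟨algebraMap F F' g, hgO'⟩
    have e2 : eval₂ (O'.subtype.comp toO') (algebraMap F F' g) (P.map (algebraMap R R')) =
        algebraMap F F' (aeval g P) := by
      rw [eval₂_map, aeval_def, hom_eval₂]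
      congr 1
      ext r
      show algebraMap R' F' (algebraMap R R' r) = algebraMap F F' (algebraMap R F r)
      rw [← IsScalarTower.algebraMap_apply, ← IsScalarTower.algebraMap_apply]
    exact e1.trans e2
  have h5 : PiMem π' O' (algebraMap F F' (aeval g P)) := by
    rw [← h4, ← red_eq_zero_iff hG', hom_eval₂]
    exact h3
  have haeO : aeval g P ∈ O := by
    rw [aeval_def, eval₂_eq_sum_range]
    refine O.toSubring.sum_mem fun i _ => ?_
    exact O.mul_mem _ _ (hR _) (pow_mem hg i)
  obtain ⟨r, c, hc, hgr⟩ := hac g hg ⟨P, hPm, hcap _ haeO h5⟩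
  refine ⟨algebraMap R R' r, ?_⟩
  have hιc : algebraMap F F' c ∈ O' := hOO' c hc
  have e : f - algebraMap R' F' (algebraMap R R' r) =
      (f - algebraMap F F' g) + algebraMap R F' π * algebraMap F F' c := by
    have h1 : algebraMap R' F' (algebraMap R R' r) = algebraMap F F' (algebraMap R F r) := by
      rw [← IsScalarTower.algebraMap_apply, ← IsScalarTower.algebraMap_apply]
    have h2 : algebraMap F F' (g - algebraMap R F r) =
        algebraMap R F' π * algebraMap F F' c := by
      rw [hgr, map_mul, ← IsScalarTower.algebraMap_apply]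
    rw [h1, ← h2, map_sub]
    ring
  rw [e]
  exact hfg.add (hπ.mul_right hιc)

end BaseChange

end Fermat.Agent.M1.Fib.ACTransfer98
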