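/-
M1 (S44), chapter FIB (helper58): **the local rings of a branch of the special fibre are valuation
rings of the residue field of the Gauss valuation** (input `hval` of
`Car/RedTrivial58.hnorm1_of_valRing`, hence `hnorm1` of (WD-2) `hred_of_pth_power`).

* `krull_factor` (pure algebra): `B` noetherian, `P ≤ 𝔪` primes, `𝔪` maximal, `𝔪 B_𝔪 = (s) + P B_𝔪`
  (in chart form).  Then every `a ∉ P` is `u s ^ n` modulo `P`, up to units of `B_𝔪`
  (Krull's intersection theorem in `B ⧸ P` + powers of a maximal ideal are primary).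
* `branchP` : the branch prime `B ∩ π O` of a chart.
* `valRing_at` : at a closed point `(B, 𝔪)` of the branch of `O` with `𝔪 B_𝔪 = (s) + 𝔭 B_𝔪` and
  `κ(O) = Frac (B / 𝔭)` (`hfrac`), every unit `η` of `O` has `η` or `η⁻¹` congruent modulo `π O` to
  an element of `B_𝔪`.
* `BranchGen`, `branchGen_of_smoothAt`, `branchGen_of_nodeCoords` : the generator hypothesis from
  `SmoothAt` (one-branch points) and from `NodeCoords` (one coordinate vanishes on the branch).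
* `hfrac_of_z` : `κ(O) = Frac (B / 𝔭)` from ONE function `z ∈ B` vanishing on the other component and
  not on `O` (+ fraction field, saturation, rank one).
* `exists_z_of_thickNode`, `z_transfer`, `exists_z_of_thickNodes` : such `z` from one thick node.
* `hval_chart`, `hval1_of_numData`, `hval2_of_numData` : literal `hval` for a `NodalNumData`.
* `hnorm_of_thickNodes` : literal `hnorm1` on both components (`NodalNumData` + `Frame` + thick nodes +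
  one node).
-/
import Mathlib
import Fermat.Agent.M1.Car.RedTrivial58
import Fermat.Agent.M1.Car.NodeFrame58
import Fermat.Agent.ES.N34.NumData13

set_option autoImplicit false
set_option linter.unusedSectionVars false
set_option linter.unusedVariables false

namespace Fermat.Agent.M1.Fib.BranchVal58

open AlgebraicCurve Fermat.Agent.ES.N34.NodalCore13 Fermat.Agent.ES.N34.NodalCL13
  Fermat.Agent.ES.N34.NodalSmooth13 Fermat.Agent.ES.N34.NumData13 Fermat.Agent.M1.Car.Defs43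
  Fermat.Agent.M1.Node.Thick25 Fermat.Agent.M1.Mon.WildPL43 Fermat.Agent.M1.Car.DepthZero58
  Fermat.Agent.M1.Car.RedTrivial58 Fermat.Agent.M1.Car.NodeFrame58

/-! ### Pure algebra -/

section Krull

variable {B : Type*} [CommRing B]

/-- `𝔪 ^ n` is generated by `s ^ n` locally at `𝔪`, modulo `P`. -/
theorem pow_local_gen {𝔪 P : Ideal B} [h𝔪 : 𝔪.IsPrime] {s : B}
    (hgen : ∀ y ∈ 𝔪, ∃ d : B, d ∉ 𝔪 ∧ ∃ b : B, d * y - b * s ∈ P) :
    ∀ (n : ℕ) (z : B), z ∈ 𝔪 ^ n → ∃ d : B, d ∉ 𝔪 ∧ ∃ b : B, d * z - b * s ^ n ∈ P := by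
  intro n
  induction n with
  | zero => intro z _; exact ⟨1, h𝔪.one_notMem, z, by simp⟩
  | succ n ih =>
    intro z hz
    rw [pow_succ] at hz
    refine Submodule.mul_induction_on hz ?_ ?_
    · intro w hw y hy
      obtain ⟨d, hd, b, hb⟩ := ih w hw
      obtain ⟨d', hd', b', hb'⟩ := hgen y hy
      refine ⟨d * d', fun h => (h𝔪.mem_or_mem h).elim hd hd', b * b', ?_⟩
      have : d * d' * (w * y) - b * b' * s ^ (n + 1) =
          (d * w - b * s ^ n) * (d' * y) + (b * s ^ n) * (d' * y - b' * s) := by ring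
      rw [this]
      exact P.add_mem (P.mul_mem_right _ hb) (P.mul_mem_left _ hb')
    · intro z1 z2 ⟨d1, hd1, b1, hb1⟩ ⟨d2, hd2, b2, hb2⟩
      refine ⟨d1 * d2, fun h => (h𝔪.mem_or_mem h).elim hd1 hd2, d2 * b1 + d1 * b2, ?_⟩
      have : d1 * d2 * (z1 + z2) - (d2 * b1 + d1 * b2) * s ^ (n + 1) =
          d2 * (d1 * z1 - b1 * s ^ (n + 1)) + d1 * (d2 * z2 - b2 * s ^ (n + 1)) := by ring
      rw [this]
      exact P.add_mem (P.mul_mem_left _ hb1) (P.mul_mem_left _ hb2)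

/-- **Factorisation in the local ring of a branch**: if `𝔪 B_𝔪 = (s) + P B_𝔪` then every `a ∉ P`
is `u s ^ n` modulo `P` up to units of `B_𝔪`. -/
theorem krull_factor [IsNoetherianRing B] {𝔪 P : Ideal B} (h𝔪 : 𝔪.IsMaximal) [hP : P.IsPrime]
    (hP𝔪 : P ≤ 𝔪) {s : B} (hs : s ∈ 𝔪)
    (hgen : ∀ y ∈ 𝔪, ∃ d : B, d ∉ 𝔪 ∧ ∃ b : B, d * y - b * s ∈ P) {a : B} (ha : a ∉ P) :
    ∃ (n : ℕ) (d u : B), d ∉ 𝔪 ∧ u ∉ 𝔪 ∧ d * a - u * s ^ n ∈ P := by
  classical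
  have hprime := h𝔪.isPrime
  -- Krull in `B ⧸ P`
  have hex : ∃ n : ℕ, a ∉ 𝔪 ^ n ⊔ P := by
    by_contra hall'
    have hall : ∀ n : ℕ, a ∈ 𝔪 ^ n ⊔ P := fun n => by
      by_contra h
      exact hall' ⟨n, h⟩
    apply ha
    have hI : 𝔪.map (Ideal.Quotient.mk P) ≠ ⊤ := by
      intro htop
      have h1 : (1 : B ⧸ P) ∈ 𝔪.map (Ideal.Quotient.mk P) := by rw [htop]; exact Submodule.mem_top
      obtain ⟨z, hz, hz1⟩ := (Ideal.mem_map_iff_of_surjective _ Ideal.Quotient.mk_surjective).mp h1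
      have : z - 1 ∈ P := Ideal.Quotient.eq.mp (by rw [hz1, map_one])
      have h2 : (1 : B) ∈ 𝔪 := by
        have : (1 : B) = z - (z - 1) := by ring
        rw [this]
        exact 𝔪.sub_mem hz (hP𝔪 ‹_›)
      exact hprime.one_notMem h2
    have hkrull := Ideal.iInf_pow_eq_bot_of_isDomain (𝔪.map (Ideal.Quotient.mk P)) hI
    have hmem : Ideal.Quotient.mk P a ∈ ⨅ i : ℕ, (𝔪.map (Ideal.Quotient.mk P)) ^ i := by
      rw [Ideal.mem_iInf]
      intro n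
      rw [← Ideal.map_pow]
      obtain ⟨z, hz, q, hq, hzq⟩ := Submodule.mem_sup.mp (hall n)
      have : Ideal.Quotient.mk P a = Ideal.Quotient.mk P z := by
        rw [← hzq, map_add, Ideal.Quotient.eq_zero_iff_mem.mpr hq, add_zero]
      rw [this]
      exact Ideal.mem_map_of_mem _ hz
    rw [hkrull, Ideal.mem_bot] at hmem
    exact Ideal.Quotient.eq_zero_iff_mem.mp hmem
  set n0 := Nat.find hex with hn0
  have hn0spec : a ∉ 𝔪 ^ n0 ⊔ P := Nat.find_spec hex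
  have hn0pos : n0 ≠ 0 := by
    intro h0
    rw [h0, pow_zero, Ideal.one_eq_top, top_sup_eq] at hn0spec
    exact hn0spec Submodule.mem_top
  obtain ⟨n, hn⟩ : ∃ n, n0 = n + 1 := ⟨n0 - 1, by omega⟩
  have hmem : a ∈ 𝔪 ^ n ⊔ P := by
    by_contra h
    have := Nat.find_min' hex h
    omega
  obtain ⟨z, hz, q, hq, hzq⟩ := Submodule.mem_sup.mp hmem
  obtain ⟨d, hd, b, hb⟩ := pow_local_gen hgen n z hz
  have hda : d * a - b * s ^ n ∈ P := by
    have : d * a - b * s ^ n = d * q + (d * z - b * s ^ n) := by rw [← hzq]; ring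
    rw [this]
    exact P.add_mem (P.mul_mem_left _ hq) hb
  refine ⟨n, d, b, hd, ?_, hda⟩
  intro hb𝔪
  -- then `d a ∈ 𝔪 ^ (n+1) ⊔ P`, which is `𝔪`-primary
  set J : Ideal B := 𝔪 ^ (n + 1) ⊔ P with hJ
  have hJle : J ≤ 𝔪 := sup_le (Ideal.pow_le_self (Nat.succ_ne_zero n)) hP𝔪
  have hrad : J.radical = 𝔪 := by
    apply le_antisymm
    · calc J.radical ≤ 𝔪.radical := Ideal.radical_mono hJle
        _ = 𝔪 := hprime.radical
    · intro y hy
      exact ⟨n + 1, le_sup_left (a := 𝔪 ^ (n + 1)) (Ideal.pow_mem_pow hy (n + 1))⟩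
  have hprim : J.IsPrimary := Ideal.isPrimary_of_isMaximal_radical (hrad ▸ h𝔪)
  have hdaJ : a * d ∈ J := by
    have h1 : b * s ^ n ∈ 𝔪 ^ (n + 1) := by
      rw [pow_succ']
      exact Ideal.mul_mem_mul hb𝔪 (Ideal.pow_mem_pow hs n)
    have h2 : a * d = (d * a - b * s ^ n) + b * s ^ n := by ring
    rw [h2]
    exact J.add_mem (le_sup_right (a := 𝔪 ^ (n + 1)) hda) (le_sup_left (b := P) h1)
  rcases (Ideal.isPrimary_iff.mp hprim).2 hdaJ with h | h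
  · rw [hn] at hn0spec
    exact hn0spec h
  · rw [hrad] at h
    exact hd h

end Krull

/-! ### The branch prime of a chart -/

section Branch

variable {R F : Type*} [CommRing R] [Field F] [Algebra R F]
  {π : R} {B : Subalgebra R F} {O : ValuationSubring F}

/-- The branch prime `B ∩ π O` of the chart `B` (for a valuation ring `O ⊇ B`). -/
def branchP (π : R) (B : Subalgebra R F) (O : ValuationSubring F) (le : ∀ x ∈ B, x ∈ O) :
    Ideal B where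
  carrier := {b | ∃ c ∈ O, (b : F) = algebraMap R F π * c}
  add_mem' := by
    rintro a b ⟨c, hc, h⟩ ⟨c', hc', h'⟩
    exact ⟨c + c', O.add_mem _ _ hc hc', by push_cast; rw [h, h']; ring⟩
  zero_mem' := ⟨0, O.zero_mem, by simp⟩
  smul_mem' := by
    rintro a b ⟨c, hc, h⟩
    exact ⟨(a : F) * c, O.mul_mem _ _ (le _ a.2) hc, by
      rw [smul_eq_mul]; push_cast; rw [h]; ring⟩

theorem mem_branchP {le : ∀ x ∈ B, x ∈ O} {b : B} :
    b ∈ branchP π B O le ↔ ∃ c ∈ O, (b : F) = algebraMap R F π * c := Iff.rfl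

theorem branchP_isPrime (hu : IsUnifOf O (algebraMap R F π)) (le : ∀ x ∈ B, x ∈ O) :
    (branchP π B O le).IsPrime := by
  refine ⟨?_, ?_⟩
  · intro htop
    have h1 : (1 : B) ∈ branchP π B O le := by rw [htop]; exact Submodule.mem_top
    have h2 := (hu.mem_pi_iff _).mp (mem_branchP.mp h1)
    simp at h2
  · intro a b hab
    by_contra hcon
    have ha : ¬ O.valuation (a : F) < 1 := fun h =>
      hcon (Or.inl (mem_branchP.mpr ((hu.mem_pi_iff _).mpr h)))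
    have hb : ¬ O.valuation (b : F) < 1 := fun h =>
      hcon (Or.inr (mem_branchP.mpr ((hu.mem_pi_iff _).mpr h)))
    have ha1 : O.valuation (a : F) = 1 :=
      le_antisymm ((O.valuation_le_one_iff _).mpr (le _ a.2)) (not_lt.mp ha)
    have hb1 : O.valuation (b : F) = 1 :=
      le_antisymm ((O.valuation_le_one_iff _).mpr (le _ b.2)) (not_lt.mp hb)
    have h3 := (hu.mem_pi_iff _).mp (mem_branchP.mp hab)
    push_cast at h3
    rw [map_mul, ha1, hb1, one_mul] at h3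
    exact lt_irrefl _ h3

theorem branchP_le {le : ∀ x ∈ B, x ∈ O} {𝔪 : Ideal B} (hon : ¬ OffBranch π B O 𝔪) :
    branchP π B O le ≤ 𝔪 := fun b hb => by
  by_contra h
  exact hon ⟨b, h, mem_branchP.mp hb⟩

theorem inv_mem_of_notMem_branchP (hu : IsUnifOf O (algebraMap R F π)) {le : ∀ x ∈ B, x ∈ O}
    {d : B} (hd : d ∉ branchP π B O le) : ((d : F))⁻¹ ∈ O := by
  by_contra h
  exact hd (mem_branchP.mpr (hu.unif _ (le _ d.2) h))

theorem coe_ne_zero_of_notMem_branchP {le : ∀ x ∈ B, x ∈ O}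
    {d : B} (hd : d ∉ branchP π B O le) : (d : F) ≠ 0 := by
  intro h0
  apply hd
  have : d = 0 := Subtype.ext h0
  rw [this]; exact (branchP π B O le).zero_mem

/-- The field computation behind `valRing_at`: from `η d ≡ a`, `d_a a ≡ u_a s ^ (n_d + m)`,
`d_d d ≡ u_d s ^ n_d` modulo `π O` to `η ≡ d_d u_a s ^ m / (d_a u_d)`. -/
theorem cong_of_factor {ϖ : F} {𝔪 : Ideal B} [h𝔪 : 𝔪.IsPrime] {η : F} (hη : η ∈ O)
    (le : ∀ x ∈ B, x ∈ O)
    {a d da ua dd ud s : B} {nd m : ℕ}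
    (h1 : ∃ c ∈ O, η * (d : F) - (a : F) = ϖ * c)
    (h2 : ∃ c ∈ O, (da : F) * (a : F) - (ua : F) * (s : F) ^ (nd + m) = ϖ * c)
    (h3 : ∃ c ∈ O, (dd : F) * (d : F) - (ud : F) * (s : F) ^ nd = ϖ * c)
    (hda : da ∉ 𝔪) (hud : ud ∉ 𝔪) (hda' : ((da : F))⁻¹ ∈ O) (hud' : ((ud : F))⁻¹ ∈ O)
    (hs' : ((s : F) ^ nd)⁻¹ ∈ O) (hs0 : (s : F) ^ nd ≠ 0) :
    ∃ b, InLocal B 𝔪 b ∧ ∃ c ∈ O, η - b = ϖ * c := by
  obtain ⟨c1, hc1, e1⟩ := h1
  obtain ⟨c2, hc2, e2⟩ := h2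
  obtain ⟨c3, hc3, e3⟩ := h3
  have hda0 : (da : F) ≠ 0 := fun h0 => hda (by
    have : da = 0 := Subtype.ext h0
    rw [this]; exact 𝔪.zero_mem)
  have hud0 : (ud : F) ≠ 0 := fun h0 => hud (by
    have : ud = 0 := Subtype.ext h0
    rw [this]; exact 𝔪.zero_mem)
  set D : F := (da : F) * (ud : F) * (s : F) ^ nd with hD
  have hD0 : D ≠ 0 := mul_ne_zero (mul_ne_zero hda0 hud0) hs0
  set X : F := (dd : F) * c2 + (da : F) * (dd : F) * c1 - η * (da : F) * c3 with hX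
  have hXO : X ∈ O :=
    sub_mem (O.add_mem _ _ (O.mul_mem _ _ (le _ dd.2) hc2)
      (O.mul_mem _ _ (O.mul_mem _ _ (le _ da.2) (le _ dd.2)) hc1))
      (O.mul_mem _ _ (O.mul_mem _ _ hη (le _ da.2)) hc3)
  have hDinv : D⁻¹ ∈ O := by
    rw [hD, mul_inv, mul_inv]
    exact O.mul_mem _ _ (O.mul_mem _ _ hda' hud') hs'
  have key : η * D - (dd : F) * (ua : F) * (s : F) ^ m * (s : F) ^ nd = ϖ * X := by
    rw [pow_add] at e2
    rw [hD, hX]
    linear_combination (-(η * (da : F))) * e3 + ((da : F) * (dd : F)) * e1 + (dd : F) * e2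
  refine ⟨(dd : F) * (ua : F) * (s : F) ^ m / ((da : F) * (ud : F)),
    ⟨dd * ua * s ^ m, da * ud, fun h => (h𝔪.mem_or_mem h).elim hda hud, ?_⟩,
    X * D⁻¹, O.mul_mem _ _ hXO hDinv, ?_⟩
  · push_cast
    field_simp
  · have e : η - (dd : F) * (ua : F) * (s : F) ^ m / ((da : F) * (ud : F)) =
        (η * D - (dd : F) * (ua : F) * (s : F) ^ m * (s : F) ^ nd) * D⁻¹ := by
      rw [hD]
      field_simp
    rw [e, key]
    ring

/-- **The local ring of a closed point of a branch is a valuation ring of the residue field of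
the branch.**  `(B, 𝔪)` a closed point of the branch `O` with `𝔪 B_𝔪 = (s) + 𝔭 B_𝔪`
(`𝔭 = B ∩ π O`) and `κ(O) = Frac (B / 𝔭)` (`hfrac`): every unit `η` of `O` has `η` or `η⁻¹`
congruent modulo `π O` to an element of `B_𝔪`. -/
theorem valRing_at [IsNoetherianRing B] (hu : IsUnifOf O (algebraMap R F π))
    (le : ∀ x ∈ B, x ∈ O) {𝔪 : Ideal B} (h𝔪 : 𝔪.IsMaximal) (hon : ¬ OffBranch π B O 𝔪)
    {s : B} (hs : s ∈ 𝔪)
    (hgen : ∀ y ∈ 𝔪, ∃ d : B, d ∉ 𝔪 ∧ ∃ b : B, ∃ c ∈ O,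
      (d : F) * (y : F) - (b : F) * (s : F) = algebraMap R F π * c)
    (hfrac : ∀ η ∈ O, ∃ a d : B, (¬ ∃ c ∈ O, (d : F) = algebraMap R F π * c) ∧
      ∃ c ∈ O, η * (d : F) - (a : F) = algebraMap R F π * c)
    {η : F} (hη : η ∈ O) (hη' : η⁻¹ ∈ O) :
    (∃ b, InLocal B 𝔪 b ∧ ∃ c ∈ O, η - b = algebraMap R F π * c) ∨
      (∃ b, InLocal B 𝔪 b ∧ ∃ c ∈ O, η⁻¹ - b = algebraMap R F π * c) := by
  have hprime : 𝔪.IsPrime := h𝔪.isPrime
  by_cases hη0 : η = 0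
  · exact Or.inl ⟨0, InLocal.of_mem hprime.ne_top B.zero_mem, 0, O.zero_mem, by rw [hη0]; simp⟩
  have hP : (branchP π B O le).IsPrime := branchP_isPrime hu le
  have hP𝔪 : branchP π B O le ≤ 𝔪 := branchP_le hon
  have hgenP : ∀ y ∈ 𝔪, ∃ d : B, d ∉ 𝔪 ∧ ∃ b : B, d * y - b * s ∈ branchP π B O le := by
    intro y hy
    obtain ⟨d, hd, b, c, hc, h⟩ := hgen y hy
    exact ⟨d, hd, b, mem_branchP.mpr ⟨c, hc, by push_cast; exact h⟩⟩
  obtain ⟨a, d, hdP, c1, hc1, h1⟩ := hfrac η hη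
  have hdP' : d ∉ branchP π B O le := fun h => hdP (mem_branchP.mp h)
  have haP : a ∉ branchP π B O le := by
    intro h
    obtain ⟨ca, hca, hac⟩ := mem_branchP.mp h
    apply hdP
    refine ⟨η⁻¹ * (c1 + ca), O.mul_mem _ _ hη' (O.add_mem _ _ hc1 hca), ?_⟩
    have : η * (d : F) = algebraMap R F π * (c1 + ca) := by
      rw [mul_add, ← h1, ← hac]; ring
    calc (d : F) = η⁻¹ * (η * (d : F)) := by field_simp
      _ = algebraMap R F π * (η⁻¹ * (c1 + ca)) := by rw [this]; ring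
  obtain ⟨na, da, ua, hda, hua, ha⟩ := krull_factor h𝔪 hP𝔪 hs hgenP haP
  obtain ⟨nd, dd, ud, hdd, hud, hd⟩ := krull_factor h𝔪 hP𝔪 hs hgenP hdP'
  have hnotP : ∀ x : B, x ∉ 𝔪 → x ∉ branchP π B O le := fun x hx h => hx (hP𝔪 h)
  -- `s ^ na`, `s ^ nd` are units of `O`
  have hsa : s ^ na ∉ branchP π B O le := by
    intro h
    have h2 : da * a ∈ branchP π B O le := by
      have : da * a = (da * a - ua * s ^ na) + ua * s ^ na := by ring
      rw [this]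
      exact Ideal.add_mem _ ha (Ideal.mul_mem_left _ _ h)
    exact (hP.mem_or_mem h2).elim (hnotP _ hda) haP
  have hsd : s ^ nd ∉ branchP π B O le := by
    intro h
    have h2 : dd * d ∈ branchP π B O le := by
      have : dd * d = (dd * d - ud * s ^ nd) + ud * s ^ nd := by ring
      rw [this]
      exact Ideal.add_mem _ hd (Ideal.mul_mem_left _ _ h)
    exact (hP.mem_or_mem h2).elim (hnotP _ hdd) hdP'
  obtain ⟨c2, hc2, e2⟩ := mem_branchP.mp ha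
  obtain ⟨c3, hc3, e3⟩ := mem_branchP.mp hd
  push_cast at e2 e3
  rcases le_total nd na with hle | hle
  · left
    obtain ⟨m, rfl⟩ := Nat.exists_eq_add_of_le hle
    refine cong_of_factor hη le ⟨c1, hc1, h1⟩ ⟨c2, hc2, e2⟩ ⟨c3, hc3, e3⟩ hda hud
      (inv_mem_of_notMem_branchP hu (hnotP _ hda)) (inv_mem_of_notMem_branchP hu (hnotP _ hud))
      ?_ ?_
    · have := inv_mem_of_notMem_branchP hu hsd
      push_cast at this
      exact this
    · have := coe_ne_zero_of_notMem_branchP hsd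
      push_cast at this
      exact this
  · right
    obtain ⟨m, rfl⟩ := Nat.exists_eq_add_of_le hle
    refine cong_of_factor hη' le (a := d) (d := a)
      ⟨-(η⁻¹ * c1), O.neg_mem _ (O.mul_mem _ _ hη' hc1), ?_⟩ ⟨c3, hc3, e3⟩ ⟨c2, hc2, e2⟩ hdd hua
      (inv_mem_of_notMem_branchP hu (hnotP _ hdd)) (inv_mem_of_notMem_branchP hu (hnotP _ hua))
      ?_ ?_
    · have : η⁻¹ * (a : F) - (d : F) = -(η⁻¹ * (η * (d : F) - (a : F))) := by field_simp; ring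
      rw [this, h1]; ring
    · have := inv_mem_of_notMem_branchP hu hsa
      push_cast at this
      exact this
    · have := coe_ne_zero_of_notMem_branchP hsa
      push_cast at this
      exact this

/-! ### The generator hypothesis -/

/-- `𝔪 B_𝔪 = (s) + 𝔭 B_𝔪` for the branch prime `𝔭 = B ∩ π O` (chart form). -/
def BranchGen (π : R) (B : Subalgebra R F) (O : ValuationSubring F) (𝔪 : Ideal B) : Prop :=
  ∃ s ∈ 𝔪, ∀ y ∈ 𝔪, ∃ d : B, d ∉ 𝔪 ∧ ∃ b : B, ∃ c ∈ O,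
    (d : F) * (y : F) - (b : F) * (s : F) = algebraMap R F π * c

/-- At a point where the model is smooth over `R`. -/
theorem branchGen_of_smoothAt (le : ∀ x ∈ B, x ∈ O) {𝔪 : Ideal B} (h : SmoothAt π B 𝔪) :
    BranchGen π B O 𝔪 := by
  obtain ⟨s, hs, hgen⟩ := h
  refine ⟨s, hs, fun y hy => ?_⟩
  obtain ⟨d, hd, hspan⟩ := hgen y hy
  obtain ⟨c, b, hcb⟩ := Ideal.mem_span_pair.mp hspan
  refine ⟨d, hd, b, (c : F), le _ c.2, ?_⟩
  have h1 := congrArg (fun w : B => (w : F)) hcb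
  simp only [Subalgebra.coe_add, Subalgebra.coe_mul, Subalgebra.coe_algebraMap] at h1
  rw [← h1]; ring

/-- At a node (in the sense of `NodeCoords`): one of the two coordinates vanishes on the branch. -/
theorem branchGen_of_nodeCoords (hu : IsUnifOf O (algebraMap R F π)) (le : ∀ x ∈ B, x ∈ O)
    {𝔪 : Ideal B} (hon : ¬ OffBranch π B O 𝔪) (h : NodeCoords π B 𝔪) : BranchGen π B O 𝔪 := by
  obtain ⟨x, y, hx, hy, ⟨d, hd, e, hde⟩, hgen⟩ := h
  have hP : (branchP π B O le).IsPrime := branchP_isPrime hu le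
  have hP𝔪 : branchP π B O le ≤ 𝔪 := branchP_le hon
  have hxy : x * y ∈ branchP π B O le := by
    have h1 : d * (x * y) ∈ branchP π B O le := by
      rw [hde]
      exact mem_branchP.mpr ⟨(e : F), le _ e.2, by
        simp only [Subalgebra.coe_mul, Subalgebra.coe_algebraMap]⟩
    exact (hP.mem_or_mem h1).resolve_left (fun h => hd (hP𝔪 h))
  rcases hP.mem_or_mem hxy with hxP | hyP
  · refine ⟨y, hy, fun b hb => ?_⟩
    obtain ⟨d', hd', hspan⟩ := hgen b hb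
    obtain ⟨a1, z, hz, hbz⟩ := Ideal.mem_span_insert.mp hspan
    obtain ⟨a2, z', hz', rfl⟩ := Ideal.mem_span_insert.mp hz
    obtain ⟨a3, rfl⟩ := Ideal.mem_span_singleton'.mp hz'
    obtain ⟨cx, hcx, ex⟩ := mem_branchP.mp hxP
    refine ⟨d', hd', a3, (a1 : F) + (a2 : F) * cx,
      O.add_mem _ _ (le _ a1.2) (O.mul_mem _ _ (le _ a2.2) hcx), ?_⟩
    have h1 := congrArg (fun w : B => (w : F)) hbz
    simp only [Subalgebra.coe_add, Subalgebra.coe_mul, Subalgebra.coe_algebraMap] at h1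
    rw [h1, ex]; ring
  · refine ⟨x, hx, fun b hb => ?_⟩
    obtain ⟨d', hd', hspan⟩ := hgen b hb
    obtain ⟨a1, z, hz, hbz⟩ := Ideal.mem_span_insert.mp hspan
    obtain ⟨a2, z', hz', rfl⟩ := Ideal.mem_span_insert.mp hz
    obtain ⟨a3, rfl⟩ := Ideal.mem_span_singleton'.mp hz'
    obtain ⟨cy, hcy, ey⟩ := mem_branchP.mp hyP
    refine ⟨d', hd', a2, (a1 : F) + (a3 : F) * cy,
      O.add_mem _ _ (le _ a1.2) (O.mul_mem _ _ (le _ a3.2) hcy), ?_⟩
    have h1 := congrArg (fun w : B => (w : F)) hbz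
    simp only [Subalgebra.coe_add, Subalgebra.coe_mul, Subalgebra.coe_algebraMap] at h1
    rw [h1, ey]; ring

/-! ### The residue field of the branch is the fraction field of `B / 𝔭` -/

/-- Iterated saturation. -/
theorem sat_pow {O' : ValuationSubring F} {ϖ : F} (hϖ : ϖ ∈ O) (hϖ' : ϖ ∈ O')
    (sat : ∀ b ∈ B, ∀ c : F, c ∈ O → c ∈ O' → b = ϖ * c → c ∈ B) :
    ∀ (k : ℕ), ∀ b ∈ B, ∀ c : F, c ∈ O → c ∈ O' → b = ϖ ^ k * c → c ∈ B := by
  intro k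
  induction k with
  | zero =>
    intro b hb c _ _ h
    rw [pow_zero, one_mul] at h
    exact h ▸ hb
  | succ k ih =>
    intro b hb c hc hc' h
    have h1 : ϖ ^ k * c ∈ B :=
      sat b hb (ϖ ^ k * c) (O.mul_mem _ _ (pow_mem hϖ k) hc) (O'.mul_mem _ _ (pow_mem hϖ' k) hc')
        (by rw [h, pow_succ]; ring)
    exact ih _ h1 c hc hc' rfl

/-- Nonzero elements of `O` are `ϖ ^ k * unit` (rank one). -/
theorem exists_nat_decomp {ϖ : F} (hu : IsUnifOf O ϖ) (arch : ∀ x : F, ∃ k : ℕ, ϖ ^ k * x ∈ O)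
    {b : F} (hb : b ∈ O) (hb0 : b ≠ 0) :
    ∃ (k : ℕ) (u : F), u ∈ O ∧ u⁻¹ ∈ O ∧ b = ϖ ^ k * u := by
  classical
  have hϖ0 : ϖ ≠ 0 := hu.ne_zero
  have hex : ∃ k : ℕ, ϖ ^ k * b⁻¹ ∈ O := arch b⁻¹
  set k := Nat.find hex with hk
  have hspec : ϖ ^ k * b⁻¹ ∈ O := Nat.find_spec hex
  have hpk : ϖ ^ k ≠ 0 := pow_ne_zero _ hϖ0
  refine ⟨k, b / ϖ ^ k, ?_, ?_, by field_simp⟩
  · rcases Nat.eq_zero_or_pos k with h0 | hpos
    · rw [h0, pow_zero, div_one]; exact hb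
    · obtain ⟨j, hj⟩ : ∃ j, k = j + 1 := ⟨k - 1, by omega⟩
      have hmin : ϖ ^ j * b⁻¹ ∉ O := fun h => by
        have := Nat.find_min' hex h
        omega
      have hinv : (ϖ ^ j * b⁻¹)⁻¹ ∈ O := (O.mem_or_inv_mem _).resolve_left hmin
      obtain ⟨c, hc, hcc⟩ := hu.unif _ hinv (by rw [inv_inv]; exact hmin)
      have : b / ϖ ^ k = c := by
        have hpj : ϖ ^ j ≠ 0 := pow_ne_zero _ hϖ0
        rw [hj, pow_succ]
        have h2 : b = ϖ ^ j * (ϖ * c) := by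
          rw [← hcc]; field_simp
        rw [h2]; field_simp
      rw [this]; exact hc
  · have : (b / ϖ ^ k)⁻¹ = ϖ ^ k * b⁻¹ := by rw [inv_div, div_eq_mul_inv]
    rw [this]; exact hspec

/-- **`κ(O) = Frac (B / 𝔭)`** as soon as some `z ∈ B` vanishes on the other component `O'` but not
on `O` (i.e. the branch prime `B ∩ π O` is a minimal prime of `π B`: the component `O` is a
component of the chart `B`). -/
theorem hfrac_of_z {O' : ValuationSubring F} (hu : IsUnifOf O (algebraMap R F π))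
    (le : ∀ x ∈ B, x ∈ O) (le' : ∀ x ∈ B, x ∈ O')
    (frac : ∀ x : F, ∃ a ∈ B, ∃ b ∈ B, b ≠ 0 ∧ x * b = a)
    (sat : ∀ b ∈ B, ∀ c : F, c ∈ O → c ∈ O' → b = algebraMap R F π * c → c ∈ B)
    (arch : ∀ x : F, ∃ k : ℕ, algebraMap R F π ^ k * x ∈ O)
    {z : F} (hzB : z ∈ B) (hz' : ∃ c ∈ O', z = algebraMap R F π * c)
    (hz : ¬ ∃ c ∈ O, z = algebraMap R F π * c) :
    ∀ η ∈ O, ∃ a d : B, (¬ ∃ c ∈ O, (d : F) = algebraMap R F π * c) ∧
      ∃ c ∈ O, η * (d : F) - (a : F) = algebraMap R F π * c := by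
  intro η hη
  obtain ⟨a', ha', d', hd', hd0, hηd⟩ := frac η
  obtain ⟨k, u, hu1, hu1', hdk⟩ := exists_nat_decomp hu arch (le _ hd') hd0
  obtain ⟨w, hw, hzw⟩ := hz'
  have hϖO : algebraMap R F π ∈ O := le _ (B.algebraMap_mem π)
  have hϖO' : algebraMap R F π ∈ O' := le' _ (B.algebraMap_mem π)
  have hzO : z ∈ O := le _ hzB
  have hzinv : z⁻¹ ∈ O := by
    by_contra h
    exact hz (hu.unif _ hzO h)
  have hz0 : z ≠ 0 := by
    rintro rfl
    exact hz ⟨0, O.zero_mem, by simp⟩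
  have hu0 : u ≠ 0 := by
    rintro rfl
    rw [mul_zero] at hdk
    exact hd0 hdk
  have hdB : u * z ^ k ∈ B := by
    refine sat_pow hϖO hϖO' sat k (d' * z ^ k) (B.mul_mem hd' (pow_mem hzB k)) (u * z ^ k)
      (O.mul_mem _ _ hu1 (pow_mem hzO k)) ?_ (by rw [hdk]; ring)
    have : u * z ^ k = d' * w ^ k := by rw [hdk, hzw]; ring
    rw [this]
    exact O'.mul_mem _ _ (le' _ hd') (pow_mem hw k)
  have haB : η * u * z ^ k ∈ B := by
    refine sat_pow hϖO hϖO' sat k (a' * z ^ k) (B.mul_mem ha' (pow_mem hzB k)) (η * u * z ^ k)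
      (O.mul_mem _ _ (O.mul_mem _ _ hη hu1) (pow_mem hzO k)) ?_ (by rw [← hηd, hdk]; ring)
    have : η * u * z ^ k = a' * w ^ k := by rw [← hηd, hdk, hzw]; ring
    rw [this]
    exact O'.mul_mem _ _ (le' _ ha') (pow_mem hw k)
  refine ⟨⟨η * u * z ^ k, haB⟩, ⟨u * z ^ k, hdB⟩, ?_, 0, O.zero_mem, ?_⟩
  · rintro ⟨c, hc, hcc⟩
    apply hu.nonunit
    have h1 : (algebraMap R F π)⁻¹ = c * u⁻¹ * (z⁻¹) ^ k := by
      have hϖ0 : algebraMap R F π ≠ 0 := hu.ne_zero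
      have h2 : u * z ^ k = algebraMap R F π * c := hcc
      have h3 : c = u * z ^ k * (algebraMap R F π)⁻¹ := by rw [h2]; field_simp
      rw [h3, inv_pow]; field_simp
    rw [h1]
    exact O.mul_mem _ _ (O.mul_mem _ _ hc hu1') (pow_mem hzinv k)
  · show η * (u * z ^ k) - η * u * z ^ k = algebraMap R F π * 0
    ring

/-! ### The function `z` from a thick node, and its transfer to the other chart -/

/-- At a thick node the numerators of the two coordinates give `z ∈ B` vanishing on exactly one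
of the two components. -/
theorem exists_z_of_thickNode {O1 O2 : ValuationSubring F} {𝔪 : Ideal B} [h𝔪 : 𝔪.IsPrime]
    {x y : F} {e : ℕ}
    (T : ThickNode (locSub B 𝔪).toSubring O1 O2 (algebraMap R F π) x y e)
    (le1 : ∀ x ∈ B, x ∈ O1) (le2 : ∀ x ∈ B, x ∈ O2)
    (hon1 : ¬ OffBranch π B O1 𝔪) (hon2 : ¬ OffBranch π B O2 𝔪) :
    (∃ z : F, z ∈ B ∧ (∃ c ∈ O2, z = algebraMap R F π * c) ∧
        ¬ ∃ c ∈ O1, z = algebraMap R F π * c) ∧
      (∃ z : F, z ∈ B ∧ (∃ c ∈ O1, z = algebraMap R F π * c) ∧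
        ¬ ∃ c ∈ O2, z = algebraMap R F π * c) := by
  constructor
  · obtain ⟨a, d, hd, hxd⟩ := T.x_mem
    obtain ⟨o, ho, hx⟩ : ∃ o ∈ O2, x = algebraMap R F π * o := by
      rw [T.unif2.mem_pi_iff, T.val2_x]
      exact pow_lt_one₀ zero_le T.unif2.val_lt_one T.e_pos.ne'
    refine ⟨(a : F), a.2, ⟨o * (d : F), O2.mul_mem _ _ ho (le2 _ d.2), by rw [← hxd, hx]; ring⟩, ?_⟩
    intro h
    have h1 := (T.unif1.mem_pi_iff _).mp h
    rw [← hxd, map_mul, T.val1_x, one_mul] at h1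
    exact hon1 ⟨d, hd, (T.unif1.mem_pi_iff _).mpr h1⟩
  · obtain ⟨a, d, hd, hyd⟩ := T.y_mem
    obtain ⟨o, ho, hy⟩ : ∃ o ∈ O1, y = algebraMap R F π * o := y_mem_pi T
    refine ⟨(a : F), a.2, ⟨o * (d : F), O1.mul_mem _ _ ho (le1 _ d.2), by rw [← hyd, hy]; ring⟩, ?_⟩
    intro h
    have h1 := (T.unif2.mem_pi_iff _).mp h
    rw [← hyd, map_mul, T.val2_y, one_mul] at h1
    exact hon2 ⟨d, hd, (T.unif2.mem_pi_iff _).mpr h1⟩

/-- Transfer of `z` to the other chart along the overlap. -/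
theorem z_transfer {O' : ValuationSubring F} {B' : Subalgebra R F} {ϖ τ : F}
    (hτ : τ ∈ O) (hτ' : τ⁻¹ ∈ O) (hτ2 : τ ∈ O') (hτ0 : τ ≠ 0)
    (ov : ∀ x ∈ B, ∃ k : ℕ, τ ^ k * x ∈ B') {z : F} (hzB : z ∈ B)
    (hz' : ∃ c ∈ O', z = ϖ * c) (hz : ¬ ∃ c ∈ O, z = ϖ * c) :
    ∃ z' : F, z' ∈ B' ∧ (∃ c ∈ O', z' = ϖ * c) ∧ ¬ ∃ c ∈ O, z' = ϖ * c := by
  obtain ⟨k, hk⟩ := ov z hzB
  obtain ⟨w, hw, hzw⟩ := hz'
  refine ⟨τ ^ k * z, hk, ⟨τ ^ k * w, O'.mul_mem _ _ (pow_mem hτ2 k) hw, by rw [hzw]; ring⟩, ?_⟩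
  rintro ⟨c, hc, hcc⟩
  apply hz
  refine ⟨(τ⁻¹) ^ k * c, O.mul_mem _ _ (pow_mem hτ' k) hc, ?_⟩
  have hτk : τ ^ k ≠ 0 := pow_ne_zero _ hτ0
  calc z = (τ⁻¹) ^ k * (τ ^ k * z) := by rw [inv_pow]; field_simp
    _ = ϖ * ((τ⁻¹) ^ k * c) := by rw [hcc]; ring

/-! ### One chart -/

/-- **`hval` on one chart**: all closed points of the branch `O` in the chart `B`. -/
theorem hval_chart [IsNoetherianRing B] {O' : ValuationSubring F}
    (hu : IsUnifOf O (algebraMap R F π))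
    (le : ∀ x ∈ B, x ∈ O) (le' : ∀ x ∈ B, x ∈ O')
    (frac : ∀ x : F, ∃ a ∈ B, ∃ b ∈ B, b ≠ 0 ∧ x * b = a)
    (sat : ∀ b ∈ B, ∀ c : F, c ∈ O → c ∈ O' → b = algebraMap R F π * c → c ∈ B)
    (arch : ∀ x : F, ∃ k : ℕ, algebraMap R F π ^ k * x ∈ O)
    (smooth : ∀ 𝔪 : Ideal B, 𝔪.IsMaximal → algebraMap R B π ∈ 𝔪 → OffBranch π B O' 𝔪 →
      SmoothAt π B 𝔪)
    (node : ∀ 𝔪 : Ideal B, 𝔪.IsMaximal → algebraMap R B π ∈ 𝔪 → ¬ OffBranch π B O 𝔪 →
      ¬ OffBranch π B O' 𝔪 → NodeCoords π B 𝔪)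
    {z : F} (hzB : z ∈ B) (hz' : ∃ c ∈ O', z = algebraMap R F π * c)
    (hz : ¬ ∃ c ∈ O, z = algebraMap R F π * c)
    (𝔪 : Ideal B) (h𝔪 : 𝔪.IsMaximal) (hπ𝔪 : algebraMap R B π ∈ 𝔪) (hon : ¬ OffBranch π B O 𝔪)
    (η : F) (hη : η ∈ O) (hη' : η⁻¹ ∈ O) :
    (∃ b, InLocal B 𝔪 b ∧ ∃ c ∈ O, η - b = algebraMap R F π * c) ∨
      (∃ b, InLocal B 𝔪 b ∧ ∃ c ∈ O, η⁻¹ - b = algebraMap R F π * c) := by
  have hgen : BranchGen π B O 𝔪 := by
    by_cases hoff : OffBranch π B O' 𝔪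
    · exact branchGen_of_smoothAt le (smooth 𝔪 h𝔪 hπ𝔪 hoff)
    · exact branchGen_of_nodeCoords hu le hon (node 𝔪 h𝔪 hπ𝔪 hon hoff)
  obtain ⟨s, hs, hgen⟩ := hgen
  exact valRing_at hu le h𝔪 hon hs hgen (hfrac_of_z hu le le' frac sat arch hzB hz' hz) hη hη'

end Branch

/-! ### The nodal two-chart model -/

section Model

variable {R K F : Type*} [CommRing R] [Field K] [Field F] [Algebra R K] [Algebra K F]
  [Algebra R F] [IsScalarTower R K F]
  {π : R} {t : F} {B0 B1 : Subalgebra R F} {O1 O2 : ValuationSubring F}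

/-- **`hval` for the component `1` of a `NodalNumData`**, given one function `z` of the chart `B0`
vanishing on the component `2` and not on the component `1`. -/
theorem hval1_of_numData (N : NodalNumData R K F π t B0 B1 O1 O2)
    {z : F} (hzB : z ∈ B0) (hz2 : ∃ c ∈ O2, z = algebraMap R F π * c)
    (hz1 : ¬ ∃ c ∈ O1, z = algebraMap R F π * c) :
    ∀ B : Subalgebra R F, B = B0 ∨ B = B1 → ∀ 𝔪 : Ideal B, 𝔪.IsMaximal →
      algebraMap R B π ∈ 𝔪 → ¬ OffBranch π B O1 𝔪 → ∀ η : F, η ∈ O1 → η⁻¹ ∈ O1 →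
      (∃ b, InLocal B 𝔪 b ∧ ∃ c ∈ O1, η - b = algebraMap R F π * c) ∨
      (∃ b, InLocal B 𝔪 b ∧ ∃ c ∈ O1, η⁻¹ - b = algebraMap R F π * c) := by
  have hu1 : IsUnifOf O1 (algebraMap R F π) := ⟨N.model.pi_nonunit1, N.model.unif1⟩
  rintro B (rfl | rfl) 𝔪 h𝔪 hπ𝔪 hon η hη hη'
  · have := N.noeth0
    exact hval_chart hu1 N.model.le_O1_0 N.model.le_O2_0 N.frac0 N.model.sat0 N.model.arch1
      (fun 𝔪 h hπ hoff => N.smooth0 𝔪 h hπ (Or.inr hoff)) N.node0 hzB hz2 hz1 𝔪 h𝔪 hπ𝔪 hon η hη hη'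
  · have := N.noeth1
    obtain ⟨z', hz'B, hz'2, hz'1⟩ := z_transfer (O := O1) (O' := O2) N.model.tinv_mem_O1
      (by rw [inv_inv]; exact N.model.le_O1_0 _ N.model.t_mem) N.model.tinv_mem_O2
      (inv_ne_zero N.model.t_ne) N.model.ov1 hzB hz2 hz1
    exact hval_chart hu1 N.model.le_O1_1 N.model.le_O2_1 N.frac1 N.model.sat1 N.model.arch1
      (fun 𝔪 h hπ hoff => N.smooth1 𝔪 h hπ (Or.inr hoff)) N.node1 hz'B hz'2 hz'1 𝔪 h𝔪 hπ𝔪 hon η
      hη hη'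

/-- **`hval` for the component `2` of a `NodalNumData`**, given one function `z` of the chart `B0`
vanishing on the component `1` and not on the component `2`. -/
theorem hval2_of_numData (N : NodalNumData R K F π t B0 B1 O1 O2)
    {z : F} (hzB : z ∈ B0) (hz1 : ∃ c ∈ O1, z = algebraMap R F π * c)
    (hz2 : ¬ ∃ c ∈ O2, z = algebraMap R F π * c) :
    ∀ B : Subalgebra R F, B = B0 ∨ B = B1 → ∀ 𝔪 : Ideal B, 𝔪.IsMaximal →
      algebraMap R B π ∈ 𝔪 → ¬ OffBranch π B O2 𝔪 → ∀ η : F, η ∈ O2 → η⁻¹ ∈ O2 →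
      (∃ b, InLocal B 𝔪 b ∧ ∃ c ∈ O2, η - b = algebraMap R F π * c) ∨
      (∃ b, InLocal B 𝔪 b ∧ ∃ c ∈ O2, η⁻¹ - b = algebraMap R F π * c) := by
  have hu2 : IsUnifOf O2 (algebraMap R F π) := ⟨N.model.pi_nonunit2, N.model.unif2⟩
  rintro B (rfl | rfl) 𝔪 h𝔪 hπ𝔪 hon η hη hη'
  · have := N.noeth0
    exact hval_chart hu2 N.model.le_O2_0 N.model.le_O1_0 N.frac0
      (fun b hb c hc2 hc1 h => N.model.sat0 b hb c hc1 hc2 h) N.model.arch2
      (fun 𝔪 h hπ hoff => N.smooth0 𝔪 h hπ (Or.inl hoff))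
      (fun 𝔪 h hπ h2 h1 => N.node0 𝔪 h hπ h1 h2) hzB hz1 hz2 𝔪 h𝔪 hπ𝔪 hon η hη hη'
  · have := N.noeth1
    obtain ⟨z', hz'B, hz'1, hz'2⟩ := z_transfer (O := O2) (O' := O1) N.model.tinv_mem_O2
      (by rw [inv_inv]; exact N.model.le_O2_0 _ N.model.t_mem) N.model.tinv_mem_O1
      (inv_ne_zero N.model.t_ne) N.model.ov1 hzB hz1 hz2
    exact hval_chart hu2 N.model.le_O2_1 N.model.le_O1_1 N.frac1
      (fun b hb c hc2 hc1 h => N.model.sat1 b hb c hc1 hc2 h) N.model.arch2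
      (fun 𝔪 h hπ hoff => N.smooth1 𝔪 h hπ (Or.inl hoff))
      (fun 𝔪 h hπ h2 h1 => N.node1 𝔪 h hπ h1 h2) hz'B hz'1 hz'2 𝔪 h𝔪 hπ𝔪 hon η hη hη'

/-- The two functions `z` in the chart `B0`, from one thick node in either chart. -/
theorem exists_z_of_thickNodes (N : NodalNumData R K F π t B0 B1 O1 O2) {e : ℕ}
    (hth : ThickNodes π B0 B1 O1 O2 e)
    (hnode : ∃ (B : Subalgebra R F) (𝔪 : Ideal B), IsNode π B0 B1 O1 O2 B 𝔪) :
    (∃ z : F, z ∈ B0 ∧ (∃ c ∈ O2, z = algebraMap R F π * c) ∧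
        ¬ ∃ c ∈ O1, z = algebraMap R F π * c) ∧
      (∃ z : F, z ∈ B0 ∧ (∃ c ∈ O1, z = algebraMap R F π * c) ∧
        ¬ ∃ c ∈ O2, z = algebraMap R F π * c) := by
  obtain ⟨B, 𝔪, hs⟩ := hnode
  have hprime : 𝔪.IsPrime := hs.max.isPrime
  rcases hs.chart with rfl | rfl
  · obtain ⟨x, y, hT, -⟩ := hth.1 𝔪 hs.max hs.pi_mem hs.on1 hs.on2
    exact exists_z_of_thickNode hT N.model.le_O1_0 N.model.le_O2_0 hs.on1 hs.on2
  · obtain ⟨x, y, hT, -⟩ := hth.2 𝔪 hs.max hs.pi_mem hs.on1 hs.on2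
    obtain ⟨⟨z, hzB, hz2, hz1⟩, ⟨z', hz'B, hz'1, hz'2⟩⟩ :=
      exists_z_of_thickNode hT N.model.le_O1_1 N.model.le_O2_1 hs.on1 hs.on2
    have ht1 : t ∈ O1 := N.model.le_O1_0 _ N.model.t_mem
    have ht2 : t ∈ O2 := N.model.le_O2_0 _ N.model.t_mem
    exact ⟨z_transfer (O := O1) (O' := O2) ht1 N.model.tinv_mem_O1 ht2 N.model.t_ne N.model.ov0
        hzB hz2 hz1,
      z_transfer (O := O2) (O' := O1) ht2 N.model.tinv_mem_O2 ht1 N.model.t_ne N.model.ov0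
        hz'B hz'1 hz'2⟩

/-- **The `p`-root closedness inputs `hnorm1` of (WD-2) `RedTrivial58.hred_of_pth_power`, on both
components**, for a `NodalNumData` with thick nodes and at least one node. -/
theorem hnorm_of_thickNodes (N : NodalNumData R K F π t B0 B1 O1 O2)
    (M : Frame (K := K) π B0 B1 O1 O2) {e : ℕ}
    (hth : ThickNodes π B0 B1 O1 O2 e)
    (hnode : ∃ (B : Subalgebra R F) (𝔪 : Ideal B), IsNode π B0 B1 O1 O2 B 𝔪)
    {p : ℕ} (hp : 0 < p) :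
    (∀ B : Subalgebra R F, B = B0 ∨ B = B1 → ∀ 𝔪 : Ideal B, 𝔪.IsMaximal →
      algebraMap R B π ∈ 𝔪 → ¬ OffBranch π B O1 𝔪 → ∀ η : F, η ∈ O1 →
      (∃ b, InLocal B 𝔪 b ∧ ∃ c ∈ O1, η ^ p - b = algebraMap R F π * c) →
      ∃ b', InLocal B 𝔪 b' ∧ ∃ c ∈ O1, η - b' = algebraMap R F π * c) ∧
    (∀ B : Subalgebra R F, B = B0 ∨ B = B1 → ∀ 𝔪 : Ideal B, 𝔪.IsMaximal →
      algebraMap R B π ∈ 𝔪 → ¬ OffBranch π B O2 𝔪 → ∀ η : F, η ∈ O2 →
      (∃ b, InLocal B 𝔪 b ∧ ∃ c ∈ O2, η ^ p - b = algebraMap R F π * c) →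
      ∃ b', InLocal B 𝔪 b' ∧ ∃ c ∈ O2, η - b' = algebraMap R F π * c) := by
  obtain ⟨⟨z, hzB, hz2, hz1⟩, ⟨z', hz'B, hz'1, hz'2⟩⟩ := exists_z_of_thickNodes N hth hnode
  exact ⟨hnorm1_of_valRing M hp (hval1_of_numData N hzB hz2 hz1),
    hnorm1_of_valRing (frame_swap M) hp (hval2_of_numData N hz'B hz'1 hz'2)⟩

end Model

end Fermat.Agent.M1.Fib.BranchVal58
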